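import Mathlib

/-!
Case I of Fermat's Last Theorem for the exponents 5, 7, 11, 13 via Sophie Germain's theorem.
-/

set_option autoImplicit false

open Finset

namespace Fermat.Agent.Kummer

/-- The cofactor `(y ^ p + z ^ p) / (y + z)`. -/
def sgPhi {R : Type*} [CommRing R] (p : ℕ) (y z : R) : R :=
  ∑ i ∈ range p, y ^ i * (-z) ^ (p - 1 - i)

lemma sgPhi_mul {R : Type*} [CommRing R] {p : ℕ} (hp : Odd p) (y z : R) :
    (y + z) * sgPhi p y z = y ^ p + z ^ p := by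
  have h := (Commute.all y (-z)).geom_sum₂_mul p
  rw [hp.neg_pow] at h
  rw [sgPhi, mul_comm]
  linear_combination h

lemma map_sgPhi {R S : Type*} [CommRing R] [CommRing S] (f : R →+* S) (p : ℕ) (y z : R) :
    f (sgPhi p y z) = sgPhi p (f y) (f z) := by
  simp [sgPhi, map_sum]

lemma sgPhi_of_add_eq_zero {R : Type*} [CommRing R] (p : ℕ) {y z : R} (h : y + z = 0) :
    sgPhi p y z = p * y ^ (p - 1) := by
  have : -z = y := by linear_combination -h
  rw [sgPhi, this, geom_sum₂_self]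

lemma sgPhi_zero_left {R : Type*} [CommRing R] {p : ℕ} (hp : Odd p) (y : R) :
    sgPhi p 0 y = y ^ (p - 1) := by
  obtain ⟨k, rfl⟩ := hp
  rw [sgPhi, Finset.sum_range_succ']
  simp [Even.neg_pow (even_two_mul k)]

lemma sgPhi_isCoprime {p : ℕ} (hp : p.Prime) {y z : ℤ} (hyz : IsCoprime y z)
    (hpyz : ¬ (p : ℤ) ∣ y + z) : IsCoprime (y + z) (sgPhi p y z) := by
  apply isCoprime_of_prime_dvd
  · rintro ⟨h0, -⟩
    exact hpyz (h0 ▸ dvd_zero _)
  · intro r hr hr1 hr2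
    have hsub : r ∣ y - (-z) := by simpa using hr1
    rw [sgPhi, dvd_geom_sum₂_iff_of_dvd_sub hsub] at hr2
    rcases hr.dvd_or_dvd hr2 with h | h
    · have hpp : Prime (p : ℤ) := Nat.prime_iff_prime_int.mp hp
      have hass : Associated r (p : ℤ) := hr.associated_of_dvd hpp h
      exact hpyz (hass.symm.dvd.trans hr1)
    · have hz : r ∣ z := by
        have := hr.dvd_of_dvd_pow h
        simpa using this
      have hy : r ∣ y := by
        have := dvd_sub hr1 hz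
        simpa using this
      exact hr.not_isUnit (hyz.isUnit_of_dvd' hy hz)

/-- the decomposition used in Sophie Germain's theorem -/
lemma sg_decomp {p : ℕ} (hp : p.Prime) (hodd : Odd p) {x y z : ℤ} (hyz : IsCoprime y z)
    (hx : ¬ (p : ℤ) ∣ x) (h : x ^ p + y ^ p + z ^ p = 0) :
    ∃ a α : ℤ, y + z = a ^ p ∧ sgPhi p y z = α ^ p := by
  have hmul : (y + z) * sgPhi p y z = (-x) ^ p := by
    rw [sgPhi_mul hodd, hodd.neg_pow]; linear_combination h
  have hpp : Prime (p : ℤ) := Nat.prime_iff_prime_int.mp hp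
  have hpyz : ¬ (p : ℤ) ∣ y + z := by
    intro hd
    have : (p : ℤ) ∣ (-x) ^ p := hmul ▸ hd.mul_right _
    have := hpp.dvd_of_dvd_pow this
    exact hx (by simpa using this)
  obtain ⟨⟨a, ha⟩, ⟨α, hα⟩⟩ :=
    Int.eq_pow_of_mul_eq_pow_odd (sgPhi_isCoprime hp hyz hpyz) hodd hmul
  exact ⟨a, α, ha, hα⟩

/-- the core of Sophie Germain's argument, with the auxiliary prime dividing `x`. -/
lemma sg_core {p q : ℕ} (hp : p.Prime) (hodd : Odd p) [Fact q.Prime]
    (h1 : ∀ x y z : ZMod q, x ^ p + y ^ p + z ^ p = 0 → x = 0 ∨ y = 0 ∨ z = 0)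
    (h2 : ∀ n : ZMod q, n ^ p ≠ (p : ZMod q))
    {x y z : ℤ} (hxy : IsCoprime x y) (hyz : IsCoprime y z) (hzx : IsCoprime z x)
    (hx : ¬ (p : ℤ) ∣ x) (hy : ¬ (p : ℤ) ∣ y) (hz : ¬ (p : ℤ) ∣ z)
    (h : x ^ p + y ^ p + z ^ p = 0) (hqx : ((x : ℤ) : ZMod q) = 0) : False := by
  obtain ⟨a, α, ha, hα⟩ := sg_decomp hp hodd hyz hx h
  obtain ⟨b, β, hb, -⟩ := sg_decomp hp hodd hzx hy (x := y) (y := z) (z := x)
    (by linear_combination h)
  obtain ⟨c, γ, hc, hγ⟩ := sg_decomp hp hodd hxy hz (x := z) (y := x) (z := y)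
    (by linear_combination h)
  have hq : (q : ℕ).Prime := Fact.out
  have hqq : Prime (q : ℤ) := Nat.prime_iff_prime_int.mp hq
  have hqx' : (q : ℤ) ∣ x := (ZMod.intCast_zmod_eq_zero_iff_dvd x q).mp hqx
  have hy0 : ((y : ℤ) : ZMod q) ≠ 0 := by
    intro h0
    have : (q : ℤ) ∣ y := (ZMod.intCast_zmod_eq_zero_iff_dvd y q).mp h0
    exact hqq.not_isUnit (hxy.isUnit_of_dvd' hqx' this)
  have hz0 : ((z : ℤ) : ZMod q) ≠ 0 := by
    intro h0
    have : (q : ℤ) ∣ z := (ZMod.intCast_zmod_eq_zero_iff_dvd z q).mp h0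
    exact hqq.not_isUnit (hzx.isUnit_of_dvd' this hqx')
  have ha' : (y : ZMod q) + (z : ZMod q) = (a : ZMod q) ^ p := by exact_mod_cast congrArg (Int.cast : ℤ → ZMod q) ha
  have hb' : (z : ZMod q) + (x : ZMod q) = (b : ZMod q) ^ p := by exact_mod_cast congrArg (Int.cast : ℤ → ZMod q) hb
  have hc' : (x : ZMod q) + (y : ZMod q) = (c : ZMod q) ^ p := by exact_mod_cast congrArg (Int.cast : ℤ → ZMod q) hc
  have hsum : (b : ZMod q) ^ p + (c : ZMod q) ^ p + (-(a : ZMod q)) ^ p = 0 := by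
    rw [hodd.neg_pow, ← ha', ← hb', ← hc', hqx]; ring
  have hp0 : p ≠ 0 := hp.ne_zero
  rcases h1 _ _ _ hsum with hb0 | hc0 | ha0
  · rw [hb0, zero_pow hp0, hqx, add_zero] at hb'
    exact hz0 hb'
  · rw [hc0, zero_pow hp0, hqx, zero_add] at hc'
    exact hy0 hc'
  · have ha0' : (a : ZMod q) = 0 := by simpa using ha0
    rw [ha0', zero_pow hp0] at ha'
    have e1 : (α : ZMod q) ^ p = p * (y : ZMod q) ^ (p - 1) := by
      have := congrArg (Int.castRingHom (ZMod q)) hα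
      rw [map_sgPhi, map_pow] at this
      simp only [eq_intCast] at this
      rw [← this, sgPhi_of_add_eq_zero p ha']
    have e2 : (γ : ZMod q) ^ p = (y : ZMod q) ^ (p - 1) := by
      have := congrArg (Int.castRingHom (ZMod q)) hγ
      rw [map_sgPhi, map_pow] at this
      simp only [eq_intCast] at this
      rw [← this, hqx, sgPhi_zero_left hodd]
    have hγ0 : (γ : ZMod q) ≠ 0 := by
      intro h0
      rw [h0, zero_pow hp0] at e2
      exact pow_ne_zero _ hy0 e2.symm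
    apply h2 ((α : ZMod q) * (γ : ZMod q)⁻¹)
    rw [mul_pow, inv_pow, e1, e2]
    field_simp

/-- **Sophie Germain's theorem**. -/
theorem sophie_germain {p q : ℕ} (hp : p.Prime) (hodd : Odd p) [Fact q.Prime]
    (h1 : ∀ x y z : ZMod q, x ^ p + y ^ p + z ^ p = 0 → x = 0 ∨ y = 0 ∨ z = 0)
    (h2 : ∀ n : ZMod q, n ^ p ≠ (p : ZMod q))
    {x y z : ℤ} (hxy : IsCoprime x y) (hyz : IsCoprime y z) (hzx : IsCoprime z x)
    (h : x ^ p + y ^ p + z ^ p = 0) : (p : ℤ) ∣ x * y * z := by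
  by_contra hcon
  have hx : ¬ (p : ℤ) ∣ x := fun hd => hcon ((hd.mul_right y).mul_right z)
  have hy : ¬ (p : ℤ) ∣ y := fun hd => hcon ((hd.mul_left x).mul_right z)
  have hz : ¬ (p : ℤ) ∣ z := fun hd => hcon (hd.mul_left (x * y))
  have hmod : (x : ZMod q) ^ p + (y : ZMod q) ^ p + (z : ZMod q) ^ p = 0 := by
    exact_mod_cast congrArg (Int.cast : ℤ → ZMod q) h
  rcases h1 _ _ _ hmod with h0 | h0 | h0
  · exact sg_core hp hodd h1 h2 hxy hyz hzx hx hy hz h h0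
  · exact sg_core hp hodd h1 h2 hyz hzx hxy hy hz hx (by linear_combination h) h0
  · exact sg_core hp hodd h1 h2 hzx hxy hyz hz hx hy (by linear_combination h) h0


/-! ### The auxiliary primes -/

lemma sg_pow_5_11 : ∀ x : ZMod 11, (x = 0 ∧ x ^ 5 = 0) ∨ x ^ 5 = 1 ∨ x ^ 5 = -1 := by decide

lemma sg_pow_11_23 : ∀ x : ZMod 23, (x = 0 ∧ x ^ 11 = 0) ∨ x ^ 11 = 1 ∨ x ^ 11 = -1 := by decide

lemma sg_pow_7_29 : ∀ x : ZMod 29,
    (x = 0 ∧ x ^ 7 = 0) ∨ x ^ 7 = 1 ∨ x ^ 7 = -1 ∨ x ^ 7 = 12 ∨ x ^ 7 = -12 := by decide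

lemma sg_pow_13_53 : ∀ x : ZMod 53,
    (x = 0 ∧ x ^ 13 = 0) ∨ x ^ 13 = 1 ∨ x ^ 13 = -1 ∨ x ^ 13 = 23 ∨ x ^ 13 = -23 := by decide

lemma sg_h1_5 (x y z : ZMod 11) (h : x ^ 5 + y ^ 5 + z ^ 5 = 0) : x = 0 ∨ y = 0 ∨ z = 0 := by
  rcases sg_pow_5_11 x with ⟨hx, -⟩ | hx | hx
  · exact Or.inl hx
  all_goals
    rcases sg_pow_5_11 y with ⟨hy, -⟩ | hy | hy
    · exact Or.inr (Or.inl hy)
    all_goals
      rcases sg_pow_5_11 z with ⟨hz, -⟩ | hz | hz
      · exact Or.inr (Or.inr hz)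
      all_goals
        rw [hx, hy, hz] at h
        exact absurd h (by decide)

lemma sg_h2_5 (n : ZMod 11) : n ^ 5 ≠ ((5 : ℕ) : ZMod 11) := by
  rcases sg_pow_5_11 n with ⟨-, h⟩ | h | h <;> rw [h] <;> decide

lemma sg_h1_11 (x y z : ZMod 23) (h : x ^ 11 + y ^ 11 + z ^ 11 = 0) : x = 0 ∨ y = 0 ∨ z = 0 := by
  rcases sg_pow_11_23 x with ⟨hx, -⟩ | hx | hx
  · exact Or.inl hx
  all_goals
    rcases sg_pow_11_23 y with ⟨hy, -⟩ | hy | hy
    · exact Or.inr (Or.inl hy)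
    all_goals
      rcases sg_pow_11_23 z with ⟨hz, -⟩ | hz | hz
      · exact Or.inr (Or.inr hz)
      all_goals
        rw [hx, hy, hz] at h
        exact absurd h (by decide)

lemma sg_h2_11 (n : ZMod 23) : n ^ 11 ≠ ((11 : ℕ) : ZMod 23) := by
  rcases sg_pow_11_23 n with ⟨-, h⟩ | h | h <;> rw [h] <;> decide

lemma sg_h1_7 (x y z : ZMod 29) (h : x ^ 7 + y ^ 7 + z ^ 7 = 0) : x = 0 ∨ y = 0 ∨ z = 0 := by
  rcases sg_pow_7_29 x with ⟨hx, -⟩ | hx | hx | hx | hx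
  · exact Or.inl hx
  all_goals
    rcases sg_pow_7_29 y with ⟨hy, -⟩ | hy | hy | hy | hy
    · exact Or.inr (Or.inl hy)
    all_goals
      rcases sg_pow_7_29 z with ⟨hz, -⟩ | hz | hz | hz | hz
      · exact Or.inr (Or.inr hz)
      all_goals
        rw [hx, hy, hz] at h
        exact absurd h (by decide)

lemma sg_h2_7 (n : ZMod 29) : n ^ 7 ≠ ((7 : ℕ) : ZMod 29) := by
  rcases sg_pow_7_29 n with ⟨-, h⟩ | h | h | h | h <;> rw [h] <;> decide

lemma sg_h1_13 (x y z : ZMod 53) (h : x ^ 13 + y ^ 13 + z ^ 13 = 0) : x = 0 ∨ y = 0 ∨ z = 0 := by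
  rcases sg_pow_13_53 x with ⟨hx, -⟩ | hx | hx | hx | hx
  · exact Or.inl hx
  all_goals
    rcases sg_pow_13_53 y with ⟨hy, -⟩ | hy | hy | hy | hy
    · exact Or.inr (Or.inl hy)
    all_goals
      rcases sg_pow_13_53 z with ⟨hz, -⟩ | hz | hz | hz | hz
      · exact Or.inr (Or.inr hz)
      all_goals
        rw [hx, hy, hz] at h
        exact absurd h (by decide)

lemma sg_h2_13 (n : ZMod 53) : n ^ 13 ≠ ((13 : ℕ) : ZMod 53) := by
  rcases sg_pow_13_53 n with ⟨-, h⟩ | h | h | h | h <;> rw [h] <;> decide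

/-- coprimality propagates along a Fermat equation -/
lemma sg_coprime_of_eq {p : ℕ} (hp0 : p ≠ 0) {a b c : ℤ} (hab : IsCoprime a b)
    (h : a ^ p + b ^ p = c ^ p) : IsCoprime b c := by
  have h1 : IsCoprime (b ^ p) (a ^ p) := (hab.symm.pow : IsCoprime (b ^ p) (a ^ p))
  have h2 : IsCoprime (b ^ p) (c ^ p) := by
    rw [← h]
    have := h1.add_mul_left_right 1
    simpa [add_comm] using this
  exact (IsCoprime.pow_iff (Nat.pos_of_ne_zero hp0) (Nat.pos_of_ne_zero hp0)).mp h2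

/-- Case I of Fermat's Last Theorem for `p = 5, 7, 11, 13`. -/
theorem caseI {p : ℕ} (hp : p = 5 ∨ p = 7 ∨ p = 11 ∨ p = 13) {a b c : ℤ} (hab : IsCoprime a b)
    (h : a ^ p + b ^ p = c ^ p) : (p : ℤ) ∣ a * b * c := by
  have hp0 : p ≠ 0 := by rcases hp with rfl | rfl | rfl | rfl <;> norm_num
  have hodd : Odd p := by rcases hp with rfl | rfl | rfl | rfl <;> decide
  have hbc : IsCoprime b c := sg_coprime_of_eq hp0 hab h
  have hac : IsCoprime a c := sg_coprime_of_eq hp0 hab.symm (by rw [add_comm]; exact h)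
  have hsum : a ^ p + b ^ p + (-c) ^ p = 0 := by rw [hodd.neg_pow]; linear_combination h
  have key : (p : ℤ) ∣ a * b * (-c) := by
    rcases hp with rfl | rfl | rfl | rfl
    · haveI : Fact (Nat.Prime 11) := ⟨by norm_num⟩
      exact sophie_germain (q := 11) (by norm_num) hodd sg_h1_5 sg_h2_5 hab hbc.neg_right
        hac.symm.neg_left hsum
    · haveI : Fact (Nat.Prime 29) := ⟨by norm_num⟩
      exact sophie_germain (q := 29) (by norm_num) hodd sg_h1_7 sg_h2_7 hab hbc.neg_right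
        hac.symm.neg_left hsum
    · haveI : Fact (Nat.Prime 23) := ⟨by norm_num⟩
      exact sophie_germain (q := 23) (by norm_num) hodd sg_h1_11 sg_h2_11 hab hbc.neg_right
        hac.symm.neg_left hsum
    · haveI : Fact (Nat.Prime 53) := ⟨by norm_num⟩
      exact sophie_germain (q := 53) (by norm_num) hodd sg_h1_13 sg_h2_13 hab hbc.neg_right
        hac.symm.neg_left hsum
  simpa using key

end Fermat.Agent.Kummer
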