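import Mathlib

/-!
Abstract form of Kummer's descent (second case of Fermat's Last Theorem) in a principal ideal
domain `R` containing a primitive `p`-th root of unity `η`, under the hypotheses gathered in
`DescentHyp`.
-/

set_option autoImplicit false

open Polynomial Finset

namespace Fermat.Agent.Kummer

/-- Hypotheses on a ring `R` (meant: the ring of integers of the `p`-th cyclotomic field). -/
structure DescentHyp (R : Type*) [CommRing R] (p : ℕ) (η : R) : Prop where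
  prim : IsPrimitiveRoot η p
  prime : Prime (η - 1)
  int_mod : ∀ x : R, ∃ n : ℤ, η - 1 ∣ x - (n : R)
  dvd_int : ∀ n : ℤ, η - 1 ∣ (n : R) → (p : ℤ) ∣ n
  pow_mod : ∀ x : R, ∃ n : ℤ, (p : R) ∣ x ^ p - (n : R)
  p_dvd : (p : R) ∣ (η - 1) ^ p
  kummer : ∀ u : Rˣ, (∃ n : ℤ, (p : R) ∣ (u : R) - (n : R)) → ∃ v : Rˣ, u = v ^ p

/-- The generalised Fermat equation. -/
def Sol (R : Type*) [CommRing R] (p : ℕ) (η : R) (m : ℕ) : Prop :=
  ∃ (x y z : R) (ε : Rˣ), ¬ (η - 1 ∣ y) ∧ ¬ (η - 1 ∣ z) ∧ IsCoprime x y ∧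
    x ^ p + y ^ p = ε * ((η - 1) ^ m * z) ^ p

variable {R : Type*} [CommRing R] [IsDomain R] {p : ℕ} {η : R}

section basic

variable (H : DescentHyp R p η) (hp : p.Prime)
include H hp

lemma DescentHyp.lam_dvd_p : η - 1 ∣ (p : R) := H.prim.sub_one_dvd_natCast hp.one_lt

lemma DescentHyp.lam_dvd_root_sub {μ μ' : R} (hμ : μ ∈ nthRootsFinset p (1 : R))
    (hμ' : μ' ∈ nthRootsFinset p (1 : R)) : η - 1 ∣ μ - μ' :=
  H.prim.sub_one_dvd_sub hp hμ hμ'

lemma DescentHyp.eta_mem : η ∈ nthRootsFinset p (1 : R) :=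
  (mem_nthRootsFinset hp.pos 1).2 H.prim.pow_eq_one

lemma DescentHyp.eta_pow_mem (i : ℕ) : η ^ i ∈ nthRootsFinset p (1 : R) := by
  rw [mem_nthRootsFinset hp.pos 1, ← pow_mul, mul_comm, pow_mul, H.prim.pow_eq_one, one_pow]

/-- all factors are divisible by `λ`. -/
lemma DescentHyp.lam_dvd_factor (hp2 : p ≠ 2) {x y c : R} (hc : η - 1 ∣ c)
    (e : x ^ p + y ^ p = c) {μ : R} (hμ : μ ∈ nthRootsFinset p (1 : R)) :
    η - 1 ∣ x + μ * y := by
  have hodd : Odd p := hp.odd_of_ne_two hp2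
  rw [H.prim.pow_add_pow_eq_prod_add_mul x y hodd] at e
  rw [← e] at hc
  obtain ⟨μ₁, hμ₁, h₁⟩ := H.prime.exists_mem_finset_dvd hc
  have h2 : η - 1 ∣ (μ - μ₁) * y := Dvd.dvd.mul_right (H.lam_dvd_root_sub hp hμ hμ₁) y
  have : x + μ * y = (x + μ₁ * y) + (μ - μ₁) * y := by ring
  rw [this]
  exact dvd_add h₁ h2

/-- `1 + η + ... + η^(i-1) ≡ i` modulo `λ`. -/
lemma DescentHyp.geom_sum_mod (i : ℕ) : η - 1 ∣ (∑ j ∈ range i, η ^ j) - (i : R) := by
  induction i with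
  | zero => simp
  | succ i ih =>
    rw [sum_range_succ]
    have h1 : η - 1 ∣ η ^ i - 1 := by simpa using sub_dvd_pow_sub_pow η 1 i
    have : (∑ j ∈ range i, η ^ j) + η ^ i - ((i + 1 : ℕ) : R)
        = ((∑ j ∈ range i, η ^ j) - (i : R)) + (η ^ i - 1) := by push_cast; ring
    rw [this]
    exact dvd_add ih h1

/-- One of the factors is divisible by `λ ^ 2`. -/
lemma DescentHyp.exists_sq_dvd {x y : R} (hy : ¬ (η - 1 ∣ y)) (hxy : η - 1 ∣ x + y) :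
    ∃ i : ℕ, (η - 1) ^ 2 ∣ x + η ^ i * y := by
  obtain ⟨w, hw⟩ := hxy
  obtain ⟨a, ha⟩ := H.int_mod w
  obtain ⟨b, hb⟩ := H.int_mod y
  have hpb : ¬ (p : ℤ) ∣ b := by
    intro hpb
    apply hy
    have h1 : η - 1 ∣ (b : R) := by
      obtain ⟨k, rfl⟩ := hpb
      push_cast
      exact Dvd.dvd.mul_right (H.lam_dvd_p hp) _
    have := dvd_add hb h1
    simpa using this
  -- find `i` with `p ∣ a + i * b`
  haveI : Fact p.Prime := ⟨hp⟩
  have hb0 : (b : ZMod p) ≠ 0 := by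
    rwa [Ne, ZMod.intCast_zmod_eq_zero_iff_dvd]
  obtain ⟨i, hi⟩ : ∃ i : ℕ, (p : ℤ) ∣ a + i * b := by
    refine ⟨(-(a : ZMod p) / (b : ZMod p)).val, ?_⟩
    rw [← ZMod.intCast_zmod_eq_zero_iff_dvd]
    push_cast
    rw [ZMod.natCast_val, ZMod.cast_id', id]
    field_simp
    ring
  refine ⟨i, ?_⟩
  have h1 : x + η ^ i * y = (η - 1) * (w + (∑ j ∈ range i, η ^ j) * y) := by
    have := mul_geom_sum η i
    calc x + η ^ i * y = (x + y) + (η ^ i - 1) * y := by ring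
      _ = (η - 1) * w + ((η - 1) * ∑ j ∈ range i, η ^ j) * y := by rw [hw, this]
      _ = _ := by ring
  rw [h1, pow_two]
  apply mul_dvd_mul_left
  have h2 : w + (∑ j ∈ range i, η ^ j) * y
      = (w - a) + ((∑ j ∈ range i, η ^ j) - (i : R)) * y + (i : R) * (y - b)
        + ((a + i * b : ℤ) : R) := by push_cast; ring
  rw [h2]
  refine dvd_add (dvd_add (dvd_add ha ?_) ?_) ?_
  · exact Dvd.dvd.mul_right (H.geom_sum_mod hp i) _
  · exact Dvd.dvd.mul_left hb _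
  · obtain ⟨k, hk⟩ := hi
    rw [hk]
    push_cast
    exact Dvd.dvd.mul_right (H.lam_dvd_p hp) _

end basic

section descent

variable [IsPrincipalIdealRing R] (H : DescentHyp R p η) (hp : p.Prime) (hp2 : p ≠ 2)
include H hp hp2

/-- We may assume that `λ ^ 2 ∣ x + y`. -/
lemma DescentHyp.exists_sol_sq {m : ℕ} (h : Sol R p η (m + 1)) :
    ∃ (x y z : R) (ε : Rˣ), ¬ (η - 1 ∣ y) ∧ ¬ (η - 1 ∣ z) ∧ IsCoprime x y ∧
      x ^ p + y ^ p = ε * ((η - 1) ^ (m + 1) * z) ^ p ∧ (η - 1) ^ 2 ∣ x + y := by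
  obtain ⟨x, y, z, ε, hy, hz, hxy, e⟩ := h
  have hc : η - 1 ∣ ε * ((η - 1) ^ (m + 1) * z) ^ p := by
    apply Dvd.dvd.mul_left
    apply dvd_pow _ hp.ne_zero
    apply Dvd.dvd.mul_right
    exact dvd_pow_self _ (Nat.succ_ne_zero m)
  have h1 := H.lam_dvd_factor hp hp2 hc e (one_mem_nthRootsFinset hp.pos)
  rw [one_mul] at h1
  obtain ⟨i, hi⟩ := H.exists_sq_dvd hp hy h1
  have hu : IsUnit (η ^ i) := (H.prim.isUnit hp.ne_zero).pow i
  refine ⟨x, η ^ i * y, z, ε, ?_, hz, ?_, ?_, hi⟩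
  · rwa [hu.dvd_mul_left]
  · exact (isCoprime_mul_unit_left_right hu x y).2 hxy
  · rw [mul_pow, ← pow_mul, mul_comm i p, pow_mul, H.prim.pow_eq_one, one_pow, one_mul, e]

/-- The descent step. -/
theorem DescentHyp.descent {m : ℕ} (h : Sol R p η (m + 1)) : 1 ≤ m ∧ Sol R p η m := by
  classical
  obtain ⟨x, y, z, ε, hy, hz, hxy, e, hsq⟩ := H.exists_sol_sq hp hp2 h
  have hodd : Odd p := hp.odd_of_ne_two hp2
  have hl0 : η - 1 ≠ 0 := H.prime.ne_zero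
  have hc : η - 1 ∣ ε * ((η - 1) ^ (m + 1) * z) ^ p := by
    apply Dvd.dvd.mul_left
    apply dvd_pow _ hp.ne_zero
    apply Dvd.dvd.mul_right
    exact dvd_pow_self _ (Nat.succ_ne_zero m)
  have hdiv : ∀ μ ∈ nthRootsFinset p (1 : R), η - 1 ∣ x + μ * y :=
    fun μ hμ => H.lam_dvd_factor hp hp2 hc e hμ
  choose! w hw using hdiv
  -- the product of the `w μ`
  have hprod : ∏ μ ∈ nthRootsFinset p (1 : R), w μ = ε * ((η - 1) ^ m * z) ^ p := by
    have h1 : ∏ μ ∈ nthRootsFinset p (1 : R), (x + μ * y)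
        = (η - 1) ^ p * ∏ μ ∈ nthRootsFinset p (1 : R), w μ := by
      rw [prod_congr rfl hw, prod_mul_distrib, prod_const, H.prim.card_nthRootsFinset]
    rw [← H.prim.pow_add_pow_eq_prod_add_mul x y hodd, e] at h1
    apply mul_left_cancel₀ (pow_ne_zero p hl0)
    rw [← h1]
    generalize η - 1 = l
    ring
  -- differences
  have hdiff : ∀ μ ∈ nthRootsFinset p (1 : R), ∀ μ' ∈ nthRootsFinset p (1 : R), μ ≠ μ' →
      ∃ u : Rˣ, w μ - w μ' = u * y ∧ μ' * w μ - μ * w μ' = - u * x := by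
    intro μ hμ μ' hμ' hne
    obtain ⟨u, hu⟩ := H.prim.nthRootsFinset_pairwise_associated_sub_one_sub_of_prime hp hμ hμ' hne
    refine ⟨u, ?_, ?_⟩
    · apply mul_left_cancel₀ hl0
      linear_combination (-1 : R) * hw μ hμ + hw μ' hμ' - y * hu
    · apply mul_left_cancel₀ hl0
      linear_combination (-μ') * hw μ hμ + μ * hw μ' hμ' + x * hu
  have hcop : ∀ μ ∈ nthRootsFinset p (1 : R), ∀ μ' ∈ nthRootsFinset p (1 : R), μ ≠ μ' →
      IsCoprime (w μ) (w μ') := by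
    intro μ hμ μ' hμ' hne
    obtain ⟨u, h1, h2⟩ := hdiff μ hμ μ' hμ' hne
    obtain ⟨a, b, hab⟩ := hxy
    have huu : ((u⁻¹ : Rˣ) : R) * u = 1 := by simp
    refine ⟨-a * (u⁻¹ : Rˣ) * μ' + b * (u⁻¹ : Rˣ), a * (u⁻¹ : Rˣ) * μ - b * (u⁻¹ : Rˣ), ?_⟩
    linear_combination (-a * (u⁻¹ : Rˣ)) * h2 + (b * (u⁻¹ : Rˣ)) * h1 + (a * x + b * y) * huu + hab
  have h1mem : (1 : R) ∈ nthRootsFinset p (1 : R) := one_mem_nthRootsFinset hp.pos
  have hw1 : η - 1 ∣ w 1 := by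
    have := hw 1 h1mem
    rw [one_mul] at this
    rw [this, pow_two] at hsq
    exact (mul_dvd_mul_iff_left hl0).1 hsq
  have hwμ : ∀ μ ∈ nthRootsFinset p (1 : R), μ ≠ 1 → ¬ (η - 1 ∣ w μ) := by
    intro μ hμ hne hdvd
    obtain ⟨u, h1, -⟩ := hdiff μ hμ 1 h1mem hne
    have : η - 1 ∣ (u : R) * y := h1 ▸ dvd_sub hdvd hw1
    exact hy ((Units.dvd_mul_left).1 this)
  -- `m ≥ 1`
  have hm : 1 ≤ m := by
    by_contra hm0
    have hm0 : m = 0 := by omega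
    subst hm0
    have h1 : η - 1 ∣ ∏ μ ∈ nthRootsFinset p (1 : R), w μ := hw1.trans (dvd_prod_of_mem w h1mem)
    rw [hprod, pow_zero, one_mul] at h1
    have h2 : η - 1 ∣ z ^ p := (Units.dvd_mul_left).1 h1
    exact hz (H.prime.dvd_of_dvd_pow h2)
  refine ⟨hm, ?_⟩
  -- `p`-th powers
  have hpow : ∀ μ ∈ nthRootsFinset p (1 : R), ∃ d : R, Associated (d ^ p) (w μ) := by
    intro μ hμ
    have hc1 : IsCoprime (w μ) (∏ μ' ∈ (nthRootsFinset p (1 : R)).erase μ, w μ') := by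
      apply IsCoprime.prod_right
      intro μ' hμ'
      exact hcop μ hμ μ' (mem_of_mem_erase hμ') (ne_of_mem_erase hμ').symm
    apply exists_associated_pow_of_associated_pow_mul hc1 (c := (η - 1) ^ m * z)
    rw [mul_prod_erase _ _ hμ, hprod]
    exact ⟨ε, mul_comm _ _⟩
  -- the three roots `1`, `η`, `η' = η⁻¹`
  have hp3 : 2 < p := lt_of_le_of_ne hp.two_le (Ne.symm hp2)
  have hηmem : η ∈ nthRootsFinset p (1 : R) := H.eta_mem hp
  have hη'mem : η ^ (p - 1) ∈ nthRootsFinset p (1 : R) := H.eta_pow_mem hp _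
  have hηη' : η * η ^ (p - 1) = 1 := by
    rw [← pow_succ', Nat.sub_add_cancel hp.one_le, H.prim.pow_eq_one]
  have hη1 : η ≠ 1 := H.prim.ne_one hp.one_lt
  have hη'1 : η ^ (p - 1) ≠ 1 :=
    H.prim.pow_ne_one_of_pos_of_lt (by omega) (by omega)
  have hηη'ne : η ≠ η ^ (p - 1) := by
    intro h
    have h2 : η ^ 2 = 1 := by rw [pow_two]; nth_rewrite 2 [h]; exact hηη'
    exact H.prim.pow_ne_one_of_pos_of_lt (by omega) hp3 h2
  have hrel : w η + η * w (η ^ (p - 1)) = (1 + η) * w 1 := by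
    apply mul_left_cancel₀ hl0
    linear_combination (-1 : R) * hw η hηmem - η * hw _ hη'mem + (1 + η) * hw 1 h1mem + y * hηη'
  obtain ⟨d₁, u₁, hd₁⟩ := hpow η hηmem
  obtain ⟨d₂, u₂, hd₂⟩ := hpow _ hη'mem
  obtain ⟨d₀, u₀, hd₀⟩ := hpow 1 h1mem
  have hld₁ : ¬ (η - 1 ∣ d₁) := by
    intro h
    apply hwμ η hηmem hη1
    rw [← hd₁]
    exact Dvd.dvd.mul_right (dvd_pow h hp.ne_zero) _
  have hld₂ : ¬ (η - 1 ∣ d₂) := by
    intro h
    apply hwμ _ hη'mem hη'1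
    rw [← hd₂]
    exact Dvd.dvd.mul_right (dvd_pow h hp.ne_zero) _
  -- the `λ`-adic valuation of `d₀`
  have hnot : ¬ (η - 1 ∣ ∏ μ ∈ (nthRootsFinset p (1 : R)).erase 1, w μ) := by
    intro h
    obtain ⟨μ, hμ, hd⟩ := H.prime.exists_mem_finset_dvd h
    exact hwμ μ (mem_of_mem_erase hμ) (ne_of_mem_erase hμ) hd
  have hprod1 : w 1 * ∏ μ ∈ (nthRootsFinset p (1 : R)).erase 1, w μ
      = ε * ((η - 1) ^ m * z) ^ p := by
    rw [mul_prod_erase _ _ h1mem, hprod]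
  have hd₀dvd : (η - 1) ^ m ∣ d₀ := by
    have h1 : (η - 1) ^ (m * p) ∣ w 1 := by
      apply H.prime.pow_dvd_of_dvd_mul_right _ hnot
      rw [hprod1, mul_pow, ← pow_mul]
      exact Dvd.dvd.mul_left (Dvd.intro _ rfl) _
    rw [← hd₀, Units.dvd_mul_right, pow_mul] at h1
    exact (UniqueFactorizationMonoid.pow_dvd_pow_iff_dvd hp.ne_zero).1 h1
  obtain ⟨z', hz'⟩ := hd₀dvd
  have hlz' : ¬ (η - 1 ∣ z') := by
    intro h
    obtain ⟨t, ht⟩ := h
    have h1 : ((η - 1) ^ (m + 1)) ^ p ∣ ((η - 1) ^ m * z) ^ p := by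
      have h2 : ((η - 1) ^ (m + 1)) ^ p ∣ w 1 := by
        rw [← hd₀, hz', ht]
        refine Dvd.dvd.mul_right ?_ _
        apply pow_dvd_pow_of_dvd
        exact ⟨t, by ring⟩
      have h3 := h2.trans (Dvd.intro _ hprod1)
      exact (Units.dvd_mul_left).1 h3
    rw [UniqueFactorizationMonoid.pow_dvd_pow_iff_dvd hp.ne_zero, pow_succ] at h1
    exact hz ((mul_dvd_mul_iff_left (pow_ne_zero m hl0)).1 h1)
  -- units
  obtain ⟨ηu, hηu⟩ := H.prim.isUnit hp.ne_zero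
  obtain ⟨su, hsu⟩ : IsUnit (1 + η) := by
    have := H.prim.geom_sum_isUnit hp.two_le (j := 2)
      ((Nat.coprime_primes Nat.prime_two hp).2 (Ne.symm hp2))
    simpa [sum_range_succ] using this
  have hnew : d₁ ^ p + ((ηu * u₂ * u₁⁻¹ : Rˣ) : R) * d₂ ^ p
      = ((su * u₀ * u₁⁻¹ : Rˣ) : R) * ((η - 1) ^ m * z') ^ p := by
    have hu : (u₁ : R) * ((u₁⁻¹ : Rˣ) : R) = 1 := by simp
    rw [← hd₁, ← hd₂, ← hd₀] at hrel
    apply mul_left_cancel₀ u₁.ne_zero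
    rw [← hz']
    simp only [Units.val_mul, hηu, hsu]
    linear_combination hrel + (η * u₂ * d₂ ^ p - (1 + η) * u₀ * d₀ ^ p) * hu
  generalize ηu * u₂ * u₁⁻¹ = δ at hnew
  generalize su * u₀ * u₁⁻¹ = ε' at hnew
  have hpdvd : (p : R) ∣ d₁ ^ p + δ * d₂ ^ p := by
    rw [hnew]
    apply Dvd.dvd.mul_left
    rw [mul_pow]
    apply Dvd.dvd.mul_right
    refine H.p_dvd.trans ?_
    exact pow_dvd_pow_of_dvd (dvd_pow_self _ (by omega)) p
  obtain ⟨a, ha⟩ := H.pow_mod d₁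
  obtain ⟨b, hb⟩ := H.pow_mod d₂
  have hpb : ¬ (p : ℤ) ∣ b := by
    intro hpb
    apply hld₂
    have h1 : (p : R) ∣ (b : R) := by
      obtain ⟨k, rfl⟩ := hpb
      push_cast
      exact Dvd.intro _ rfl
    have h2 : (p : R) ∣ d₂ ^ p := by simpa using dvd_add hb h1
    exact H.prime.dvd_of_dvd_pow ((H.lam_dvd_p hp).trans h2)
  have hcopb : IsCoprime (b : ℤ) (p : ℤ) :=
    ((Nat.prime_iff_prime_int.1 hp).coprime_iff_not_dvd.2 hpb).symm
  obtain ⟨b', k, hbk⟩ := hcopb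
  have hδ : ∃ n : ℤ, (p : R) ∣ (δ : R) - (n : R) := by
    refine ⟨-a * b', ?_⟩
    have hbk' : (b' : R) * b + k * p = 1 := by exact_mod_cast congrArg (Int.cast : ℤ → R) hbk
    have : (δ : R) - ((-a * b' : ℤ) : R)
        = b' * ((d₁ ^ p + δ * d₂ ^ p) - (d₁ ^ p - a) - δ * (d₂ ^ p - b)) + δ * k * p := by
      push_cast
      linear_combination (-(δ : R)) * hbk'
    rw [this]
    exact dvd_add (Dvd.dvd.mul_left (dvd_sub (dvd_sub hpdvd ha) (Dvd.dvd.mul_left hb _)) _)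
      (Dvd.intro_left _ rfl)
  obtain ⟨v, hv⟩ := H.kummer δ hδ
  refine ⟨d₁, v * d₂, z', ε', ?_, hlz', ?_, ?_⟩
  · rwa [Units.dvd_mul_left]
  · have h1 := hcop η hηmem _ hη'mem hηη'ne
    rw [← hd₁, ← hd₂] at h1
    have h2 : IsCoprime d₁ d₂ := by
      have := IsCoprime.of_mul_left_left (IsCoprime.of_mul_right_left h1)
      exact (IsCoprime.pow_iff hp.pos hp.pos).1 this
    exact (isCoprime_mul_unit_left_right v.isUnit _ _).2 h2
  · rw [mul_pow, ← hnew, hv]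
    push_cast
    ring

/-- The generalised Fermat equation has no solution. -/
theorem DescentHyp.not_sol (m : ℕ) : ¬ Sol R p η (m + 1) := by
  induction m with
  | zero => intro h; have := (H.descent hp hp2 h).1; omega
  | succ m ih => intro h; exact ih (H.descent hp hp2 h).2

end descent

end Fermat.Agent.Kummer
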