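import Mathlib

/-!
Congruences in the ring of integers of the `p`-th cyclotomic field: every element is congruent to
a rational integer modulo `ζ - 1`, and every `p`-th power is congruent to a rational integer
modulo `p`.
-/

set_option autoImplicit false

open NumberField

namespace Fermat.Agent.Kummer

variable {p : ℕ} [hp : Fact p.Prime] {K : Type*} [Field K] [NumberField K]
  [IsCyclotomicExtension {p} ℚ K] {ζ : K} (hζ : IsPrimitiveRoot ζ p)

include hζ in
lemma mem_adjoin_toInteger (x : 𝓞 K) : x ∈ Algebra.adjoin ℤ {hζ.toInteger} := by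
  rw [IsCyclotomicExtension.Rat.adjoin_singleton_eq_top hζ]
  trivial

/-- Every algebraic integer of the cyclotomic field is congruent to a rational integer modulo
`ζ - 1`. -/
lemma exists_int_sub_dvd (x : 𝓞 K) : ∃ n : ℤ, hζ.toInteger - 1 ∣ x - (n : 𝓞 K) := by
  induction mem_adjoin_toInteger hζ x using Algebra.adjoin_induction with
  | mem x hx =>
    rw [Set.mem_singleton_iff] at hx
    exact ⟨1, by simp [hx]⟩
  | algebraMap r => exact ⟨r, by simp⟩
  | add x y _ _ hx hy =>
    obtain ⟨n, hn⟩ := hx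
    obtain ⟨m, hm⟩ := hy
    refine ⟨n + m, ?_⟩
    have : x + y - ((n + m : ℤ) : 𝓞 K) = (x - n) + (y - m) := by push_cast; ring
    rw [this]
    exact dvd_add hn hm
  | mul x y _ _ hx hy =>
    obtain ⟨n, hn⟩ := hx
    obtain ⟨m, hm⟩ := hy
    refine ⟨n * m, ?_⟩
    have : x * y - ((n * m : ℤ) : 𝓞 K) = (x - n) * y + n * (y - m) := by push_cast; ring
    rw [this]
    exact dvd_add (Dvd.dvd.mul_right hn _) (Dvd.dvd.mul_left hm _)

include hζ in
/-- Every `p`-th power in the ring of integers of the cyclotomic field is congruent to a rational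
integer modulo `p`. -/
lemma exists_int_pow_sub_dvd (x : 𝓞 K) : ∃ n : ℤ, (p : 𝓞 K) ∣ x ^ p - (n : 𝓞 K) := by
  induction mem_adjoin_toInteger hζ x using Algebra.adjoin_induction with
  | mem x hx =>
    rw [Set.mem_singleton_iff] at hx
    exact ⟨1, by simp [hx, hζ.toInteger_isPrimitiveRoot.pow_eq_one]⟩
  | algebraMap r => exact ⟨r ^ p, by simp⟩
  | add x y _ _ hx hy =>
    obtain ⟨n, hn⟩ := hx
    obtain ⟨m, hm⟩ := hy
    obtain ⟨r, hr⟩ := exists_add_pow_prime_eq hp.out x y
    refine ⟨n + m, ?_⟩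
    have : (x + y) ^ p - ((n + m : ℤ) : 𝓞 K) = (x ^ p - n) + (y ^ p - m) + p * (x * y * r) := by
      rw [hr]; push_cast; ring
    rw [this]
    exact dvd_add (dvd_add hn hm) (Dvd.intro _ rfl)
  | mul x y _ _ hx hy =>
    obtain ⟨n, hn⟩ := hx
    obtain ⟨m, hm⟩ := hy
    refine ⟨n * m, ?_⟩
    have : (x * y) ^ p - ((n * m : ℤ) : 𝓞 K) = (x ^ p - n) * y ^ p + n * (y ^ p - m) := by
      push_cast; ring
    rw [this]
    exact dvd_add (Dvd.dvd.mul_right hn _) (Dvd.dvd.mul_left hm _)

end Fermat.Agent.Kummer
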