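import Fermat.Agent.Kummer.Defs
import Fermat.Agent.Kummer.ModP
import Fermat.Agent.Kummer.Descent

/-!
The second case of Fermat's Last Theorem for a prime `p` such that the ring of integers of the
`p`-th cyclotomic field is principal and Kummer's lemma holds.
-/

set_option autoImplicit false

open NumberField

namespace Fermat.Agent.Kummer

lemma descentHyp {p : ℕ} [hp : Fact p.Prime] (K : Type) [Field K] [NumberField K]
    [IsCyclotomicExtension {p} ℚ K] (hK : KummerLemma p K) {ζ : K} (hζ : IsPrimitiveRoot ζ p) :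
    DescentHyp (𝓞 K) p hζ.toInteger where
  prim := hζ.toInteger_isPrimitiveRoot
  prime := hζ.zeta_sub_one_prime'
  int_mod := exists_int_sub_dvd hζ
  dvd_int := fun _ h => (IsCyclotomicExtension.Rat.zeta_sub_one_dvd_intCast_iff' p hζ).1 h
  pow_mod := exists_int_pow_sub_dvd hζ
  p_dvd := by
    obtain ⟨u, hu⟩ := IsCyclotomicExtension.Rat.associated_zeta_sub_one_pow_prime p hζ
    have h1 : (p : 𝓞 K) ∣ (hζ.toInteger - 1) ^ (p - 1) := by
      rw [← hu]
      exact (Units.mul_right_dvd).2 dvd_rfl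
    exact h1.trans (pow_dvd_pow _ (Nat.sub_le p 1))
  kummer := hK

theorem caseII {p : ℕ} [hpf : Fact p.Prime] (hp : p ≠ 2) (K : Type) [Field K] [NumberField K]
    [IsCyclotomicExtension {p} ℚ K] [IsPrincipalIdealRing (𝓞 K)] (hK : KummerLemma p K)
    {a b c : ℤ} (hc : c ≠ 0) (hab : IsCoprime a b) (hpc : (p : ℤ) ∣ c)
    (h : a ^ p + b ^ p = c ^ p) : False := by
  have hζ := IsCyclotomicExtension.zeta_spec p ℚ K
  have H := descentHyp K hK hζ
  have hpp : Prime (p : ℤ) := Nat.prime_iff_prime_int.1 hpf.out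
  -- write `c = p ^ k * c'`
  obtain ⟨k, c', hc', hcc'⟩ : ∃ (k : ℕ) (c' : ℤ), ¬ (p : ℤ) ∣ c' ∧ c = (p : ℤ) ^ k * c' :=
    WfDvdMonoid.max_power_factor hc hpp.irreducible
  have hk : k ≠ 0 := by
    rintro rfl
    rw [pow_zero, one_mul] at hcc'
    exact hc' (hcc' ▸ hpc)
  have hpb : ¬ (p : ℤ) ∣ b := by
    intro hpb
    have hpa : (p : ℤ) ∣ a := by
      have h1 : (p : ℤ) ∣ a ^ p := by
        have : a ^ p = c ^ p - b ^ p := by linarith
        rw [this]
        exact dvd_sub (dvd_pow hpc hpf.out.ne_zero) (dvd_pow hpb hpf.out.ne_zero)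
      exact hpp.dvd_of_dvd_pow h1
    exact hpp.not_isUnit (hab.isUnit_of_dvd' hpa hpb)
  obtain ⟨u, hu⟩ := IsCyclotomicExtension.Rat.associated_zeta_sub_one_pow_prime p hζ
  have hm : (p - 1) * k = ((p - 1) * k - 1) + 1 := by
    have h1 : 0 < (p - 1) * k :=
      Nat.mul_pos (Nat.sub_pos_of_lt hpf.out.one_lt) (Nat.pos_of_ne_zero hk)
    omega
  apply H.not_sol hpf.out hp ((p - 1) * k - 1)
  rw [← hm]
  refine ⟨(a : 𝓞 K), (b : 𝓞 K), (c' : 𝓞 K), (u ^ k) ^ p, ?_, ?_, hab.intCast, ?_⟩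
  · rwa [IsCyclotomicExtension.Rat.zeta_sub_one_dvd_intCast_iff' p hζ]
  · rwa [IsCyclotomicExtension.Rat.zeta_sub_one_dvd_intCast_iff' p hζ]
  · have h1 : ((a : 𝓞 K)) ^ p + (b : 𝓞 K) ^ p = (c : 𝓞 K) ^ p := by exact_mod_cast h
    rw [h1, hcc']
    push_cast
    rw [← hu, pow_mul]
    ring

end Fermat.Agent.Kummer
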