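import Mathlib

/-!
Shared definitions for the direct (Kummer style) proof of Fermat's Last Theorem for the
exponents 5, 7, 11, 13 (used for S10 and S11).
-/

set_option autoImplicit false

open NumberField

namespace Fermat.Agent.Kummer

/-- Kummer's lemma (as a statement) for a number field `K` (meant: the `p`-th cyclotomic field):
a unit congruent to a rational integer modulo `p` is a `p`-th power of a unit. -/
def KummerLemma (p : ℕ) (K : Type) [Field K] [NumberField K] : Prop :=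
  ∀ u : (𝓞 K)ˣ, (∃ n : ℤ, (p : 𝓞 K) ∣ (u : 𝓞 K) - (n : 𝓞 K)) → ∃ v : (𝓞 K)ˣ, u = v ^ p

/-- A family of units is independent modulo `p` and rational integers. -/
def UnitsIndepModP (p : ℕ) (K : Type) [Field K] [NumberField K] {ι : Type} [Fintype ι]
    (c : ι → (𝓞 K)ˣ) : Prop :=
  ∀ e : ι → ℤ,
    (∃ n : ℤ, (p : 𝓞 K) ∣ ((∏ i, c i ^ e i : (𝓞 K)ˣ) : 𝓞 K) - (n : 𝓞 K)) → ∀ i, (p : ℤ) ∣ e i

end Fermat.Agent.Kummer
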