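import Fermat.Agent.Kummer.LogDer

set_option autoImplicit false
set_option maxHeartbeats 1000000
set_option linter.unusedSimpArgs false

open NumberField Polynomial

namespace Fermat.Agent.Kummer

local instance fact_prime_11 : Fact (Nat.Prime 11) := ⟨by norm_num⟩

theorem eleven_eq_zero : (11 : (ZMod 11)[X]) = 0 := by
  have := CharP.cast_eq_zero (ZMod 11)[X] 11
  exact_mod_cast this

theorem hl_11_0 : (X : (ZMod 11)[X]) ^ 9 ∣ sP 11 0 - tabPoly 11 9 (fun k => [1, 10, 1, 10, 1, 10, 1, 10, 1].getD k 0) * fP 11 0 := by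
  simp [sP, fP, geomF, geomS, tabPoly, Finset.sum_range_succ]
  exact ⟨(-1), by linear_combination ((-1) * X + (-1) * X ^ 2 + (-1) * X ^ 3 + (-1) * X ^ 4 + (-1) * X ^ 5 + (-1) * X ^ 6 + (-1) * X ^ 7 + (-1) * X ^ 8) * eleven_eq_zero⟩

theorem hl_11_1 : (X : (ZMod 11)[X]) ^ 9 ∣ sP 11 1 - tabPoly 11 9 (fun k => [6, 8, 7, 2, 10, 6, 8, 7, 2].getD k 0) * fP 11 1 := by
  simp [sP, fP, geomF, geomS, tabPoly, Finset.sum_range_succ]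
  exact ⟨(-2), by linear_combination ((-1) + (-2) * X + (-2) * X ^ 2 + (-1) * X ^ 3 + (-2) * X ^ 4 + (-2) * X ^ 5 + (-2) * X ^ 6 + (-2) * X ^ 7 + (-1) * X ^ 8) * eleven_eq_zero⟩

theorem hl_11_2 : (X : (ZMod 11)[X]) ^ 9 ∣ sP 11 2 - tabPoly 11 9 (fun k => [1, 7, 0, 5, 6, 7, 2, 3, 0].getD k 0) * fP 11 2 := by
  simp [sP, fP, geomF, geomS, tabPoly, Finset.sum_range_succ]
  exact ⟨(-3), by linear_combination ((-2) * X + (-2) * X ^ 2 + (-2) * X ^ 3 + (-3) * X ^ 4 + (-4) * X ^ 5 + (-3) * X ^ 6 + (-2) * X ^ 7 + (-1) * X ^ 8) * eleven_eq_zero⟩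

theorem hl_11_3 : (X : (ZMod 11)[X]) ^ 9 ∣ sP 11 3 - tabPoly 11 9 (fun k => [7, 8, 1, 8, 7, 6, 4, 0, 0].getD k 0) * fP 11 3 := by
  simp [sP, fP, geomF, geomS, tabPoly, Finset.sum_range_succ]
  exact ⟨(-4), by linear_combination ((-2) + (-6) * X + (-7) * X ^ 2 + (-7) * X ^ 3 + (-8) * X ^ 4 + (-9) * X ^ 5 + (-8) * X ^ 6 + (-5) * X ^ 7 + (-2) * X ^ 8) * eleven_eq_zero⟩

theorem hl_11_4 : (X : (ZMod 11)[X]) ^ 9 ∣ sP 11 4 - tabPoly 11 9 (fun k => [2, 0, 10, 3, 0, 6, 5, 6, 5].getD k 0) * fP 11 4 := by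
  simp [sP, fP, geomF, geomS, tabPoly, Finset.sum_range_succ]
  exact ⟨(-141) + (-85) * X + (-31) * X ^ 2 + (-5) * X ^ 3, by linear_combination ((-5) * X ^ 2 + (-11) * X ^ 3 + (-12) * X ^ 4 + (-10) * X ^ 5 + (-10) * X ^ 6 + (-13) * X ^ 7 + (-15) * X ^ 8) * eleven_eq_zero⟩

/-- table of logarithmic derivatives -/
def tbl11 : List (List ℕ) := [[1, 10, 1, 10, 1, 10, 1, 10, 1], [6, 8, 7, 2, 10, 6, 8, 7, 2], [1, 7, 0, 5, 6, 7, 2, 3, 0], [7, 8, 1, 8, 7, 6, 4, 0, 0], [2, 0, 10, 3, 0, 6, 5, 6, 5]]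

theorem hlin_11 (e : Fin 5 → ℤ)
    (h : ∀ d < 9, (11 : ℤ) ∣ ∑ i, e i * (((tbl11.getD i.val []).getD d 0 : ℕ) : ℤ)) : ∀ i, (11 : ℤ) ∣ e i := by
  have h0 : (11 : ℤ) ∣ e 0 * 1 + e 1 * 6 + e 2 * 1 + e 3 * 7 + e 4 * 2 := by
    have := h 0 (by norm_num)
    rw [Fin.sum_univ_five] at this
    simpa [tbl11] using this
  have h1 : (11 : ℤ) ∣ e 0 * 10 + e 1 * 8 + e 2 * 7 + e 3 * 8 + e 4 * 0 := by
    have := h 1 (by norm_num)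
    rw [Fin.sum_univ_five] at this
    simpa [tbl11] using this
  have h3 : (11 : ℤ) ∣ e 0 * 10 + e 1 * 2 + e 2 * 5 + e 3 * 8 + e 4 * 3 := by
    have := h 3 (by norm_num)
    rw [Fin.sum_univ_five] at this
    simpa [tbl11] using this
  have h5 : (11 : ℤ) ∣ e 0 * 10 + e 1 * 6 + e 2 * 7 + e 3 * 6 + e 4 * 6 := by
    have := h 5 (by norm_num)
    rw [Fin.sum_univ_five] at this
    simpa [tbl11] using this
  have h7 : (11 : ℤ) ∣ e 0 * 10 + e 1 * 7 + e 2 * 3 + e 3 * 0 + e 4 * 6 := by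
    have := h 7 (by norm_num)
    rw [Fin.sum_univ_five] at this
    simpa [tbl11] using this
  obtain ⟨k0, hk0⟩ := h0
  obtain ⟨k1, hk1⟩ := h1
  obtain ⟨k3, hk3⟩ := h3
  obtain ⟨k5, hk5⟩ := h5
  obtain ⟨k7, hk7⟩ := h7
  intro i
  fin_cases i
  · show (11 : ℤ) ∣ e 0
    exact ⟨9 * k0 + 1 * k1 + 9 * k3 + 9 * k7 - (18 * e 0 + 13 * e 1 + 8 * e 2 + 13 * e 3 + 9 * e 4), by linear_combination 9 * hk0 + 1 * hk1 + 9 * hk3 + 9 * hk7⟩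
  · show (11 : ℤ) ∣ e 1
    exact ⟨6 * k0 + 8 * k1 + 8 * k5 + 1 * k7 - (16 * e 0 + 14 * e 1 + 11 * e 2 + 14 * e 3 + 6 * e 4), by linear_combination 6 * hk0 + 8 * hk1 + 8 * hk5 + 1 * hk7⟩
  · show (11 : ℤ) ∣ e 2
    exact ⟨7 * k0 + 7 * k1 + 1 * k3 + 5 * k5 + 5 * k7 - (17 * e 0 + 15 * e 1 + 10 * e 2 + 13 * e 3 + 7 * e 4), by linear_combination 7 * hk0 + 7 * hk1 + 1 * hk3 + 5 * hk5 + 5 * hk7⟩
  · show (11 : ℤ) ∣ e 3
    exact ⟨4 * k1 + 3 * k3 + 4 * k7 - (10 * e 0 + 6 * e 1 + 5 * e 2 + 5 * e 3 + 3 * e 4), by linear_combination 4 * hk1 + 3 * hk3 + 4 * hk7⟩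
  · show (11 : ℤ) ∣ e 4
    exact ⟨2 * k0 + 2 * k1 + 1 * k3 + 1 * k5 + 9 * k7 - (12 * e 0 + 9 * e 1 + 5 * e 2 + 4 * e 3 + 6 * e 4), by linear_combination 2 * hk0 + 2 * hk1 + 1 * hk3 + 1 * hk5 + 9 * hk7⟩

theorem indep_11 : ∃ c : Fin ((11 - 1) / 2) → (𝓞 (CyclotomicField 11 ℚ))ˣ,
    UnitsIndepModP 11 (CyclotomicField 11 ℚ) c := by
  have inst : IsCyclotomicExtension {11} ℚ (CyclotomicField 11 ℚ) :=
    CyclotomicField.isCyclotomicExtension 11 ℚ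
  refine ⟨cU 11 (IsCyclotomicExtension.zeta_spec 11 ℚ (CyclotomicField 11 ℚ)), ?_⟩
  refine indep_of_table 11 _ (by norm_num) (fun i k => (tbl11.getD i.val []).getD k 0) ?_ ?_
  · intro i
    fin_cases i
    · exact hl_11_0
    · exact hl_11_1
    · exact hl_11_2
    · exact hl_11_3
    · exact hl_11_4
  · exact hlin_11

end Fermat.Agent.Kummer
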