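import Fermat.Agent.Kummer.LogDer

set_option autoImplicit false
set_option maxHeartbeats 1000000
set_option linter.unusedSimpArgs false

open NumberField Polynomial

namespace Fermat.Agent.Kummer

local instance fact_prime_13 : Fact (Nat.Prime 13) := ⟨by norm_num⟩

theorem thirteen_eq_zero : (13 : (ZMod 13)[X]) = 0 := by
  have := CharP.cast_eq_zero (ZMod 13)[X] 13
  exact_mod_cast this

theorem hl_13_0 : (X : (ZMod 13)[X]) ^ 11 ∣ sP 13 0 - tabPoly 13 11 (fun k => [1, 12, 1, 12, 1, 12, 1, 12, 1, 12, 1].getD k 0) * fP 13 0 := by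
  simp [sP, fP, geomF, geomS, tabPoly, Finset.sum_range_succ]
  exact ⟨(-1), by linear_combination ((-1) * X + (-1) * X ^ 2 + (-1) * X ^ 3 + (-1) * X ^ 4 + (-1) * X ^ 5 + (-1) * X ^ 6 + (-1) * X ^ 7 + (-1) * X ^ 8 + (-1) * X ^ 9 + (-1) * X ^ 10) * thirteen_eq_zero⟩

theorem hl_13_1 : (X : (ZMod 13)[X]) ^ 11 ∣ sP 13 1 - tabPoly 13 11 (fun k => [7, 3, 5, 4, 11, 1, 6, 10, 8, 9, 2].getD k 0) * fP 13 1 := by
  simp [sP, fP, geomF, geomS, tabPoly, Finset.sum_range_succ]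
  exact ⟨(-2), by linear_combination ((-1) + (-1) * X + (-1) * X ^ 2 + (-1) * X ^ 3 + (-2) * X ^ 4 + (-1) * X ^ 5 + (-1) * X ^ 6 + (-2) * X ^ 7 + (-2) * X ^ 8 + (-2) * X ^ 9 + (-1) * X ^ 10) * thirteen_eq_zero⟩

theorem hl_13_2 : (X : (ZMod 13)[X]) ^ 11 ∣ sP 13 2 - tabPoly 13 11 (fun k => [1, 4, 0, 3, 10, 2, 12, 9, 0, 10, 3].getD k 0) * fP 13 2 := by
  simp [sP, fP, geomF, geomS, tabPoly, Finset.sum_range_succ]
  exact ⟨(-19) + (-3) * X, by linear_combination ((-1) * X + (-1) * X ^ 2 + (-1) * X ^ 3 + (-3) * X ^ 4 + (-3) * X ^ 5 + (-4) * X ^ 6 + (-5) * X ^ 7 + (-3) * X ^ 8 + (-3) * X ^ 9 + (-3) * X ^ 10) * thirteen_eq_zero⟩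

theorem hl_13_3 : (X : (ZMod 13)[X]) ^ 11 ∣ sP 13 3 - tabPoly 13 11 (fun k => [8, 3, 11, 11, 1, 1, 11, 5, 4, 9, 4].getD k 0) * fP 13 3 := by
  simp [sP, fP, geomF, geomS, tabPoly, Finset.sum_range_succ]
  exact ⟨(-64) + (-25) * X + (-4) * X ^ 2, by linear_combination ((-2) + (-4) * X + (-7) * X ^ 2 + (-10) * X ^ 3 + (-9) * X ^ 4 + (-5) * X ^ 5 + (-5) * X ^ 6 + (-7) * X ^ 7 + (-7) * X ^ 8 + (-7) * X ^ 9 + (-7) * X ^ 10) * thirteen_eq_zero⟩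

theorem hl_13_4 : (X : (ZMod 13)[X]) ^ 11 ∣ sP 13 4 - tabPoly 13 11 (fun k => [2, 0, 12, 6, 0, 2, 11, 4, 7, 3, 5].getD k 0) * fP 13 4 := by
  simp [sP, fP, geomF, geomS, tabPoly, Finset.sum_range_succ]
  exact ⟨(-119) + (-72) * X + (-28) * X ^ 2 + (-5) * X ^ 3, by linear_combination ((-5) * X ^ 2 + (-12) * X ^ 3 + (-14) * X ^ 4 + (-10) * X ^ 5 + (-9) * X ^ 6 + (-12) * X ^ 7 + (-15) * X ^ 8 + (-14) * X ^ 9 + (-12) * X ^ 10) * thirteen_eq_zero⟩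

theorem hl_13_5 : (X : (ZMod 13)[X]) ^ 11 ∣ sP 13 5 - tabPoly 13 11 (fun k => [9, 8, 3, 8, 9, 1, 6, 7, 6, 7, 6].getD k 0) * fP 13 5 := by
  simp [sP, fP, geomF, geomS, tabPoly, Finset.sum_range_succ]
  exact ⟨(-368) + (-268) * X + (-138) * X ^ 2 + (-43) * X ^ 3 + (-6) * X ^ 4, by linear_combination ((-3) + (-11) * X + (-21) * X ^ 2 + (-28) * X ^ 3 + (-31) * X ^ 4 + (-31) * X ^ 5 + (-29) * X ^ 6 + (-26) * X ^ 7 + (-26) * X ^ 8 + (-29) * X ^ 9 + (-31) * X ^ 10) * thirteen_eq_zero⟩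

/-- table of logarithmic derivatives -/
def tbl13 : List (List ℕ) := [[1, 12, 1, 12, 1, 12, 1, 12, 1, 12, 1], [7, 3, 5, 4, 11, 1, 6, 10, 8, 9, 2], [1, 4, 0, 3, 10, 2, 12, 9, 0, 10, 3], [8, 3, 11, 11, 1, 1, 11, 5, 4, 9, 4], [2, 0, 12, 6, 0, 2, 11, 4, 7, 3, 5], [9, 8, 3, 8, 9, 1, 6, 7, 6, 7, 6]]

theorem hlin_13 (e : Fin 6 → ℤ)
    (h : ∀ d < 11, (13 : ℤ) ∣ ∑ i, e i * (((tbl13.getD i.val []).getD d 0 : ℕ) : ℤ)) : ∀ i, (13 : ℤ) ∣ e i := by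
  have h0 : (13 : ℤ) ∣ e 0 * 1 + e 1 * 7 + e 2 * 1 + e 3 * 8 + e 4 * 2 + e 5 * 9 := by
    have := h 0 (by norm_num)
    rw [Fin.sum_univ_six] at this
    simpa [tbl13] using this
  have h1 : (13 : ℤ) ∣ e 0 * 12 + e 1 * 3 + e 2 * 4 + e 3 * 3 + e 4 * 0 + e 5 * 8 := by
    have := h 1 (by norm_num)
    rw [Fin.sum_univ_six] at this
    simpa [tbl13] using this
  have h3 : (13 : ℤ) ∣ e 0 * 12 + e 1 * 4 + e 2 * 3 + e 3 * 11 + e 4 * 6 + e 5 * 8 := by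
    have := h 3 (by norm_num)
    rw [Fin.sum_univ_six] at this
    simpa [tbl13] using this
  have h5 : (13 : ℤ) ∣ e 0 * 12 + e 1 * 1 + e 2 * 2 + e 3 * 1 + e 4 * 2 + e 5 * 1 := by
    have := h 5 (by norm_num)
    rw [Fin.sum_univ_six] at this
    simpa [tbl13] using this
  have h7 : (13 : ℤ) ∣ e 0 * 12 + e 1 * 10 + e 2 * 9 + e 3 * 5 + e 4 * 4 + e 5 * 7 := by
    have := h 7 (by norm_num)
    rw [Fin.sum_univ_six] at this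
    simpa [tbl13] using this
  have h9 : (13 : ℤ) ∣ e 0 * 12 + e 1 * 9 + e 2 * 10 + e 3 * 9 + e 4 * 3 + e 5 * 7 := by
    have := h 9 (by norm_num)
    rw [Fin.sum_univ_six] at this
    simpa [tbl13] using this
  obtain ⟨k0, hk0⟩ := h0
  obtain ⟨k1, hk1⟩ := h1
  obtain ⟨k3, hk3⟩ := h3
  obtain ⟨k5, hk5⟩ := h5
  obtain ⟨k7, hk7⟩ := h7
  obtain ⟨k9, hk9⟩ := h9
  intro i
  fin_cases i
  · show (13 : ℤ) ∣ e 0
    exact ⟨1 * k0 + 3 * k1 + 3 * k3 + 9 * k5 + 7 * k7 + 4 * k9 - (24 * e 0 + 11 * e 1 + 11 * e 2 + 10 * e 3 + 6 * e 4 + 11 * e 5), by linear_combination 1 * hk0 + 3 * hk1 + 3 * hk3 + 9 * hk5 + 7 * hk7 + 4 * hk9⟩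
  · show (13 : ℤ) ∣ e 1
    exact ⟨10 * k0 + 2 * k1 + 10 * k3 + 7 * k5 + 11 * k7 + 6 * k9 - (34 * e 0 + 22 * e 1 + 17 * e 2 + 24 * e 3 + 12 * e 4 + 24 * e 5), by linear_combination 10 * hk0 + 2 * hk1 + 10 * hk3 + 7 * hk5 + 11 * hk7 + 6 * hk9⟩
  · show (13 : ℤ) ∣ e 2
    exact ⟨12 * k0 + 12 * k1 + 2 * k3 + 4 * k5 + 7 * k9 - (24 * e 0 + 15 * e 1 + 11 * e 2 + 17 * e 3 + 5 * e 4 + 21 * e 5), by linear_combination 12 * hk0 + 12 * hk1 + 2 * hk3 + 4 * hk5 + 7 * hk9⟩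
  · show (13 : ℤ) ∣ e 3
    exact ⟨7 * k0 + 11 * k1 + 9 * k3 + 9 * k5 + 6 * k7 + 11 * k9 - (43 * e 0 + 22 * e 1 + 20 * e 2 + 25 * e 3 + 11 * e 4 + 27 * e 5), by linear_combination 7 * hk0 + 11 * hk1 + 9 * hk3 + 9 * hk5 + 6 * hk7 + 11 * hk9⟩
  · show (13 : ℤ) ∣ e 4
    exact ⟨4 * k0 + 2 * k1 + 2 * k3 + 7 * k5 + 1 * k7 + 5 * k9 - (16 * e 0 + 8 * e 1 + 7 * e 2 + 9 * e 3 + 4 * e 4 + 9 * e 5), by linear_combination 4 * hk0 + 2 * hk1 + 2 * hk3 + 7 * hk5 + 1 * hk7 + 5 * hk9⟩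
  · show (13 : ℤ) ∣ e 5
    exact ⟨4 * k0 + 1 * k1 + 2 * k3 + 11 * k5 + 1 * k7 + 2 * k9 - (16 * e 0 + 6 * e 1 + 5 * e 2 + 7 * e 3 + 4 * e 4 + 7 * e 5), by linear_combination 4 * hk0 + 1 * hk1 + 2 * hk3 + 11 * hk5 + 1 * hk7 + 2 * hk9⟩

theorem indep_13 : ∃ c : Fin ((13 - 1) / 2) → (𝓞 (CyclotomicField 13 ℚ))ˣ,
    UnitsIndepModP 13 (CyclotomicField 13 ℚ) c := by
  have inst : IsCyclotomicExtension {13} ℚ (CyclotomicField 13 ℚ) :=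
    CyclotomicField.isCyclotomicExtension 13 ℚ
  refine ⟨cU 13 (IsCyclotomicExtension.zeta_spec 13 ℚ (CyclotomicField 13 ℚ)), ?_⟩
  refine indep_of_table 13 _ (by norm_num) (fun i k => (tbl13.getD i.val []).getD k 0) ?_ ?_
  · intro i
    fin_cases i
    · exact hl_13_0
    · exact hl_13_1
    · exact hl_13_2
    · exact hl_13_3
    · exact hl_13_4
    · exact hl_13_5
  · exact hlin_13

end Fermat.Agent.Kummer
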