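import Fermat.Agent.Kummer.LogDer

set_option autoImplicit false
set_option maxHeartbeats 1000000
set_option linter.unusedSimpArgs false

open NumberField Polynomial

namespace Fermat.Agent.Kummer

local instance fact_prime_5 : Fact (Nat.Prime 5) := ⟨by norm_num⟩

theorem five_eq_zero : (5 : (ZMod 5)[X]) = 0 := by
  have := CharP.cast_eq_zero (ZMod 5)[X] 5
  exact_mod_cast this

theorem hl_5_0 : (X : (ZMod 5)[X]) ^ 3 ∣ sP 5 0 - tabPoly 5 3 (fun k => [1, 4, 1].getD k 0) * fP 5 0 := by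
  simp [sP, fP, geomF, geomS, tabPoly, Finset.sum_range_succ]
  exact ⟨(-1), by linear_combination ((-1) * X + (-1) * X ^ 2) * five_eq_zero⟩

theorem hl_5_1 : (X : (ZMod 5)[X]) ^ 3 ∣ sP 5 1 - tabPoly 5 3 (fun k => [3, 1, 2].getD k 0) * fP 5 1 := by
  simp [sP, fP, geomF, geomS, tabPoly, Finset.sum_range_succ]
  exact ⟨(-2), by linear_combination ((-1) + (-1) * X + (-1) * X ^ 2) * five_eq_zero⟩

/-- table of logarithmic derivatives -/
def tbl5 : List (List ℕ) := [[1, 4, 1], [3, 1, 2]]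

theorem hlin_5 (e : Fin 2 → ℤ)
    (h : ∀ d < 3, (5 : ℤ) ∣ ∑ i, e i * (((tbl5.getD i.val []).getD d 0 : ℕ) : ℤ)) : ∀ i, (5 : ℤ) ∣ e i := by
  have h0 : (5 : ℤ) ∣ e 0 * 1 + e 1 * 3 := by
    have := h 0 (by norm_num)
    rw [Fin.sum_univ_two] at this
    simpa [tbl5] using this
  have h1 : (5 : ℤ) ∣ e 0 * 4 + e 1 * 1 := by
    have := h 1 (by norm_num)
    rw [Fin.sum_univ_two] at this
    simpa [tbl5] using this
  obtain ⟨k0, hk0⟩ := h0
  obtain ⟨k1, hk1⟩ := h1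
  intro i
  fin_cases i
  · show (5 : ℤ) ∣ e 0
    exact ⟨4 * k0 + 3 * k1 - (3 * e 0 + 3 * e 1), by linear_combination 4 * hk0 + 3 * hk1⟩
  · show (5 : ℤ) ∣ e 1
    exact ⟨4 * k0 + 4 * k1 - (4 * e 0 + 3 * e 1), by linear_combination 4 * hk0 + 4 * hk1⟩

theorem indep_5 : ∃ c : Fin ((5 - 1) / 2) → (𝓞 (CyclotomicField 5 ℚ))ˣ,
    UnitsIndepModP 5 (CyclotomicField 5 ℚ) c := by
  have inst : IsCyclotomicExtension {5} ℚ (CyclotomicField 5 ℚ) :=
    CyclotomicField.isCyclotomicExtension 5 ℚ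
  refine ⟨cU 5 (IsCyclotomicExtension.zeta_spec 5 ℚ (CyclotomicField 5 ℚ)), ?_⟩
  refine indep_of_table 5 _ (by norm_num) (fun i k => (tbl5.getD i.val []).getD k 0) ?_ ?_
  · intro i
    fin_cases i
    · exact hl_5_0
    · exact hl_5_1
  · exact hlin_5

end Fermat.Agent.Kummer
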