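import Fermat.Agent.Kummer.LogDer

set_option autoImplicit false
set_option maxHeartbeats 1000000
set_option linter.unusedSimpArgs false

open NumberField Polynomial

namespace Fermat.Agent.Kummer

local instance fact_prime_7 : Fact (Nat.Prime 7) := ⟨by norm_num⟩

theorem seven_eq_zero : (7 : (ZMod 7)[X]) = 0 := by
  have := CharP.cast_eq_zero (ZMod 7)[X] 7
  exact_mod_cast this

theorem hl_7_0 : (X : (ZMod 7)[X]) ^ 5 ∣ sP 7 0 - tabPoly 7 5 (fun k => [1, 6, 1, 6, 1].getD k 0) * fP 7 0 := by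
  simp [sP, fP, geomF, geomS, tabPoly, Finset.sum_range_succ]
  exact ⟨(-1), by linear_combination ((-1) * X + (-1) * X ^ 2 + (-1) * X ^ 3 + (-1) * X ^ 4) * seven_eq_zero⟩

theorem hl_7_1 : (X : (ZMod 7)[X]) ^ 5 ∣ sP 7 1 - tabPoly 7 5 (fun k => [4, 5, 1, 3, 2].getD k 0) * fP 7 1 := by
  simp [sP, fP, geomF, geomS, tabPoly, Finset.sum_range_succ]
  exact ⟨(-2), by linear_combination ((-1) + (-2) * X + (-1) * X ^ 2 + (-1) * X ^ 3 + (-1) * X ^ 4) * seven_eq_zero⟩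

theorem hl_7_2 : (X : (ZMod 7)[X]) ^ 5 ∣ sP 7 2 - tabPoly 7 5 (fun k => [1, 2, 0, 4, 3].getD k 0) * fP 7 2 := by
  simp [sP, fP, geomF, geomS, tabPoly, Finset.sum_range_succ]
  exact ⟨(-13) + (-3) * X, by linear_combination ((-1) * X + (-1) * X ^ 2 + (-2) * X ^ 3 + (-3) * X ^ 4) * seven_eq_zero⟩

/-- table of logarithmic derivatives -/
def tbl7 : List (List ℕ) := [[1, 6, 1, 6, 1], [4, 5, 1, 3, 2], [1, 2, 0, 4, 3]]

theorem hlin_7 (e : Fin 3 → ℤ)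
    (h : ∀ d < 5, (7 : ℤ) ∣ ∑ i, e i * (((tbl7.getD i.val []).getD d 0 : ℕ) : ℤ)) : ∀ i, (7 : ℤ) ∣ e i := by
  have h0 : (7 : ℤ) ∣ e 0 * 1 + e 1 * 4 + e 2 * 1 := by
    have := h 0 (by norm_num)
    rw [Fin.sum_univ_three] at this
    simpa [tbl7] using this
  have h1 : (7 : ℤ) ∣ e 0 * 6 + e 1 * 5 + e 2 * 2 := by
    have := h 1 (by norm_num)
    rw [Fin.sum_univ_three] at this
    simpa [tbl7] using this
  have h3 : (7 : ℤ) ∣ e 0 * 6 + e 1 * 3 + e 2 * 4 := by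
    have := h 3 (by norm_num)
    rw [Fin.sum_univ_three] at this
    simpa [tbl7] using this
  obtain ⟨k0, hk0⟩ := h0
  obtain ⟨k1, hk1⟩ := h1
  obtain ⟨k3, hk3⟩ := h3
  intro i
  fin_cases i
  · show (7 : ℤ) ∣ e 0
    exact ⟨5 * k1 + 1 * k3 - (5 * e 0 + 4 * e 1 + 2 * e 2), by linear_combination 5 * hk1 + 1 * hk3⟩
  · show (7 : ℤ) ∣ e 1
    exact ⟨3 * k0 + 4 * k1 + 6 * k3 - (9 * e 0 + 7 * e 1 + 5 * e 2), by linear_combination 3 * hk0 + 4 * hk1 + 6 * hk3⟩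
  · show (7 : ℤ) ∣ e 2
    exact ⟨3 * k0 + 3 * k3 - (3 * e 0 + 3 * e 1 + 2 * e 2), by linear_combination 3 * hk0 + 3 * hk3⟩

theorem indep_7 : ∃ c : Fin ((7 - 1) / 2) → (𝓞 (CyclotomicField 7 ℚ))ˣ,
    UnitsIndepModP 7 (CyclotomicField 7 ℚ) c := by
  have inst : IsCyclotomicExtension {7} ℚ (CyclotomicField 7 ℚ) :=
    CyclotomicField.isCyclotomicExtension 7 ℚ
  refine ⟨cU 7 (IsCyclotomicExtension.zeta_spec 7 ℚ (CyclotomicField 7 ℚ)), ?_⟩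
  refine indep_of_table 7 _ (by norm_num) (fun i k => (tbl7.getD i.val []).getD k 0) ?_ ?_
  · intro i
    fin_cases i
    · exact hl_7_0
    · exact hl_7_1
    · exact hl_7_2
  · exact hlin_7

end Fermat.Agent.Kummer
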