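import Fermat.Agent.Kummer.Defs

/-!
Logarithmic derivative on the units of the `p`-th cyclotomic ring of integers, with values in
the truncated polynomial ring `(ZMod p)[X] / (X ^ (p - 2))`.  It kills the units congruent to a
rational integer modulo `p`.
-/

set_option autoImplicit false
set_option linter.unusedSectionVars false

open NumberField Polynomial

namespace Fermat.Agent.Kummer

section General

variable (p : ℕ) [hp : Fact p.Prime]

/-- The truncated polynomial ring. -/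
abbrev TruncPoly : Type := (ZMod p)[X] ⧸ Ideal.span {(X : (ZMod p)[X]) ^ (p - 2)}

/-- The quotient map. -/
noncomputable abbrev tmk : (ZMod p)[X] →+* TruncPoly p := Ideal.Quotient.mk _

theorem tmk_X_pow : tmk p (X ^ (p - 2)) = 0 :=
  Ideal.Quotient.eq_zero_iff_mem.mpr (Ideal.subset_span rfl)

/-- The image of `ζ`. -/
noncomputable def yElt : DualNumber (TruncPoly p) :=
  TrivSqZeroExt.inl (tmk p (1 + X)) + TrivSqZeroExt.inr 1

theorem fst_yElt : (yElt p).fst = tmk p (1 + X) := by simp [yElt]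

theorem snd_yElt : (yElt p).snd = 1 := by simp [yElt]

theorem yElt_sub_one_pow (h3 : 3 ≤ p) : (yElt p - 1) ^ (p - 1) = 0 := by
  have hX : (tmk p X) ^ (p - 2) = 0 := by rw [← map_pow]; exact tmk_X_pow p
  apply TrivSqZeroExt.ext
  · rw [TrivSqZeroExt.fst_pow]
    have : (yElt p - 1).fst = tmk p X := by simp [yElt]
    rw [this, show p - 1 = (p - 2) + 1 by omega, pow_succ, hX, zero_mul]
    rfl
  · rw [TrivSqZeroExt.snd_pow]
    have : (yElt p - 1).fst = tmk p X := by simp [yElt]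
    rw [this, show (p - 1).pred = p - 2 by simp [Nat.pred_eq_sub_one]; omega, hX]
    simp


theorem aeval_yElt_cyclotomic (h3 : 3 ≤ p) : aeval (yElt p) (cyclotomic p ℤ) = 0 := by
  have h1 : cyclotomic p (ZMod p) = (X - 1) ^ (p - 1) := by
    have := cyclotomic_mul_prime_pow_eq (ZMod p) (p := p) (m := 1) (hp.out.one_lt.ne' ∘ Nat.dvd_one.mp) (k := 1) one_pos
    simpa using this
  have h2 : aeval (yElt p) (cyclotomic p ℤ) = aeval (yElt p) (cyclotomic p (ZMod p)) := by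
    rw [← map_cyclotomic_int p (ZMod p)]
    exact (aeval_map_algebraMap (A := ZMod p) (yElt p) (cyclotomic p ℤ)).symm
  rw [h2, h1]
  simp [yElt_sub_one_pow p h3]

variable {K : Type} [Field K] [NumberField K] [IsCyclotomicExtension {p} ℚ K]
variable {ζ : K} (hζ : IsPrimitiveRoot ζ p)

include hζ in
theorem minpoly_gen : minpoly ℤ hζ.integralPowerBasis.gen = cyclotomic p ℤ := by
  rw [hζ.integralPowerBasis_gen, ← RingOfIntegers.minpoly_coe, cyclotomic_eq_minpoly hζ hp.out.pos]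
  rfl

/-- The ring homomorphism `ζ ↦ (1 + t) + ε`. -/
noncomputable def psi (h3 : 3 ≤ p) : 𝓞 K →ₐ[ℤ] DualNumber (TruncPoly p) :=
  hζ.integralPowerBasis.lift (yElt p) (by rw [minpoly_gen p hζ]; exact aeval_yElt_cyclotomic p h3)

theorem psi_zeta (h3 : 3 ≤ p) : psi p hζ h3 hζ.toInteger = yElt p := by
  have := hζ.integralPowerBasis.lift_gen (yElt p) (by rw [minpoly_gen p hζ]; exact aeval_yElt_cyclotomic p h3)
  rw [← hζ.integralPowerBasis_gen]
  exact this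

theorem psi_natCast_p (h3 : 3 ≤ p) : psi p hζ h3 (p : 𝓞 K) = 0 := by
  rw [map_natCast]
  have h0 : (p : TruncPoly p) = 0 := by
    rw [← map_natCast (tmk p) p, CharP.cast_eq_zero (ZMod p)[X] p, map_zero]
  apply TrivSqZeroExt.ext
  · simpa using h0
  · simp

theorem snd_psi_of_dvd (h3 : 3 ≤ p) (u : 𝓞 K) (n : ℤ) (h : (p : 𝓞 K) ∣ u - n) :
    (psi p hζ h3 u).snd = 0 := by
  obtain ⟨w, hw⟩ := h
  have : u = n + p * w := by rw [← hw]; ring
  rw [this, map_add, map_mul, psi_natCast_p, zero_mul, add_zero, map_intCast]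
  simp

/-- The logarithmic derivative. -/
noncomputable def logDer (h3 : 3 ≤ p) : (𝓞 K)ˣ →* Multiplicative (TruncPoly p) where
  toFun u := Multiplicative.ofAdd ((psi p hζ h3 u).snd * (psi p hζ h3 (u⁻¹ : (𝓞 K)ˣ)).fst)
  map_one' := by simp
  map_mul' u v := by
    rw [← ofAdd_add]
    congr 1
    have hu : (psi p hζ h3 u).fst * (psi p hζ h3 (u⁻¹ : (𝓞 K)ˣ)).fst = 1 := by
      rw [← TrivSqZeroExt.fst_mul, ← map_mul]; simp
    have hv : (psi p hζ h3 v).fst * (psi p hζ h3 (v⁻¹ : (𝓞 K)ˣ)).fst = 1 := by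
      rw [← TrivSqZeroExt.fst_mul, ← map_mul]; simp
    rw [mul_inv, Units.val_mul, Units.val_mul, map_mul, map_mul, TrivSqZeroExt.snd_mul, TrivSqZeroExt.fst_mul]
    simp only [smul_eq_mul, MulOpposite.smul_eq_mul_unop, MulOpposite.unop_op]
    linear_combination ((psi p hζ h3 v).snd * (psi p hζ h3 (v⁻¹ : (𝓞 K)ˣ)).fst) * hu + ((psi p hζ h3 u).snd * (psi p hζ h3 (u⁻¹ : (𝓞 K)ˣ)).fst) * hv

theorem logDer_of_dvd (h3 : 3 ≤ p) (u : (𝓞 K)ˣ) (n : ℤ) (h : (p : 𝓞 K) ∣ (u : 𝓞 K) - n) :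
    logDer p hζ h3 u = 1 := by
  show Multiplicative.ofAdd _ = 1
  rw [snd_psi_of_dvd p hζ h3 u n h, zero_mul]
  rfl

theorem logDer_eq (h3 : 3 ≤ p) (u : (𝓞 K)ˣ) (f s l : (ZMod p)[X])
    (hf : (psi p hζ h3 u).fst = tmk p f) (hs : (psi p hζ h3 u).snd = tmk p s)
    (hl : X ^ (p - 2) ∣ s - l * f) :
    logDer p hζ h3 u = Multiplicative.ofAdd (tmk p l) := by
  show Multiplicative.ofAdd _ = _
  congr 1
  have hu : (psi p hζ h3 u).fst * (psi p hζ h3 (u⁻¹ : (𝓞 K)ˣ)).fst = 1 := by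
    rw [← TrivSqZeroExt.fst_mul, ← map_mul]; simp
  have h1 : tmk p s = tmk p l * tmk p f := by
    rw [← map_mul, ← sub_eq_zero, ← map_sub]
    exact Ideal.Quotient.eq_zero_iff_mem.mpr (Ideal.mem_span_singleton.mpr hl)
  rw [hs, h1, mul_assoc, ← hf, hu, mul_one]

theorem relation_dvd (h3 : 3 ≤ p) {ι : Type} [Fintype ι] (c : ι → (𝓞 K)ˣ)
    (f s l : ι → (ZMod p)[X])
    (hf : ∀ i, (psi p hζ h3 (c i)).fst = tmk p (f i))
    (hs : ∀ i, (psi p hζ h3 (c i)).snd = tmk p (s i))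
    (hl : ∀ i, X ^ (p - 2) ∣ s i - l i * f i)
    (e : ι → ℤ)
    (h : ∃ n : ℤ, (p : 𝓞 K) ∣ ((∏ i, c i ^ e i : (𝓞 K)ˣ) : 𝓞 K) - (n : 𝓞 K)) :
    X ^ (p - 2) ∣ ∑ i, C ((e i : ℤ) : ZMod p) * l i := by
  obtain ⟨n, hn⟩ := h
  have h1 := logDer_of_dvd p hζ h3 _ n hn
  rw [map_prod] at h1
  simp only [map_zpow, logDer_eq p hζ h3 _ _ _ _ (hf _) (hs _) (hl _)] at h1
  simp only [← ofAdd_zsmul, ← ofAdd_sum] at h1
  have h2 : ∑ i, e i • tmk p (l i) = 0 := Multiplicative.ofAdd.injective h1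
  rw [← Ideal.mem_span_singleton, ← Ideal.Quotient.eq_zero_iff_mem, map_sum, ← h2]
  refine Finset.sum_congr rfl fun i _ => ?_
  rw [map_mul, zsmul_eq_mul]
  congr 1

theorem relation_coeff (h3 : 3 ≤ p) {ι : Type} [Fintype ι] (c : ι → (𝓞 K)ˣ)
    (f s l : ι → (ZMod p)[X])
    (hf : ∀ i, (psi p hζ h3 (c i)).fst = tmk p (f i))
    (hs : ∀ i, (psi p hζ h3 (c i)).snd = tmk p (s i))
    (hl : ∀ i, X ^ (p - 2) ∣ s i - l i * f i)
    (e : ι → ℤ)
    (h : ∃ n : ℤ, (p : 𝓞 K) ∣ ((∏ i, c i ^ e i : (𝓞 K)ˣ) : 𝓞 K) - (n : 𝓞 K))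
    (d : ℕ) (hd : d < p - 2) :
    ∑ i, ((e i : ℤ) : ZMod p) * (l i).coeff d = 0 := by
  have h1 := relation_dvd p hζ h3 c f s l hf hs hl e h
  rw [X_pow_dvd_iff] at h1
  have h2 := h1 d hd
  rw [finsetSum_coeff] at h2
  simpa [coeff_C_mul] using h2


/-- `ζ` as a unit. -/
noncomputable def zetaUnit : (𝓞 K)ˣ := (hζ.toInteger_isPrimitiveRoot.isUnit hp.out.ne_zero).unit

/-- `1 + ζ + ... + ζ ^ (a - 1)` as a unit. -/
noncomputable def geomUnit (a : ℕ) (ha : a.Coprime p) : (𝓞 K)ˣ :=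
  (hζ.toInteger_isPrimitiveRoot.geom_sum_isUnit hp.out.two_le ha).unit

theorem coe_zetaUnit : ((zetaUnit p hζ : (𝓞 K)ˣ) : 𝓞 K) = hζ.toInteger := rfl

theorem coe_geomUnit (a : ℕ) (ha : a.Coprime p) :
    ((geomUnit p hζ a ha : (𝓞 K)ˣ) : 𝓞 K) = ∑ j ∈ Finset.range a, hζ.toInteger ^ j := rfl

/-- first component of the image of the geometric sum -/
noncomputable def geomF (a : ℕ) : (ZMod p)[X] := ∑ j ∈ Finset.range a, (1 + X) ^ j

/-- second component of the image of the geometric sum -/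
noncomputable def geomS (a : ℕ) : (ZMod p)[X] := ∑ j ∈ Finset.range a, (j : (ZMod p)[X]) * (1 + X) ^ (j - 1)

theorem fst_psi_zetaUnit (h3 : 3 ≤ p) : (psi p hζ h3 (zetaUnit p hζ)).fst = tmk p (1 + X) := by
  rw [coe_zetaUnit, psi_zeta, fst_yElt]

theorem snd_psi_zetaUnit (h3 : 3 ≤ p) : (psi p hζ h3 (zetaUnit p hζ)).snd = tmk p 1 := by
  rw [coe_zetaUnit, psi_zeta, snd_yElt, map_one]

theorem fst_psi_geomUnit (h3 : 3 ≤ p) (a : ℕ) (ha : a.Coprime p) :
    (psi p hζ h3 (geomUnit p hζ a ha)).fst = tmk p (geomF p a) := by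
  rw [coe_geomUnit, map_sum, geomF, map_sum]
  simp only [map_pow, psi_zeta]
  rw [← TrivSqZeroExt.fstHom_apply (R := TruncPoly p) (S := TruncPoly p), map_sum]
  simp [fst_yElt]

theorem snd_psi_geomUnit (h3 : 3 ≤ p) (a : ℕ) (ha : a.Coprime p) :
    (psi p hζ h3 (geomUnit p hζ a ha)).snd = tmk p (geomS p a) := by
  rw [coe_geomUnit, map_sum, geomS, map_sum]
  simp only [map_pow, psi_zeta]
  rw [← TrivSqZeroExt.sndHom_apply (R := TruncPoly p) (M := TruncPoly p), map_sum]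
  simp [fst_yElt, snd_yElt, Nat.pred_eq_sub_one]

theorem coprime_succ (i : Fin ((p - 1) / 2)) : (i.val + 1).Coprime p := by
  have hi := i.isLt
  refine Nat.Coprime.symm ((Nat.Prime.coprime_iff_not_dvd hp.out).2 ?_)
  exact Nat.not_dvd_of_pos_of_lt (Nat.succ_pos _) (by omega)

/-- The family of cyclotomic units `ζ, 1 + ζ, 1 + ζ + ζ ^ 2, ...`. -/
noncomputable def cU (i : Fin ((p - 1) / 2)) : (𝓞 K)ˣ :=
  if i.val = 0 then zetaUnit p hζ else geomUnit p hζ (i.val + 1) (coprime_succ p i)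

/-- first components -/
noncomputable def fP (i : ℕ) : (ZMod p)[X] := if i = 0 then 1 + X else geomF p (i + 1)

/-- second components -/
noncomputable def sP (i : ℕ) : (ZMod p)[X] := if i = 0 then 1 else geomS p (i + 1)

theorem fst_psi_cU (h3 : 3 ≤ p) (i : Fin ((p - 1) / 2)) :
    (psi p hζ h3 (cU p hζ i)).fst = tmk p (fP p i.val) := by
  unfold cU fP
  split_ifs
  · exact fst_psi_zetaUnit p hζ h3
  · exact fst_psi_geomUnit p hζ h3 _ _

theorem snd_psi_cU (h3 : 3 ≤ p) (i : Fin ((p - 1) / 2)) :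
    (psi p hζ h3 (cU p hζ i)).snd = tmk p (sP p i.val) := by
  unfold cU sP
  split_ifs
  · exact snd_psi_zetaUnit p hζ h3
  · exact snd_psi_geomUnit p hζ h3 _ _

/-- polynomial with given table of coefficients -/
noncomputable def tabPoly (m : ℕ) (t : ℕ → ℕ) : (ZMod p)[X] :=
  ∑ k ∈ Finset.range m, (t k : (ZMod p)[X]) * X ^ k

theorem coeff_tabPoly (m : ℕ) (t : ℕ → ℕ) (d : ℕ) (hd : d < m) :
    (tabPoly p m t).coeff d = (t d : ZMod p) := by
  unfold tabPoly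
  rw [finsetSum_coeff]
  simp only [coeff_natCast_mul, coeff_X_pow]
  rw [Finset.sum_eq_single d]
  · simp
  · intro b _ hb
    simp [Ne.symm hb]
  · intro h
    exact absurd (Finset.mem_range.mpr hd) h

theorem indep_of_table (h3 : 3 ≤ p) (t : Fin ((p - 1) / 2) → ℕ → ℕ)
    (hl : ∀ i : Fin ((p - 1) / 2), X ^ (p - 2) ∣ sP p i.val - tabPoly p (p - 2) (t i) * fP p i.val)
    (hlin : ∀ e : Fin ((p - 1) / 2) → ℤ,
      (∀ d < p - 2, (p : ℤ) ∣ ∑ i, e i * (t i d : ℤ)) → ∀ i, (p : ℤ) ∣ e i) :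
    UnitsIndepModP p K (cU p hζ) := by
  intro e he
  apply hlin e
  intro d hd
  have h := relation_coeff p hζ h3 (cU p hζ) (fun i => fP p i.val) (fun i => sP p i.val)
    (fun i => tabPoly p (p - 2) (t i)) (fst_psi_cU p hζ h3) (snd_psi_cU p hζ h3) hl e he d hd
  simp only [coeff_tabPoly p _ _ d hd] at h
  rw [← ZMod.intCast_zmod_eq_zero_iff_dvd]
  push_cast
  exact h


end General

end Fermat.Agent.Kummer
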