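import Fermat.Agent.Kummer.Defs

/-!
Kummer's lemma from the independence (modulo `p` and rational integers) of `(p-1)/2` units:
a counting argument based on Dirichlet's unit theorem.
-/

set_option autoImplicit false

open NumberField Module

namespace Fermat.Agent.Kummer

section pow

variable {p : ℕ} [hpF : Fact p.Prime] {K : Type} [Field K] [NumberField K]
  [IsCyclotomicExtension {p} ℚ K]

/-- `p`-th powers in the ring of integers of the `p`-th cyclotomic field are congruent to
rational integers modulo `p`. -/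
theorem exists_int_dvd_pow_sub (x : 𝓞 K) : ∃ n : ℤ, (p : 𝓞 K) ∣ x ^ p - (n : 𝓞 K) := by
  have hζ := IsCyclotomicExtension.zeta_spec p ℚ K
  have htop := IsCyclotomicExtension.Rat.adjoin_singleton_eq_top hζ
  have hx : x ∈ Algebra.adjoin ℤ {hζ.toInteger} := by rw [htop]; trivial
  induction hx using Algebra.adjoin_induction with
  | mem y hy =>
    refine ⟨1, ?_⟩
    rw [Set.mem_singleton_iff] at hy
    subst hy
    have h1 : hζ.toInteger ^ p = 1 := hζ.toInteger_isPrimitiveRoot.pow_eq_one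
    rw [h1]; simp
  | algebraMap r =>
    refine ⟨r ^ p, ?_⟩
    simp
  | add y z _ _ hy hz =>
    obtain ⟨n, a, hn⟩ := hy
    obtain ⟨m, b, hm⟩ := hz
    obtain ⟨r, hr⟩ := exists_add_pow_prime_eq hpF.out y z
    refine ⟨n + m, a + b + y * z * r, ?_⟩
    push_cast
    linear_combination hr + hn + hm
  | mul y z _ _ hy hz =>
    obtain ⟨n, a, hn⟩ := hy
    obtain ⟨m, b, hm⟩ := hz
    refine ⟨n * m, a * z ^ p + (n : 𝓞 K) * b, ?_⟩
    push_cast
    linear_combination z ^ p * hn + (n : 𝓞 K) * hm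

end pow

section subgroup

variable (p : ℕ) (K : Type) [Field K]

/-- The predicate "congruent to a rational integer modulo `p`". -/
def IsIntModP (x : 𝓞 K) : Prop := ∃ n : ℤ, (p : 𝓞 K) ∣ x - (n : 𝓞 K)

variable {p K}

theorem IsIntModP.one : IsIntModP p K 1 := ⟨1, by simp⟩

theorem IsIntModP.mul {x y : 𝓞 K} (hx : IsIntModP p K x) (hy : IsIntModP p K y) :
    IsIntModP p K (x * y) := by
  obtain ⟨n, a, hn⟩ := hx
  obtain ⟨m, b, hm⟩ := hy
  refine ⟨n * m, a * y + (n : 𝓞 K) * b, ?_⟩
  push_cast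
  linear_combination y * hn + (n : 𝓞 K) * hm

theorem IsIntModP.pow {x : 𝓞 K} (hx : IsIntModP p K x) (k : ℕ) : IsIntModP p K (x ^ k) := by
  induction k with
  | zero => simpa using IsIntModP.one
  | succ k ih => rw [pow_succ]; exact ih.mul hx

variable (p K)
variable [NumberField K] [hpF : Fact p.Prime] [IsCyclotomicExtension {p} ℚ K]

/-- The subgroup of units congruent to a rational integer modulo `p`. -/
def intUnits : Subgroup (𝓞 K)ˣ where
  carrier := {u | IsIntModP p K (u : 𝓞 K)}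
  mul_mem' := fun {a b} ha hb => by
    simpa using IsIntModP.mul ha hb
  one_mem' := by simpa using IsIntModP.one
  inv_mem' := fun {u} hu => by
    have h1 : (u⁻¹ : (𝓞 K)ˣ) = u ^ (p - 1) * (u⁻¹) ^ p := by
      have hp1 : 1 ≤ p := hpF.out.one_le
      have : u ^ p = u ^ (p - 1) * u := by rw [← pow_succ, Nat.sub_add_cancel hp1]
      rw [inv_pow, this, mul_inv, mul_comm (u ^ (p - 1))⁻¹, ← mul_assoc, mul_comm (u ^ (p - 1)),
        mul_assoc, mul_inv_cancel, mul_one]
    show IsIntModP p K ((u⁻¹ : (𝓞 K)ˣ) : 𝓞 K)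
    rw [h1]
    push_cast
    exact (IsIntModP.pow hu _).mul (exists_int_dvd_pow_sub _)

theorem mem_intUnits {u : (𝓞 K)ˣ} :
    u ∈ intUnits p K ↔ ∃ n : ℤ, (p : 𝓞 K) ∣ (u : 𝓞 K) - (n : 𝓞 K) := Iff.rfl

theorem pow_mem_intUnits (u : (𝓞 K)ˣ) : u ^ p ∈ intUnits p K := by
  rw [mem_intUnits]
  push_cast
  exact exists_int_dvd_pow_sub _

/-- The quotient of the unit group by `intUnits`, written additively. -/
def UQ : Type := Additive ((𝓞 K)ˣ ⧸ intUnits p K)

noncomputable instance : AddCommGroup (UQ p K) :=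
  inferInstanceAs (AddCommGroup (Additive ((𝓞 K)ˣ ⧸ intUnits p K)))

/-- The projection from units to `UQ`. -/
def proj : Additive (𝓞 K)ˣ →+ UQ p K := MonoidHom.toAdditive (QuotientGroup.mk' (intUnits p K))

theorem proj_surjective : Function.Surjective (proj p K) := by
  intro x
  obtain ⟨u, hu⟩ := QuotientGroup.mk'_surjective (intUnits p K) (Additive.toMul x)
  exact ⟨Additive.ofMul u, by rw [← ofMul_toMul x, ← hu]; rfl⟩

theorem proj_eq_zero_iff (u : (𝓞 K)ˣ) :
    proj p K (Additive.ofMul u) = 0 ↔ u ∈ intUnits p K := by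
  rw [← QuotientGroup.eq_one_iff]
  rfl

theorem nsmul_UQ (x : UQ p K) : p • x = 0 := by
  obtain ⟨u, rfl⟩ := proj_surjective p K x
  rw [← map_nsmul]
  exact (proj_eq_zero_iff p K _).2 (pow_mem_intUnits p K (Additive.toMul u))

noncomputable instance : Module (ZMod p) (UQ p K) := AddCommGroup.zmodModule (nsmul_UQ p K)

theorem intCast_smul_UQ (k : ℤ) (x : UQ p K) : ((k : ZMod p)) • x = k • x :=
  Int.cast_smul_eq_zsmul (ZMod p) k x

theorem proj_prod_zpow {ι : Type} [Fintype ι] (c : ι → (𝓞 K)ˣ) (e : ι → ℤ) :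
    proj p K (Additive.ofMul (∏ i, c i ^ e i)) =
      ∑ i, ((e i : ZMod p)) • proj p K (Additive.ofMul (c i)) := by
  rw [ofMul_prod, map_sum]
  refine Finset.sum_congr rfl fun i _ => ?_
  rw [ofMul_zpow, map_zsmul, intCast_smul_UQ]

theorem linearIndependent_of_indep {ι : Type} [Fintype ι] (c : ι → (𝓞 K)ˣ)
    (hc : UnitsIndepModP p K c) :
    LinearIndependent (ZMod p) (fun i => proj p K (Additive.ofMul (c i))) := by
  rw [Fintype.linearIndependent_iff]
  intro g hg i
  have hg' : ∀ j, (((g j).cast : ℤ) : ZMod p) = g j := fun j => ZMod.intCast_zmod_cast (g j)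
  have h0 : proj p K (Additive.ofMul (∏ j, c j ^ ((g j).cast : ℤ))) = 0 := by
    rw [proj_prod_zpow, ← hg]
    exact Finset.sum_congr rfl fun j _ => by rw [hg']
  have h1 := hc _ ((mem_intUnits p K).1 ((proj_eq_zero_iff p K _).1 h0)) i
  rw [← hg' i]
  exact (ZMod.intCast_zmod_eq_zero_iff_dvd _ _).2 h1

end subgroup

section main

variable {p : ℕ} [hpF : Fact p.Prime]

theorem rank_add_one (hp : p ≠ 2) (K : Type) [Field K] [NumberField K]
    [IsCyclotomicExtension {p} ℚ K] : Units.rank K + 1 = (p - 1) / 2 := by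
  have h2 : 2 < p := lt_of_le_of_ne hpF.out.two_le (Ne.symm hp)
  have h1 := IsCyclotomicExtension.Rat.nrRealPlaces_eq_zero (n := p) K h2
  have h3 := IsCyclotomicExtension.Rat.nrComplexPlaces_eq_totient_div_two p K
  have h4 := InfinitePlace.card_eq_nrRealPlaces_add_nrComplexPlaces K
  rw [Nat.totient_prime hpF.out] at h3
  rw [Units.rank, h4, h1, h3]
  omega

theorem kummerLemma_of_indep (hp : p ≠ 2) (K : Type) [Field K] [NumberField K]
    [IsCyclotomicExtension {p} ℚ K] (c : Fin ((p - 1) / 2) → (𝓞 K)ˣ)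
    (hc : UnitsIndepModP p K c) : KummerLemma p K := by
  classical
  obtain ⟨t, ht⟩ := IsCyclic.exists_generator (α := Units.torsion K)
  -- the spanning family
  let g : Option (Fin (Units.rank K)) → (𝓞 K)ˣ := fun o => o.elim (t : (𝓞 K)ˣ) (Units.fundSystem K)
  let w : Option (Fin (Units.rank K)) → UQ p K := fun o => proj p K (Additive.ofMul (g o))
  have hdecomp : ∀ u : (𝓞 K)ˣ, ∃ e : Option (Fin (Units.rank K)) → ℤ, u = ∏ o, g o ^ e o := by
    intro u
    obtain ⟨⟨z, e⟩, hu, -⟩ := Units.exist_unique_eq_mul_prod K u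
    obtain ⟨a, ha⟩ := Subgroup.mem_zpowers_iff.1 (ht z)
    refine ⟨fun o => o.elim a e, ?_⟩
    rw [Fintype.prod_option]
    simp only [g, Option.elim]
    rw [hu, ← ha]
    simp
  have hspan : ⊤ ≤ Submodule.span (ZMod p) (Set.range w) := by
    intro x _
    obtain ⟨u, rfl⟩ := proj_surjective p K x
    obtain ⟨e, he⟩ := hdecomp (Additive.toMul u)
    have : u = Additive.ofMul (∏ o, g o ^ e o) := by rw [← he]; rfl
    rw [this, proj_prod_zpow]
    exact Submodule.sum_mem _ fun o _ =>
      Submodule.smul_mem _ _ (Submodule.subset_span (Set.mem_range_self o))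
  have : Module.Finite (ZMod p) (UQ p K) :=
    ⟨by rw [← top_le_iff.1 hspan]; exact Submodule.fg_span (Set.finite_range w)⟩
  have hcard : Fintype.card (Option (Fin (Units.rank K))) = (p - 1) / 2 := by
    rw [Fintype.card_option, Fintype.card_fin, rank_add_one hp K]
  have hle : finrank (ZMod p) (UQ p K) ≤ (p - 1) / 2 := by
    rw [← hcard, ← finrank_top (ZMod p) (UQ p K), ← top_le_iff.1 hspan]
    exact finrank_range_le_card w
  have hge : (p - 1) / 2 ≤ finrank (ZMod p) (UQ p K) := by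
    have := (linearIndependent_of_indep p K c hc).fintype_card_le_finrank
    simpa using this
  have hli : LinearIndependent (ZMod p) w :=
    linearIndependent_of_top_le_span_of_card_eq_finrank hspan (by rw [hcard]; omega)
  rw [Fintype.linearIndependent_iff] at hli
  -- conclusion
  intro u hu
  obtain ⟨e, he⟩ := hdecomp u
  have h0 : ∑ o, ((e o : ZMod p)) • w o = 0 := by
    rw [← proj_prod_zpow, ← he]
    exact (proj_eq_zero_iff p K u).2 ((mem_intUnits p K).2 hu)
  have hdvd : ∀ o, (p : ℤ) ∣ e o := fun o =>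
    (ZMod.intCast_zmod_eq_zero_iff_dvd _ _).1 (hli _ h0 o)
  choose f hf using hdvd
  refine ⟨∏ o, g o ^ f o, ?_⟩
  rw [he, ← Finset.prod_pow]
  refine Finset.prod_congr rfl fun o _ => ?_
  rw [hf o, mul_comm, zpow_mul, zpow_natCast]

end main

end Fermat.Agent.Kummer
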