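import Fermat.Agent.Kummer.Defs
import Fermat.Agent.Kummer.CaseI
import Fermat.Agent.Kummer.CaseII
import Fermat.Agent.Kummer.UnitCount
import Fermat.Prelude.Def_FLTPrelim_FreyPackage

/-!
Assembly: Fermat's Last Theorem for an exponent `p ∈ {5, 7, 11, 13}`, given that the ring of
integers of the `p`-th cyclotomic field is principal and that there are `(p - 1) / 2` units which
are independent modulo `p`.
-/

set_option autoImplicit false

open NumberField

namespace Fermat.Agent.Kummer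

theorem flt_of_pid_of_indep {p : ℕ} [hpf : Fact p.Prime] (hp : p = 5 ∨ p = 7 ∨ p = 11 ∨ p = 13)
    (hpid : IsPrincipalIdealRing (𝓞 (CyclotomicField p ℚ)))
    (hind : ∃ c : Fin ((p - 1) / 2) → (𝓞 (CyclotomicField p ℚ))ˣ,
      UnitsIndepModP p (CyclotomicField p ℚ) c)
    {a b c : ℤ} (ha : a ≠ 0) (hb : b ≠ 0) (hc : c ≠ 0) (hab : IsCoprime a b)
    (h : a ^ p + b ^ p = c ^ p) : False := by
  have hp2 : p ≠ 2 := by rcases hp with rfl | rfl | rfl | rfl <;> norm_num
  have hp0 : p ≠ 0 := hpf.out.ne_zero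
  have : NeZero p := ⟨hp0⟩
  have : IsCyclotomicExtension {p} ℚ (CyclotomicField p ℚ) :=
    CyclotomicField.isCyclotomicExtension p ℚ
  have hodd : Odd p := hpf.out.odd_of_ne_two hp2
  obtain ⟨u, hu⟩ := hind
  have hK : KummerLemma p (CyclotomicField p ℚ) := kummerLemma_of_indep hp2 _ u hu
  have hbc : IsCoprime b c := sg_coprime_of_eq hp0 hab h
  have hac : IsCoprime a c := sg_coprime_of_eq hp0 hab.symm (by rw [add_comm]; exact h)
  have hpp : Prime (p : ℤ) := Nat.prime_iff_prime_int.1 hpf.out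
  have hdvd := caseI hp hab h
  rcases hpp.dvd_or_dvd hdvd with h1 | h1
  · rcases hpp.dvd_or_dvd h1 with h2 | h2
    · -- `p ∣ a` : `c ^ p + (-b) ^ p = a ^ p`
      refine caseII hp2 (CyclotomicField p ℚ) hK ha (hbc.symm.neg_right) h2 ?_
      rw [hodd.neg_pow]; linear_combination -h
    · refine caseII hp2 (CyclotomicField p ℚ) hK hb (hac.symm.neg_right) h2 ?_
      rw [hodd.neg_pow]; linear_combination -h
  · exact caseII hp2 (CyclotomicField p ℚ) hK hc hab h1 h

/-- A Frey package whose prime is one of `5, 7, 11, 13` cannot exist (under the two inputs). -/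
theorem freyPackage_false (P : FreyPackage) (hp : P.p = 5 ∨ P.p = 7 ∨ P.p = 11 ∨ P.p = 13)
    (hpid : IsPrincipalIdealRing (𝓞 (CyclotomicField P.p ℚ)))
    (hind : ∃ c : Fin ((P.p - 1) / 2) → (𝓞 (CyclotomicField P.p ℚ))ˣ,
      UnitsIndepModP P.p (CyclotomicField P.p ℚ) c) : False := by
  have : Fact P.p.Prime := ⟨P.pp⟩
  have hab : IsCoprime P.a P.b := by
    rw [Int.isCoprime_iff_gcd_eq_one]
    have := P.hgcdab
    rw [← Int.coe_gcd] at this
    exact_mod_cast this
  exact flt_of_pid_of_indep hp hpid hind P.ha0 P.hb0 P.hc0 hab P.hFLT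

end Fermat.Agent.Kummer
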