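import Fermat.Agent.Kummer.PIDGeneral

set_option autoImplicit false
set_option linter.unusedSimpArgs false

open NumberField Ideal IsCyclotomicExtension.Rat Module InfinitePlace Nat Real Polynomial

namespace Fermat.Agent.Kummer

theorem exists_norm_11_23 (K : Type) [Field K] [NumberField K] [IsCyclotomicExtension {11} ℚ K] :
    ∃ α : 𝓞 K, (Algebra.norm ℤ α).natAbs = 23 := by
  have : Fact (Nat.Prime 11) := ⟨by norm_num⟩
  have hζ := (IsCyclotomicExtension.zeta_spec 11 ℚ K).toInteger_isPrimitiveRoot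
  generalize (IsCyclotomicExtension.zeta_spec 11 ℚ K).toInteger = ζ at hζ
  have hsum : 1 + ζ + ζ ^ 2 + ζ ^ 3 + ζ ^ 4 + ζ ^ 5 + ζ ^ 6 + ζ ^ 7 + ζ ^ 8 + ζ ^ 9 + ζ ^ 10 = 0 := by
    have := hζ.geom_sum_eq_zero (by norm_num)
    simpa [Finset.sum_range_succ] using this
  refine ⟨Polynomial.aeval ζ (1 + X + X ^ 3 : Polynomial ℤ), ?_⟩
  have h := natAbs_norm_aeval 11 K ζ hζ.pow_eq_one (1 + X + X ^ 3 : Polynomial ℤ) (23) ?_
  · simpa using h
  · simp only [Nat.reduceSub, Finset.prod_range_succ, Finset.prod_range_zero, map_add, map_sub,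
      map_one, map_pow, Polynomial.aeval_X, Int.cast_ofNat, Int.cast_neg]
    linear_combination ((-22) + (23) * ζ ^ 1 + (2) * ζ ^ 3 + (-1) * ζ ^ 4 + (2) * ζ ^ 5 + (2) * ζ ^ 6 + (1) * ζ ^ 7 + (1) * ζ ^ 8
      + (5) * ζ ^ 9 + (3) * ζ ^ 10 + (-21) * ζ ^ 11 + (30) * ζ ^ 12 + (2) * ζ ^ 13 + (8) * ζ ^ 14 + (8) * ζ ^ 15 + (7) * ζ ^ 16
      + (6) * ζ ^ 17 + (16) * ζ ^ 18 + (4) * ζ ^ 19 + (16) * ζ ^ 20 + (18) * ζ ^ 21 + (-13) * ζ ^ 22 + (38) * ζ ^ 23 + (24) * ζ ^ 24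
      + (15) * ζ ^ 25 + (17) * ζ ^ 26 + (34) * ζ ^ 27 + (18) * ζ ^ 28 + (25) * ζ ^ 29 + (33) * ζ ^ 30 + (30) * ζ ^ 31 + (23) * ζ ^ 32
      + (26) * ζ ^ 33 + (43) * ζ ^ 34 + (44) * ζ ^ 35 + (52) * ζ ^ 36 + (34) * ζ ^ 37 + (38) * ζ ^ 38 + (66) * ζ ^ 39 + (33) * ζ ^ 40
      + (45) * ζ ^ 41 + (75) * ζ ^ 42 + (36) * ζ ^ 43 + (39) * ζ ^ 44 + (108) * ζ ^ 45 + (39) * ζ ^ 46 + (62) * ζ ^ 47 + (86) * ζ ^ 48
      + (46) * ζ ^ 49 + (69) * ζ ^ 50 + (91) * ζ ^ 51 + (57) * ζ ^ 52 + (65) * ζ ^ 53 + (109) * ζ ^ 54 + (43) * ζ ^ 55 + (85) * ζ ^ 56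
      + (102) * ζ ^ 57 + (69) * ζ ^ 58 + (68) * ζ ^ 59 + (108) * ζ ^ 60 + (64) * ζ ^ 61 + (78) * ζ ^ 62 + (112) * ζ ^ 63 + (59) * ζ ^ 64
      + (81) * ζ ^ 65 + (124) * ζ ^ 66 + (47) * ζ ^ 67 + (90) * ζ ^ 68 + (112) * ζ ^ 69 + (56) * ζ ^ 70 + (69) * ζ ^ 71 + (135) * ζ ^ 72
      + (43) * ζ ^ 73 + (82) * ζ ^ 74 + (105) * ζ ^ 75 + (57) * ζ ^ 76 + (74) * ζ ^ 77 + (109) * ζ ^ 78 + (50) * ζ ^ 79 + (72) * ζ ^ 80
      + (94) * ζ ^ 81 + (43) * ζ ^ 82 + (76) * ζ ^ 83 + (98) * ζ ^ 84 + (28) * ζ ^ 85 + (70) * ζ ^ 86 + (89) * ζ ^ 87 + (33) * ζ ^ 88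
      + (63) * ζ ^ 89 + (81) * ζ ^ 90 + (30) * ζ ^ 91 + (51) * ζ ^ 92 + (81) * ζ ^ 93 + (20) * ζ ^ 94 + (54) * ζ ^ 95 + (60) * ζ ^ 96
      + (23) * ζ ^ 97 + (40) * ζ ^ 98 + (64) * ζ ^ 99 + (12) * ζ ^ 100 + (48) * ζ ^ 101 + (42) * ζ ^ 102 + (19) * ζ ^ 103 + (28) * ζ ^ 104
      + (53) * ζ ^ 105 + (-1) * ζ ^ 106 + (42) * ζ ^ 107 + (25) * ζ ^ 108 + (17) * ζ ^ 109 + (19) * ζ ^ 110 + (40) * ζ ^ 111 + (-6) * ζ ^ 112
      + (30) * ζ ^ 113 + (19) * ζ ^ 114 + (10) * ζ ^ 115 + (9) * ζ ^ 116 + (31) * ζ ^ 117 + (-9) * ζ ^ 118 + (22) * ζ ^ 119 + (11) * ζ ^ 120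
      + (10) * ζ ^ 121 + (4) * ζ ^ 122 + (21) * ζ ^ 123 + (-10) * ζ ^ 124 + (19) * ζ ^ 125 + (2) * ζ ^ 126 + (5) * ζ ^ 127 + (3) * ζ ^ 128
      + (12) * ζ ^ 129 + (-7) * ζ ^ 130 + (13) * ζ ^ 131 + (1) * ζ ^ 132 + (3) * ζ ^ 133 + (9) * ζ ^ 135 + (-6) * ζ ^ 136 + (7) * ζ ^ 137
      + (2) * ζ ^ 139 + (-1) * ζ ^ 140 + (5) * ζ ^ 141 + (-3) * ζ ^ 142 + (4) * ζ ^ 143 + (2) * ζ ^ 147 + (-2) * ζ ^ 148 + (3) * ζ ^ 149
      + (-1) * ζ ^ 150 + (1) * ζ ^ 153 + (-1) * ζ ^ 154 + (1) * ζ ^ 155) * hsum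

theorem pid_11' (K : Type) [Field K] [NumberField K] [IsCyclotomicExtension {11} ℚ K] :
    IsPrincipalIdealRing (𝓞 K) := by
  have : Fact (Nat.Prime 11) := ⟨by norm_num⟩
  apply pid_of_bound 11 K 59
  · rw [minkowski_eq 11 K]
    have h1 : √((11 : ℝ) ^ (11 - 2)) < 48559 := by
      rw [Real.sqrt_lt' (by norm_num)]
      norm_num
    have h2 : (4 / π) ^ ((11 - 1) / 2) ≤ (4 / 3.14 : ℝ) ^ ((11 - 1) / 2) := by
      gcongr
      exact pi_gt_d2.le
    have h3 : (((11 - 1)! : ℕ) : ℝ) = 3628800 := by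
      norm_num [Nat.factorial]
    push_cast
    rw [h3]
    calc (4 / π) ^ ((11 - 1) / 2) * (3628800 / ((11 - 1 : ℕ) : ℝ) ^ (11 - 1) * √((11 : ℝ) ^ (11 - 2)))
        ≤ (4 / 3.14 : ℝ) ^ ((11 - 1) / 2) * (3628800 / ((11 - 1 : ℕ) : ℝ) ^ (11 - 1) * 48559) := by
          gcongr
      _ < 59 + 1 := by norm_num
  · intro ℓ hℓ hprime hne
    rw [Finset.mem_Icc] at hℓ
    obtain ⟨h1, h2⟩ := hℓ
    interval_cases ℓ
    · exact absurd hprime (by norm_num)
    · exact Or.inl (lt_pow_orderOf 11 59 2 6 (by norm_num) (by decide) (by norm_num))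
    · exact Or.inl (lt_pow_orderOf 11 59 3 4 (by norm_num) (by decide) (by norm_num))
    · exact absurd hprime (by norm_num)
    · exact Or.inl (lt_pow_orderOf 11 59 5 3 (by norm_num) (by decide) (by norm_num))
    · exact absurd hprime (by norm_num)
    · exact Or.inl (lt_pow_orderOf 11 59 7 3 (by norm_num) (by decide) (by norm_num))
    · exact absurd hprime (by norm_num)
    · exact absurd hprime (by norm_num)
    · exact absurd hprime (by norm_num)
    · exact absurd rfl hne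
    · exact absurd hprime (by norm_num)
    · exact Or.inl (lt_pow_orderOf 11 59 13 2 (by norm_num) (by decide) (by norm_num))
    · exact absurd hprime (by norm_num)
    · exact absurd hprime (by norm_num)
    · exact absurd hprime (by norm_num)
    · exact Or.inl (lt_pow_orderOf 11 59 17 2 (by norm_num) (by decide) (by norm_num))
    · exact absurd hprime (by norm_num)
    · exact Or.inl (lt_pow_orderOf 11 59 19 2 (by norm_num) (by decide) (by norm_num))
    · exact absurd hprime (by norm_num)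
    · exact absurd hprime (by norm_num)
    · exact absurd hprime (by norm_num)
    · right
      have ho : orderOf ((23 : ℕ) : ZMod 11) = 1 := orderOf_eq_one_of_mod 11 23 (by norm_num)
      rw [ho]
      exact exists_norm_11_23 K
    · exact absurd hprime (by norm_num)
    · exact absurd hprime (by norm_num)
    · exact absurd hprime (by norm_num)
    · exact absurd hprime (by norm_num)
    · exact absurd hprime (by norm_num)
    · exact Or.inl (lt_pow_orderOf 11 59 29 2 (by norm_num) (by decide) (by norm_num))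
    · exact absurd hprime (by norm_num)
    · exact Or.inl (lt_pow_orderOf 11 59 31 2 (by norm_num) (by decide) (by norm_num))
    · exact absurd hprime (by norm_num)
    · exact absurd hprime (by norm_num)
    · exact absurd hprime (by norm_num)
    · exact absurd hprime (by norm_num)
    · exact absurd hprime (by norm_num)
    · exact Or.inl (lt_pow_orderOf 11 59 37 2 (by norm_num) (by decide) (by norm_num))
    · exact absurd hprime (by norm_num)
    · exact absurd hprime (by norm_num)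
    · exact absurd hprime (by norm_num)
    · exact Or.inl (lt_pow_orderOf 11 59 41 2 (by norm_num) (by decide) (by norm_num))
    · exact absurd hprime (by norm_num)
    · exact Or.inl (lt_pow_orderOf 11 59 43 2 (by norm_num) (by decide) (by norm_num))
    · exact absurd hprime (by norm_num)
    · exact absurd hprime (by norm_num)
    · exact absurd hprime (by norm_num)
    · exact Or.inl (lt_pow_orderOf 11 59 47 2 (by norm_num) (by decide) (by norm_num))
    · exact absurd hprime (by norm_num)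
    · exact absurd hprime (by norm_num)
    · exact absurd hprime (by norm_num)
    · exact absurd hprime (by norm_num)
    · exact absurd hprime (by norm_num)
    · exact Or.inl (lt_pow_orderOf 11 59 53 2 (by norm_num) (by decide) (by norm_num))
    · exact absurd hprime (by norm_num)
    · exact absurd hprime (by norm_num)
    · exact absurd hprime (by norm_num)
    · exact absurd hprime (by norm_num)
    · exact absurd hprime (by norm_num)
    · exact Or.inl (lt_pow_orderOf 11 59 59 2 (by norm_num) (by decide) (by norm_num))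

theorem pid_11 : IsPrincipalIdealRing (𝓞 (CyclotomicField 11 ℚ)) := by
  have h : IsCyclotomicExtension {11} ℚ (CyclotomicField 11 ℚ) :=
    CyclotomicField.isCyclotomicExtension 11 ℚ
  exact pid_11' _

end Fermat.Agent.Kummer
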