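import Fermat.Agent.Kummer.PIDGeneral

set_option autoImplicit false
set_option linter.unusedSimpArgs false

open NumberField Ideal IsCyclotomicExtension.Rat Module InfinitePlace Nat Real Polynomial

namespace Fermat.Agent.Kummer

theorem exists_norm_13_53 (K : Type) [Field K] [NumberField K] [IsCyclotomicExtension {13} ℚ K] :
    ∃ α : 𝓞 K, (Algebra.norm ℤ α).natAbs = 53 := by
  have : Fact (Nat.Prime 13) := ⟨by norm_num⟩
  have hζ := (IsCyclotomicExtension.zeta_spec 13 ℚ K).toInteger_isPrimitiveRoot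
  generalize (IsCyclotomicExtension.zeta_spec 13 ℚ K).toInteger = ζ at hζ
  have hsum : 1 + ζ + ζ ^ 2 + ζ ^ 3 + ζ ^ 4 + ζ ^ 5 + ζ ^ 6 + ζ ^ 7 + ζ ^ 8 + ζ ^ 9 + ζ ^ 10 + ζ ^ 11 + ζ ^ 12 = 0 := by
    have := hζ.geom_sum_eq_zero (by norm_num)
    simpa [Finset.sum_range_succ] using this
  refine ⟨Polynomial.aeval ζ (1 + X + X ^ 3 : Polynomial ℤ), ?_⟩
  have h := natAbs_norm_aeval 13 K ζ hζ.pow_eq_one (1 + X + X ^ 3 : Polynomial ℤ) (53) ?_
  · simpa using h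
  · simp only [Nat.reduceSub, Finset.prod_range_succ, Finset.prod_range_zero, map_add, map_sub,
      map_one, map_pow, Polynomial.aeval_X, Int.cast_ofNat, Int.cast_neg]
    linear_combination ((-52) + (53) * ζ ^ 1 + (2) * ζ ^ 3 + (-1) * ζ ^ 4 + (2) * ζ ^ 5 + (2) * ζ ^ 6 + (1) * ζ ^ 7 + (1) * ζ ^ 8
      + (5) * ζ ^ 9 + (3) * ζ ^ 10 + (2) * ζ ^ 11 + (8) * ζ ^ 12 + (-50) * ζ ^ 13 + (61) * ζ ^ 14 + (10) * ζ ^ 15 + (8) * ζ ^ 16
      + (7) * ζ ^ 17 + (20) * ζ ^ 18 + (7) * ζ ^ 19 + (18) * ζ ^ 20 + (24) * ζ ^ 21 + (17) * ζ ^ 22 + (20) * ζ ^ 23 + (33) * ζ ^ 24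
      + (23) * ζ ^ 25 + (-24) * ζ ^ 26 + (101) * ζ ^ 27 + (33) * ζ ^ 28 + (38) * ζ ^ 29 + (55) * ζ ^ 30 + (49) * ζ ^ 31 + (43) * ζ ^ 32
      + (84) * ζ ^ 33 + (46) * ζ ^ 34 + (74) * ζ ^ 35 + (91) * ζ ^ 36 + (71) * ζ ^ 37 + (74) * ζ ^ 38 + (72) * ζ ^ 39 + (134) * ζ ^ 40
      + (101) * ζ ^ 41 + (136) * ζ ^ 42 + (102) * ζ ^ 43 + (123) * ζ ^ 44 + (173) * ζ ^ 45 + (117) * ζ ^ 46 + (143) * ζ ^ 47 + (205) * ζ ^ 48
      + (135) * ζ ^ 49 + (167) * ζ ^ 50 + (225) * ζ ^ 51 + (124) * ζ ^ 52 + (228) * ζ ^ 53 + (282) * ζ ^ 54 + (186) * ζ ^ 55 + (221) * ζ ^ 56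
      + (298) * ζ ^ 57 + (223) * ζ ^ 58 + (228) * ζ ^ 59 + (342) * ζ ^ 60 + (245) * ζ ^ 61 + (262) * ζ ^ 62 + (376) * ζ ^ 63 + (266) * ζ ^ 64
      + (244) * ζ ^ 65 + (485) * ζ ^ 66 + (276) * ζ ^ 67 + (327) * ζ ^ 68 + (436) * ζ ^ 69 + (322) * ζ ^ 70 + (335) * ζ ^ 71 + (485) * ζ ^ 72
      + (337) * ζ ^ 73 + (369) * ζ ^ 74 + (505) * ζ ^ 75 + (353) * ζ ^ 76 + (402) * ζ ^ 77 + (521) * ζ ^ 78 + (393) * ζ ^ 79 + (413) * ζ ^ 80
      + (569) * ζ ^ 81 + (383) * ζ ^ 82 + (417) * ζ ^ 83 + (605) * ζ ^ 84 + (390) * ζ ^ 85 + (430) * ζ ^ 86 + (616) * ζ ^ 87 + (406) * ζ ^ 88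
      + (436) * ζ ^ 89 + (646) * ζ ^ 90 + (414) * ζ ^ 91 + (433) * ζ ^ 92 + (645) * ζ ^ 93 + (416) * ζ ^ 94 + (439) * ζ ^ 95 + (625) * ζ ^ 96
      + (455) * ζ ^ 97 + (400) * ζ ^ 98 + (678) * ζ ^ 99 + (392) * ζ ^ 100 + (435) * ζ ^ 101 + (627) * ζ ^ 102 + (428) * ζ ^ 103 + (408) * ζ ^ 104
      + (642) * ζ ^ 105 + (378) * ζ ^ 106 + (425) * ζ ^ 107 + (587) * ζ ^ 108 + (401) * ζ ^ 109 + (383) * ζ ^ 110 + (595) * ζ ^ 111 + (377) * ζ ^ 112
      + (382) * ζ ^ 113 + (543) * ζ ^ 114 + (386) * ζ ^ 115 + (317) * ζ ^ 116 + (566) * ζ ^ 117 + (328) * ζ ^ 118 + (341) * ζ ^ 119 + (507) * ζ ^ 120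
      + (324) * ζ ^ 121 + (284) * ζ ^ 122 + (507) * ζ ^ 123 + (287) * ζ ^ 124 + (287) * ζ ^ 125 + (454) * ζ ^ 126 + (267) * ζ ^ 127 + (253) * ζ ^ 128
      + (425) * ζ ^ 129 + (244) * ζ ^ 130 + (237) * ζ ^ 131 + (390) * ζ ^ 132 + (236) * ζ ^ 133 + (198) * ζ ^ 134 + (350) * ζ ^ 135 + (221) * ζ ^ 136
      + (174) * ζ ^ 137 + (336) * ζ ^ 138 + (179) * ζ ^ 139 + (163) * ζ ^ 140 + (288) * ζ ^ 141 + (175) * ζ ^ 142 + (124) * ζ ^ 143 + (275) * ζ ^ 144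
      + (131) * ζ ^ 145 + (143) * ζ ^ 146 + (211) * ζ ^ 147 + (144) * ζ ^ 148 + (79) * ζ ^ 149 + (232) * ζ ^ 150 + (92) * ζ ^ 151 + (103) * ζ ^ 152
      + (162) * ζ ^ 153 + (117) * ζ ^ 154 + (50) * ζ ^ 155 + (178) * ζ ^ 156 + (56) * ζ ^ 157 + (81) * ζ ^ 158 + (115) * ζ ^ 159 + (91) * ζ ^ 160
      + (25) * ζ ^ 161 + (141) * ζ ^ 162 + (31) * ζ ^ 163 + (61) * ζ ^ 164 + (74) * ζ ^ 165 + (71) * ζ ^ 166 + (5) * ζ ^ 167 + (109) * ζ ^ 168
      + (14) * ζ ^ 169 + (42) * ζ ^ 170 + (49) * ζ ^ 171 + (54) * ζ ^ 172 + (-8) * ζ ^ 173 + (83) * ζ ^ 174 + (6) * ζ ^ 175 + (30) * ζ ^ 176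
      + (29) * ζ ^ 177 + (36) * ζ ^ 178 + (-10) * ζ ^ 179 + (56) * ζ ^ 180 + (-2) * ζ ^ 181 + (22) * ζ ^ 182 + (14) * ζ ^ 183 + (28) * ζ ^ 184
      + (-10) * ζ ^ 185 + (36) * ζ ^ 186 + (-2) * ζ ^ 187 + (15) * ζ ^ 188 + (8) * ζ ^ 189 + (18) * ζ ^ 190 + (-13) * ζ ^ 191 + (27) * ζ ^ 192
      + (-5) * ζ ^ 193 + (8) * ζ ^ 194 + (4) * ζ ^ 195 + (11) * ζ ^ 196 + (-8) * ζ ^ 197 + (17) * ζ ^ 198 + (-4) * ζ ^ 199 + (4) * ζ ^ 200
      + (2) * ζ ^ 201 + (7) * ζ ^ 202 + (-5) * ζ ^ 203 + (8) * ζ ^ 204 + (-3) * ζ ^ 205 + (3) * ζ ^ 206 + (4) * ζ ^ 208 + (-3) * ζ ^ 209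
      + (5) * ζ ^ 210 + (-1) * ζ ^ 211 + (2) * ζ ^ 214 + (-2) * ζ ^ 215 + (3) * ζ ^ 216 + (-1) * ζ ^ 217 + (1) * ζ ^ 220 + (-1) * ζ ^ 221
      + (1) * ζ ^ 222) * hsum

theorem exists_norm_13_3 (K : Type) [Field K] [NumberField K] [IsCyclotomicExtension {13} ℚ K] :
    ∃ α : 𝓞 K, (Algebra.norm ℤ α).natAbs = 27 := by
  have : Fact (Nat.Prime 13) := ⟨by norm_num⟩
  have hζ := (IsCyclotomicExtension.zeta_spec 13 ℚ K).toInteger_isPrimitiveRoot
  generalize (IsCyclotomicExtension.zeta_spec 13 ℚ K).toInteger = ζ at hζ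
  have hsum : 1 + ζ + ζ ^ 2 + ζ ^ 3 + ζ ^ 4 + ζ ^ 5 + ζ ^ 6 + ζ ^ 7 + ζ ^ 8 + ζ ^ 9 + ζ ^ 10 + ζ ^ 11 + ζ ^ 12 = 0 := by
    have := hζ.geom_sum_eq_zero (by norm_num)
    simpa [Finset.sum_range_succ] using this
  refine ⟨Polynomial.aeval ζ (1 + X - X ^ 3 : Polynomial ℤ), ?_⟩
  have h := natAbs_norm_aeval 13 K ζ hζ.pow_eq_one (1 + X - X ^ 3 : Polynomial ℤ) (27) ?_
  · simpa using h
  · simp only [Nat.reduceSub, Finset.prod_range_succ, Finset.prod_range_zero, map_add, map_sub,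
      map_one, map_pow, Polynomial.aeval_X, Int.cast_ofNat, Int.cast_neg]
    linear_combination ((-26) + (27) * ζ ^ 1 + (1) * ζ ^ 4 + (1) * ζ ^ 7 + (1) * ζ ^ 8 + (1) * ζ ^ 9 + (-1) * ζ ^ 10 + (2) * ζ ^ 11
      + (2) * ζ ^ 12 + (-26) * ζ ^ 13 + (27) * ζ ^ 14 + (2) * ζ ^ 16 + (1) * ζ ^ 17 + (1) * ζ ^ 19 + (2) * ζ ^ 20 + (-1) * ζ ^ 22
      + (1) * ζ ^ 24 + (1) * ζ ^ 25 + (-30) * ζ ^ 26 + (25) * ζ ^ 27 + (1) * ζ ^ 28 + (-2) * ζ ^ 29 + (-3) * ζ ^ 30 + (-3) * ζ ^ 31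
      + (-1) * ζ ^ 32 + (-4) * ζ ^ 33 + (-6) * ζ ^ 34 + (-2) * ζ ^ 35 + (-1) * ζ ^ 36 + (-5) * ζ ^ 37 + (-6) * ζ ^ 38 + (-32) * ζ ^ 39
      + (26) * ζ ^ 40 + (-5) * ζ ^ 41 + (-6) * ζ ^ 42 + (-4) * ζ ^ 43 + (-1) * ζ ^ 44 + (-1) * ζ ^ 45 + (-7) * ζ ^ 46 + (-1) * ζ ^ 47
      + (5) * ζ ^ 48 + (-1) * ζ ^ 49 + (-5) * ζ ^ 50 + (3) * ζ ^ 51 + (-24) * ζ ^ 52 + (32) * ζ ^ 53 + (6) * ζ ^ 55 + (11) * ζ ^ 56
      + (6) * ζ ^ 57 + (3) * ζ ^ 58 + (6) * ζ ^ 59 + (12) * ζ ^ 60 + (11) * ζ ^ 61 + (4) * ζ ^ 62 + (6) * ζ ^ 63 + (16) * ζ ^ 64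
      + (-22) * ζ ^ 65 + (33) * ζ ^ 66 + (10) * ζ ^ 67 + (11) * ζ ^ 68 + (2) * ζ ^ 69 + (2) * ζ ^ 70 + (3) * ζ ^ 71 + (7) * ζ ^ 72
      + (1) * ζ ^ 73 + (1) * ζ ^ 74 + (-7) * ζ ^ 75 + (1) * ζ ^ 76 + (-45) * ζ ^ 78 + (29) * ζ ^ 79 + (-9) * ζ ^ 80 + (-7) * ζ ^ 81
      + (-17) * ζ ^ 82 + (-7) * ζ ^ 83 + (-3) * ζ ^ 84 + (-16) * ζ ^ 85 + (-18) * ζ ^ 86 + (-8) * ζ ^ 87 + (-10) * ζ ^ 88 + (-10) * ζ ^ 89
      + (-10) * ζ ^ 90 + (-46) * ζ ^ 91 + (29) * ζ ^ 92 + (-3) * ζ ^ 93 + (-14) * ζ ^ 94 + (-5) * ζ ^ 95 + (7) * ζ ^ 96 + (-5) * ζ ^ 97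
      + (-4) * ζ ^ 98 + (2) * ζ ^ 99 + (10) * ζ ^ 100 + (1) * ζ ^ 101 + (9) * ζ ^ 102 + (6) * ζ ^ 103 + (-24) * ζ ^ 104 + (42) * ζ ^ 105
      + (8) * ζ ^ 106 + (9) * ζ ^ 107 + (11) * ζ ^ 108 + (15) * ζ ^ 109 + (13) * ζ ^ 110 + (7) * ζ ^ 111 + (11) * ζ ^ 112 + (10) * ζ ^ 113
      + (-1) * ζ ^ 114 + (16) * ζ ^ 115 + (3) * ζ ^ 116 + (-36) * ζ ^ 117 + (40) * ζ ^ 118 + (5) * ζ ^ 119 + (-1) * ζ ^ 120 + (10) * ζ ^ 121
      + (-8) * ζ ^ 122 + (-5) * ζ ^ 123 + (-9) * ζ ^ 124 + (-1) * ζ ^ 125 + (-10) * ζ ^ 126 + (-7) * ζ ^ 127 + (-3) * ζ ^ 128 + (-15) * ζ ^ 129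
      + (-32) * ζ ^ 130 + (25) * ζ ^ 131 + (-4) * ζ ^ 132 + (-8) * ζ ^ 133 + (-8) * ζ ^ 134 + (-10) * ζ ^ 135 + (-9) * ζ ^ 136 + (-2) * ζ ^ 137
      + (6) * ζ ^ 138 + (-13) * ζ ^ 139 + (1) * ζ ^ 140 + (2) * ζ ^ 141 + (-1) * ζ ^ 142 + (-32) * ζ ^ 143 + (41) * ζ ^ 144 + (-11) * ζ ^ 145
      + (9) * ζ ^ 146 + (11) * ζ ^ 147 + (-10) * ζ ^ 148 + (9) * ζ ^ 149 + (8) * ζ ^ 150 + (8) * ζ ^ 151 + (-11) * ζ ^ 152 + (12) * ζ ^ 153
      + (7) * ζ ^ 154 + (2) * ζ ^ 155 + (-28) * ζ ^ 156 + (32) * ζ ^ 157 + (3) * ζ ^ 158 + (5) * ζ ^ 159 + (-3) * ζ ^ 160 + (-1) * ζ ^ 161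
      + (-3) * ζ ^ 162 + (7) * ζ ^ 163 + (-3) * ζ ^ 164 + (-6) * ζ ^ 165 + (5) * ζ ^ 166 + (-1) * ζ ^ 167 + (-9) * ζ ^ 168 + (-16) * ζ ^ 169
      + (18) * ζ ^ 170 + (-11) * ζ ^ 171 + (10) * ζ ^ 172 + (-8) * ζ ^ 173 + (1) * ζ ^ 174 + (-6) * ζ ^ 175 + (6) * ζ ^ 176 + (-7) * ζ ^ 177
      + (2) * ζ ^ 178 + (-4) * ζ ^ 181 + (-8) * ζ ^ 182 + (12) * ζ ^ 183 + (-4) * ζ ^ 184 + (6) * ζ ^ 185 + (-2) * ζ ^ 186 + (2) * ζ ^ 187
      + (-1) * ζ ^ 188 + (8) * ζ ^ 189 + (-6) * ζ ^ 190 + (3) * ζ ^ 191 + (1) * ζ ^ 192 + (1) * ζ ^ 193 + (-6) * ζ ^ 194 + (5) * ζ ^ 196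
      + (-2) * ζ ^ 197 + (1) * ζ ^ 198 + (-2) * ζ ^ 199 + (2) * ζ ^ 200 + (1) * ζ ^ 202 + (-3) * ζ ^ 203 + (2) * ζ ^ 204 + (-1) * ζ ^ 205
      + (1) * ζ ^ 206 + (-4) * ζ ^ 207 + (1) * ζ ^ 209 + (-1) * ζ ^ 210 + (1) * ζ ^ 211 + (2) * ζ ^ 215 + (-1) * ζ ^ 216 + (1) * ζ ^ 217
      + (-1) * ζ ^ 220 + (-1) * ζ ^ 221 + (1) * ζ ^ 222) * hsum

theorem exists_norm_13_131 (K : Type) [Field K] [NumberField K] [IsCyclotomicExtension {13} ℚ K] :
    ∃ α : 𝓞 K, (Algebra.norm ℤ α).natAbs = 131 := by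
  have : Fact (Nat.Prime 13) := ⟨by norm_num⟩
  have hζ := (IsCyclotomicExtension.zeta_spec 13 ℚ K).toInteger_isPrimitiveRoot
  generalize (IsCyclotomicExtension.zeta_spec 13 ℚ K).toInteger = ζ at hζ
  have hsum : 1 + ζ + ζ ^ 2 + ζ ^ 3 + ζ ^ 4 + ζ ^ 5 + ζ ^ 6 + ζ ^ 7 + ζ ^ 8 + ζ ^ 9 + ζ ^ 10 + ζ ^ 11 + ζ ^ 12 = 0 := by
    have := hζ.geom_sum_eq_zero (by norm_num)
    simpa [Finset.sum_range_succ] using this
  refine ⟨Polynomial.aeval ζ (1 + X ^ 2 - X ^ 3 : Polynomial ℤ), ?_⟩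
  have h := natAbs_norm_aeval 13 K ζ hζ.pow_eq_one (1 + X ^ 2 - X ^ 3 : Polynomial ℤ) (131) ?_
  · simpa using h
  · simp only [Nat.reduceSub, Finset.prod_range_succ, Finset.prod_range_zero, map_add, map_sub,
      map_one, map_pow, Polynomial.aeval_X, Int.cast_ofNat, Int.cast_neg]
    linear_combination ((-130) + (130) * ζ ^ 1 + (1) * ζ ^ 2 + (-2) * ζ ^ 3 + (2) * ζ ^ 4 + (-1) * ζ ^ 5 + (1) * ζ ^ 6 + (-2) * ζ ^ 7
      + (2) * ζ ^ 8 + (-2) * ζ ^ 9 + (4) * ζ ^ 10 + (-5) * ζ ^ 11 + (5) * ζ ^ 12 + (-136) * ζ ^ 13 + (135) * ζ ^ 14 + (-2) * ζ ^ 15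
      + (3) * ζ ^ 16 + (-5) * ζ ^ 17 + (6) * ζ ^ 18 + (-7) * ζ ^ 19 + (9) * ζ ^ 20 + (-12) * ζ ^ 21 + (12) * ζ ^ 22 + (-10) * ζ ^ 23
      + (11) * ζ ^ 24 + (-10) * ζ ^ 25 + (-120) * ζ ^ 26 + (115) * ζ ^ 27 + (16) * ζ ^ 28 + (-15) * ζ ^ 29 + (17) * ζ ^ 30 + (-19) * ζ ^ 31
      + (20) * ζ ^ 32 + (-22) * ζ ^ 33 + (21) * ζ ^ 34 + (-18) * ζ ^ 35 + (20) * ζ ^ 36 + (-22) * ζ ^ 37 + (22) * ζ ^ 38 + (-155) * ζ ^ 39
      + (157) * ζ ^ 40 + (-30) * ζ ^ 41 + (34) * ζ ^ 42 + (-38) * ζ ^ 43 + (34) * ζ ^ 44 + (-25) * ζ ^ 45 + (24) * ζ ^ 46 + (-30) * ζ ^ 47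
      + (33) * ζ ^ 48 + (-30) * ζ ^ 49 + (34) * ζ ^ 50 + (-41) * ζ ^ 51 + (-97) * ζ ^ 52 + (93) * ζ ^ 53 + (41) * ζ ^ 54 + (-25) * ζ ^ 55
      + (19) * ζ ^ 56 + (-28) * ζ ^ 57 + (33) * ζ ^ 58 + (-35) * ζ ^ 59 + (41) * ζ ^ 60 + (-41) * ζ ^ 61 + (37) * ζ ^ 62 + (-33) * ζ ^ 63
      + (31) * ζ ^ 64 + (-157) * ζ ^ 65 + (141) * ζ ^ 66 + (-12) * ζ ^ 67 + (23) * ζ ^ 68 + (-26) * ζ ^ 69 + (31) * ζ ^ 70 + (-22) * ζ ^ 71
      + (12) * ζ ^ 72 + (-15) * ζ ^ 73 + (20) * ζ ^ 74 + (-13) * ζ ^ 75 + (7) * ζ ^ 76 + (3) * ζ ^ 77 + (-150) * ζ ^ 78 + (141) * ζ ^ 79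
      + (11) * ζ ^ 80 + (-10) * ζ ^ 81 + (-5) * ζ ^ 82 + (7) * ζ ^ 83 + (4) * ζ ^ 84 + (2) * ζ ^ 85 + (-25) * ζ ^ 86 + (42) * ζ ^ 87
      + (-42) * ζ ^ 88 + (38) * ζ ^ 89 + (-12) * ζ ^ 90 + (-144) * ζ ^ 91 + (123) * ζ ^ 92 + (23) * ζ ^ 93 + (-17) * ζ ^ 94 + (25) * ζ ^ 95
      + (-34) * ζ ^ 96 + (43) * ζ ^ 97 + (-57) * ζ ^ 98 + (51) * ζ ^ 99 + (-20) * ζ ^ 100 + (8) * ζ ^ 101 + (-21) * ζ ^ 102 + (31) * ζ ^ 103
      + (-185) * ζ ^ 104 + (195) * ζ ^ 105 + (-51) * ζ ^ 106 + (32) * ζ ^ 107 + (-35) * ζ ^ 108 + (54) * ζ ^ 109 + (-27) * ζ ^ 110 + (1) * ζ ^ 111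
      + (-21) * ζ ^ 112 + (31) * ζ ^ 113 + (-9) * ζ ^ 114 + (11) * ζ ^ 115 + (-28) * ζ ^ 116 + (-131) * ζ ^ 117 + (131) * ζ ^ 118 + (24) * ζ ^ 119
      + (-27) * ζ ^ 120 + (23) * ζ ^ 121 + (10) * ζ ^ 122 + (-22) * ζ ^ 123 + (-4) * ζ ^ 124 + (7) * ζ ^ 125 + (-23) * ζ ^ 126 + (47) * ζ ^ 127
      + (-30) * ζ ^ 128 + (13) * ζ ^ 129 + (-140) * ζ ^ 130 + (137) * ζ ^ 131 + (20) * ζ ^ 132 + (-58) * ζ ^ 133 + (72) * ζ ^ 134 + (-32) * ζ ^ 135
      + (2) * ζ ^ 136 + (-14) * ζ ^ 137 + (-1) * ζ ^ 138 + (-17) * ζ ^ 139 + (55) * ζ ^ 140 + (-61) * ζ ^ 141 + (31) * ζ ^ 142 + (-138) * ζ ^ 143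
      + (170) * ζ ^ 144 + (-6) * ζ ^ 145 + (-61) * ζ ^ 146 + (37) * ζ ^ 147 + (7) * ζ ^ 148 + (-17) * ζ ^ 149 + (25) * ζ ^ 150 + (-21) * ζ ^ 151
      + (6) * ζ ^ 152 + (16) * ζ ^ 153 + (-13) * ζ ^ 154 + (-22) * ζ ^ 155 + (-64) * ζ ^ 156 + (59) * ζ ^ 157 + (30) * ζ ^ 158 + (-26) * ζ ^ 159
      + (20) * ζ ^ 160 + (-7) * ζ ^ 161 + (-6) * ζ ^ 162 + (8) * ζ ^ 163 + (-13) * ζ ^ 164 + (2) * ζ ^ 165 + (25) * ζ ^ 166 + (-12) * ζ ^ 167
      + (-6) * ζ ^ 168 + (-43) * ζ ^ 169 + (43) * ζ ^ 170 + (-1) * ζ ^ 171 + (-5) * ζ ^ 172 + (25) * ζ ^ 173 + (-13) * ζ ^ 174 + (1) * ζ ^ 175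
      + (1) * ζ ^ 176 + (-5) * ζ ^ 177 + (-9) * ζ ^ 178 + (20) * ζ ^ 179 + (-32) * ζ ^ 180 + (13) * ζ ^ 181 + (-31) * ζ ^ 182 + (33) * ζ ^ 183
      + (-20) * ζ ^ 184 + (11) * ζ ^ 185 + (9) * ζ ^ 186 + (8) * ζ ^ 187 + (-4) * ζ ^ 188 + (10) * ζ ^ 189 + (-3) * ζ ^ 190 + (5) * ζ ^ 191
      + (3) * ζ ^ 192 + (-10) * ζ ^ 193 + (-5) * ζ ^ 194 + (-14) * ζ ^ 195 + (17) * ζ ^ 196 + (-17) * ζ ^ 197 + (5) * ζ ^ 198 + (-6) * ζ ^ 199
      + (7) * ζ ^ 200 + (-2) * ζ ^ 201 + (8) * ζ ^ 202 + (-5) * ζ ^ 203 + (8) * ζ ^ 204 + (1) * ζ ^ 205 + (-2) * ζ ^ 207 + (-4) * ζ ^ 208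
      + (5) * ζ ^ 209 + (-4) * ζ ^ 210 + (-1) * ζ ^ 212 + (1) * ζ ^ 213 + (-3) * ζ ^ 214 + (3) * ζ ^ 215 + (-2) * ζ ^ 216 + (2) * ζ ^ 217
      + (1) * ζ ^ 218 + (-2) * ζ ^ 221 + (1) * ζ ^ 222) * hsum

theorem exists_norm_13_79 (K : Type) [Field K] [NumberField K] [IsCyclotomicExtension {13} ℚ K] :
    ∃ α : 𝓞 K, (Algebra.norm ℤ α).natAbs = 79 := by
  have : Fact (Nat.Prime 13) := ⟨by norm_num⟩
  have hζ := (IsCyclotomicExtension.zeta_spec 13 ℚ K).toInteger_isPrimitiveRoot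
  generalize (IsCyclotomicExtension.zeta_spec 13 ℚ K).toInteger = ζ at hζ
  have hsum : 1 + ζ + ζ ^ 2 + ζ ^ 3 + ζ ^ 4 + ζ ^ 5 + ζ ^ 6 + ζ ^ 7 + ζ ^ 8 + ζ ^ 9 + ζ ^ 10 + ζ ^ 11 + ζ ^ 12 = 0 := by
    have := hζ.geom_sum_eq_zero (by norm_num)
    simpa [Finset.sum_range_succ] using this
  refine ⟨Polynomial.aeval ζ (1 + X + X ^ 2 + X ^ 4 : Polynomial ℤ), ?_⟩
  have h := natAbs_norm_aeval 13 K ζ hζ.pow_eq_one (1 + X + X ^ 2 + X ^ 4 : Polynomial ℤ) (79) ?_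
  · simpa using h
  · simp only [Nat.reduceSub, Finset.prod_range_succ, Finset.prod_range_zero, map_add, map_sub,
      map_one, map_pow, Polynomial.aeval_X, Int.cast_ofNat, Int.cast_neg]
    linear_combination ((-78) + (79) * ζ ^ 1 + (1) * ζ ^ 2 + (3) * ζ ^ 4 + (3) * ζ ^ 6 + (2) * ζ ^ 7 + (6) * ζ ^ 8 + (3) * ζ ^ 9
      + (7) * ζ ^ 10 + (6) * ζ ^ 11 + (14) * ζ ^ 12 + (-71) * ζ ^ 13 + (97) * ζ ^ 14 + (14) * ζ ^ 15 + (27) * ζ ^ 16 + (20) * ζ ^ 17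
      + (36) * ζ ^ 18 + (29) * ζ ^ 19 + (54) * ζ ^ 20 + (42) * ζ ^ 21 + (66) * ζ ^ 22 + (59) * ζ ^ 23 + (93) * ζ ^ 24 + (81) * ζ ^ 25
      + (36) * ζ ^ 26 + (185) * ζ ^ 27 + (160) * ζ ^ 28 + (137) * ζ ^ 29 + (194) * ζ ^ 30 + (181) * ζ ^ 31 + (253) * ζ ^ 32 + (225) * ζ ^ 33
      + (308) * ζ ^ 34 + (287) * ζ ^ 35 + (391) * ζ ^ 36 + (353) * ζ ^ 37 + (466) * ζ ^ 38 + (355) * ζ ^ 39 + (660) * ζ ^ 40 + (526) * ζ ^ 41
      + (679) * ζ ^ 42 + (637) * ζ ^ 43 + (826) * ζ ^ 44 + (753) * ζ ^ 45 + (956) * ζ ^ 46 + (899) * ζ ^ 47 + (1144) * ζ ^ 48 + (1049) * ζ ^ 49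
      + (1304) * ζ ^ 50 + (1227) * ζ ^ 51 + (1452) * ζ ^ 52 + (1492) * ζ ^ 53 + (1737) * ζ ^ 54 + (1614) * ζ ^ 55 + (2017) * ζ ^ 56 + (1844) * ζ ^ 57
      + (2244) * ζ ^ 58 + (2092) * ζ ^ 59 + (2582) * ζ ^ 60 + (2341) * ζ ^ 61 + (2855) * ζ ^ 62 + (2636) * ζ ^ 63 + (3226) * ζ ^ 64 + (2840) * ζ ^ 65
      + (3617) * ζ ^ 66 + (3251) * ζ ^ 67 + (3950) * ζ ^ 68 + (3578) * ζ ^ 69 + (4299) * ζ ^ 70 + (3925) * ζ ^ 71 + (4773) * ζ ^ 72 + (4276) * ζ ^ 73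
      + (5145) * ζ ^ 74 + (4655) * ζ ^ 75 + (5652) * ζ ^ 76 + (5029) * ζ ^ 77 + (5952) * ζ ^ 78 + (5525) * ζ ^ 79 + (6580) * ζ ^ 80 + (5816) * ζ ^ 81
      + (7000) * ζ ^ 82 + (6237) * ζ ^ 83 + (7553) * ζ ^ 84 + (6642) * ζ ^ 85 + (7966) * ζ ^ 86 + (7036) * ζ ^ 87 + (8577) * ζ ^ 88 + (7423) * ζ ^ 89
      + (8966) * ζ ^ 90 + (7777) * ζ ^ 91 + (9640) * ζ ^ 92 + (8221) * ζ ^ 93 + (9947) * ζ ^ 94 + (8627) * ζ ^ 95 + (10535) * ζ ^ 96 + (8960) * ζ ^ 97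
      + (10926) * ζ ^ 98 + (9328) * ζ ^ 99 + (11478) * ζ ^ 100 + (9660) * ζ ^ 101 + (11809) * ζ ^ 102 + (9976) * ζ ^ 103 + (12284) * ζ ^ 104 + (10342) * ζ ^ 105
      + (12634) * ζ ^ 106 + (10533) * ζ ^ 107 + (13162) * ζ ^ 108 + (10735) * ζ ^ 109 + (13405) * ζ ^ 110 + (11000) * ζ ^ 111 + (13846) * ζ ^ 112 + (11135) * ζ ^ 113
      + (14033) * ζ ^ 114 + (11301) * ζ ^ 115 + (14428) * ζ ^ 116 + (11336) * ζ ^ 117 + (14601) * ζ ^ 118 + (11521) * ζ ^ 119 + (14894) * ζ ^ 120 + (11558) * ζ ^ 121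
      + (14893) * ζ ^ 122 + (11610) * ζ ^ 123 + (15181) * ζ ^ 124 + (11565) * ζ ^ 125 + (15130) * ζ ^ 126 + (11544) * ζ ^ 127 + (15330) * ζ ^ 128 + (11444) * ζ ^ 129
      + (15170) * ζ ^ 130 + (11410) * ζ ^ 131 + (15405) * ζ ^ 132 + (11200) * ζ ^ 133 + (15187) * ζ ^ 134 + (11002) * ζ ^ 135 + (15260) * ζ ^ 136 + (10832) * ζ ^ 137
      + (14997) * ζ ^ 138 + (10598) * ζ ^ 139 + (15012) * ζ ^ 140 + (10322) * ζ ^ 141 + (14710) * ζ ^ 142 + (10004) * ζ ^ 143 + (14727) * ζ ^ 144 + (9747) * ζ ^ 145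
      + (14272) * ζ ^ 146 + (9454) * ζ ^ 147 + (14123) * ζ ^ 148 + (9126) * ζ ^ 149 + (13726) * ζ ^ 150 + (8787) * ζ ^ 151 + (13521) * ζ ^ 152 + (8415) * ζ ^ 153
      + (13118) * ζ ^ 154 + (8036) * ζ ^ 155 + (12839) * ζ ^ 156 + (7706) * ζ ^ 157 + (12425) * ζ ^ 158 + (7254) * ζ ^ 159 + (12144) * ζ ^ 160 + (6880) * ζ ^ 161
      + (11638) * ζ ^ 162 + (6484) * ζ ^ 163 + (11383) * ζ ^ 164 + (6084) * ζ ^ 165 + (10850) * ζ ^ 166 + (5735) * ζ ^ 167 + (10524) * ζ ^ 168 + (5355) * ζ ^ 169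
      + (9993) * ζ ^ 170 + (4996) * ζ ^ 171 + (9661) * ζ ^ 172 + (4650) * ζ ^ 173 + (9122) * ζ ^ 174 + (4300) * ζ ^ 175 + (8788) * ζ ^ 176 + (3978) * ζ ^ 177
      + (8292) * ζ ^ 178 + (3584) * ζ ^ 179 + (7988) * ζ ^ 180 + (3307) * ζ ^ 181 + (7480) * ζ ^ 182 + (2984) * ζ ^ 183 + (7140) * ζ ^ 184 + (2730) * ζ ^ 185
      + (6658) * ζ ^ 186 + (2427) * ζ ^ 187 + (6367) * ζ ^ 188 + (2182) * ζ ^ 189 + (5926) * ζ ^ 190 + (1950) * ζ ^ 191 + (5558) * ζ ^ 192 + (1753) * ζ ^ 193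
      + (5173) * ζ ^ 194 + (1529) * ζ ^ 195 + (4891) * ζ ^ 196 + (1334) * ζ ^ 197 + (4510) * ζ ^ 198 + (1129) * ζ ^ 199 + (4237) * ζ ^ 200 + (1018) * ζ ^ 201
      + (3879) * ζ ^ 202 + (837) * ζ ^ 203 + (3646) * ζ ^ 204 + (705) * ζ ^ 205 + (3316) * ζ ^ 206 + (597) * ζ ^ 207 + (3086) * ζ ^ 208 + (501) * ζ ^ 209
      + (2804) * ζ ^ 210 + (383) * ζ ^ 211 + (2601) * ζ ^ 212 + (320) * ζ ^ 213 + (2351) * ζ ^ 214 + (225) * ζ ^ 215 + (2180) * ζ ^ 216 + (172) * ζ ^ 217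
      + (1946) * ζ ^ 218 + (117) * ζ ^ 219 + (1795) * ζ ^ 220 + (72) * ζ ^ 221 + (1619) * ζ ^ 222 + (17) * ζ ^ 223 + (1467) * ζ ^ 224 + (15) * ζ ^ 225
      + (1290) * ζ ^ 226 + (-30) * ζ ^ 227 + (1196) * ζ ^ 228 + (-44) * ζ ^ 229 + (1033) * ζ ^ 230 + (-53) * ζ ^ 231 + (938) * ζ ^ 232 + (-76) * ζ ^ 233
      + (843) * ζ ^ 234 + (-96) * ζ ^ 235 + (750) * ζ ^ 236 + (-79) * ζ ^ 237 + (648) * ζ ^ 238 + (-98) * ζ ^ 239 + (596) * ζ ^ 240 + (-95) * ζ ^ 241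
      + (500) * ζ ^ 242 + (-89) * ζ ^ 243 + (450) * ζ ^ 244 + (-88) * ζ ^ 245 + (389) * ζ ^ 246 + (-85) * ζ ^ 247 + (336) * ζ ^ 248 + (-65) * ζ ^ 249
      + (278) * ζ ^ 250 + (-80) * ζ ^ 251 + (265) * ζ ^ 252 + (-68) * ζ ^ 253 + (207) * ζ ^ 254 + (-58) * ζ ^ 255 + (183) * ζ ^ 256 + (-58) * ζ ^ 257
      + (164) * ζ ^ 258 + (-57) * ζ ^ 259 + (135) * ζ ^ 260 + (-38) * ζ ^ 261 + (108) * ζ ^ 262 + (-44) * ζ ^ 263 + (97) * ζ ^ 264 + (-33) * ζ ^ 265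
      + (74) * ζ ^ 266 + (-29) * ζ ^ 267 + (64) * ζ ^ 268 + (-28) * ζ ^ 269 + (56) * ζ ^ 270 + (-23) * ζ ^ 271 + (42) * ζ ^ 272 + (-14) * ζ ^ 273
      + (33) * ζ ^ 274 + (-18) * ζ ^ 275 + (32) * ζ ^ 276 + (-14) * ζ ^ 277 + (20) * ζ ^ 278 + (-9) * ζ ^ 279 + (18) * ζ ^ 280 + (-9) * ζ ^ 281
      + (14) * ζ ^ 282 + (-8) * ζ ^ 283 + (11) * ζ ^ 284 + (-3) * ζ ^ 285 + (7) * ζ ^ 286 + (-5) * ζ ^ 287 + (7) * ζ ^ 288 + (-3) * ζ ^ 289
      + (3) * ζ ^ 290 + (-2) * ζ ^ 291 + (4) * ζ ^ 292 + (-2) * ζ ^ 293 + (3) * ζ ^ 294 + (-2) * ζ ^ 295 + (1) * ζ ^ 296 + (1) * ζ ^ 298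
      + (-1) * ζ ^ 299 + (1) * ζ ^ 300) * hsum

theorem exists_norm_13_157 (K : Type) [Field K] [NumberField K] [IsCyclotomicExtension {13} ℚ K] :
    ∃ α : 𝓞 K, (Algebra.norm ℤ α).natAbs = 157 := by
  have : Fact (Nat.Prime 13) := ⟨by norm_num⟩
  have hζ := (IsCyclotomicExtension.zeta_spec 13 ℚ K).toInteger_isPrimitiveRoot
  generalize (IsCyclotomicExtension.zeta_spec 13 ℚ K).toInteger = ζ at hζ
  have hsum : 1 + ζ + ζ ^ 2 + ζ ^ 3 + ζ ^ 4 + ζ ^ 5 + ζ ^ 6 + ζ ^ 7 + ζ ^ 8 + ζ ^ 9 + ζ ^ 10 + ζ ^ 11 + ζ ^ 12 = 0 := by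
    have := hζ.geom_sum_eq_zero (by norm_num)
    simpa [Finset.sum_range_succ] using this
  refine ⟨Polynomial.aeval ζ (1 + X ^ 2 - X ^ 3 + X ^ 4 : Polynomial ℤ), ?_⟩
  have h := natAbs_norm_aeval 13 K ζ hζ.pow_eq_one (1 + X ^ 2 - X ^ 3 + X ^ 4 : Polynomial ℤ) (157) ?_
  · simpa using h
  · simp only [Nat.reduceSub, Finset.prod_range_succ, Finset.prod_range_zero, map_add, map_sub,
      map_one, map_pow, Polynomial.aeval_X, Int.cast_ofNat, Int.cast_neg]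
    linear_combination ((-156) + (156) * ζ ^ 1 + (1) * ζ ^ 2 + (-2) * ζ ^ 3 + (3) * ζ ^ 4 + (-2) * ζ ^ 5 + (1) * ζ ^ 6 + (-2) * ζ ^ 7
      + (4) * ζ ^ 8 + (-4) * ζ ^ 9 + (5) * ζ ^ 10 + (-7) * ζ ^ 11 + (9) * ζ ^ 12 + (-166) * ζ ^ 13 + (166) * ζ ^ 14 + (-7) * ζ ^ 15
      + (9) * ζ ^ 16 + (-12) * ζ ^ 17 + (14) * ζ ^ 18 + (-17) * ζ ^ 19 + (22) * ζ ^ 20 + (-21) * ζ ^ 21 + (22) * ζ ^ 22 + (-26) * ζ ^ 23
      + (32) * ζ ^ 24 + (-30) * ζ ^ 25 + (-126) * ζ ^ 26 + (117) * ζ ^ 27 + (50) * ζ ^ 28 + (-49) * ζ ^ 29 + (52) * ζ ^ 30 + (-60) * ζ ^ 31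
      + (70) * ζ ^ 32 + (-73) * ζ ^ 33 + (80) * ζ ^ 34 + (-83) * ζ ^ 35 + (87) * ζ ^ 36 + (-90) * ζ ^ 37 + (100) * ζ ^ 38 + (-271) * ζ ^ 39
      + (288) * ζ ^ 40 + (-133) * ζ ^ 41 + (142) * ζ ^ 42 + (-158) * ζ ^ 43 + (177) * ζ ^ 44 + (-178) * ζ ^ 45 + (181) * ζ ^ 46 + (-196) * ζ ^ 47
      + (223) * ζ ^ 48 + (-234) * ζ ^ 49 + (252) * ζ ^ 50 + (-279) * ζ ^ 51 + (139) * ζ ^ 52 + (-144) * ζ ^ 53 + (327) * ζ ^ 54 + (-338) * ζ ^ 55
      + (354) * ζ ^ 56 + (-365) * ζ ^ 57 + (380) * ζ ^ 58 + (-415) * ζ ^ 59 + (470) * ζ ^ 60 + (-488) * ζ ^ 61 + (486) * ζ ^ 62 + (-501) * ζ ^ 63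
      + (544) * ζ ^ 64 + (-719) * ζ ^ 65 + (740) * ζ ^ 66 + (-616) * ζ ^ 67 + (660) * ζ ^ 68 + (-675) * ζ ^ 69 + (713) * ζ ^ 70 + (-766) * ζ ^ 71
      + (806) * ζ ^ 72 + (-810) * ζ ^ 73 + (832) * ζ ^ 74 + (-881) * ζ ^ 75 + (933) * ζ ^ 76 + (-947) * ζ ^ 77 + (800) * ζ ^ 78 + (-829) * ζ ^ 79
      + (1069) * ζ ^ 80 + (-1107) * ζ ^ 81 + (1126) * ζ ^ 82 + (-1168) * ζ ^ 83 + (1210) * ζ ^ 84 + (-1199) * ζ ^ 85 + (1221) * ζ ^ 86 + (-1296) * ζ ^ 87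
      + (1361) * ζ ^ 88 + (-1349) * ζ ^ 89 + (1378) * ζ ^ 90 + (-1644) * ζ ^ 91 + (1735) * ζ ^ 92 + (-1567) * ζ ^ 93 + (1576) * ζ ^ 94 + (-1603) * ζ ^ 95
      + (1626) * ζ ^ 96 + (-1665) * ζ ^ 97 + (1725) * ζ ^ 98 + (-1756) * ζ ^ 99 + (1821) * ζ ^ 100 + (-1853) * ζ ^ 101 + (1858) * ζ ^ 102 + (-1898) * ζ ^ 103
      + (1796) * ζ ^ 104 + (-1750) * ζ ^ 105 + (1885) * ζ ^ 106 + (-1981) * ζ ^ 107 + (2084) * ζ ^ 108 + (-2078) * ζ ^ 109 + (2080) * ζ ^ 110 + (-2128) * ζ ^ 111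
      + (2201) * ζ ^ 112 + (-2205) * ζ ^ 113 + (2210) * ζ ^ 114 + (-2266) * ζ ^ 115 + (2280) * ζ ^ 116 + (-2393) * ζ ^ 117 + (2411) * ζ ^ 118 + (-2311) * ζ ^ 119
      + (2394) * ζ ^ 120 + (-2378) * ζ ^ 121 + (2326) * ζ ^ 122 + (-2366) * ζ ^ 123 + (2462) * ζ ^ 124 + (-2404) * ζ ^ 125 + (2294) * ζ ^ 126 + (-2318) * ζ ^ 127
      + (2377) * ζ ^ 128 + (-2362) * ζ ^ 129 + (2228) * ζ ^ 130 + (-2316) * ζ ^ 131 + (2526) * ζ ^ 132 + (-2443) * ζ ^ 133 + (2416) * ζ ^ 134 + (-2462) * ζ ^ 135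
      + (2447) * ζ ^ 136 + (-2360) * ζ ^ 137 + (2328) * ζ ^ 138 + (-2406) * ζ ^ 139 + (2518) * ζ ^ 140 + (-2516) * ζ ^ 141 + (2421) * ζ ^ 142 + (-2501) * ζ ^ 143
      + (2566) * ζ ^ 144 + (-2340) * ζ ^ 145 + (2166) * ζ ^ 146 + (-2201) * ζ ^ 147 + (2297) * ζ ^ 148 + (-2239) * ζ ^ 149 + (2182) * ζ ^ 150 + (-2248) * ζ ^ 151
      + (2271) * ζ ^ 152 + (-2168) * ζ ^ 153 + (2092) * ζ ^ 154 + (-2125) * ζ ^ 155 + (2070) * ζ ^ 156 + (-2013) * ζ ^ 157 + (2082) * ζ ^ 158 + (-2096) * ζ ^ 159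
      + (2142) * ζ ^ 160 + (-2096) * ζ ^ 161 + (1975) * ζ ^ 162 + (-1976) * ζ ^ 163 + (2046) * ζ ^ 164 + (-1950) * ζ ^ 165 + (1787) * ζ ^ 166 + (-1780) * ζ ^ 167
      + (1871) * ζ ^ 168 + (-1847) * ζ ^ 169 + (1687) * ζ ^ 170 + (-1708) * ζ ^ 171 + (1788) * ζ ^ 172 + (-1650) * ζ ^ 173 + (1546) * ζ ^ 174 + (-1587) * ζ ^ 175
      + (1593) * ζ ^ 176 + (-1488) * ζ ^ 177 + (1433) * ζ ^ 178 + (-1492) * ζ ^ 179 + (1570) * ζ ^ 180 + (-1445) * ζ ^ 181 + (1318) * ζ ^ 182 + (-1385) * ζ ^ 183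
      + (1422) * ζ ^ 184 + (-1295) * ζ ^ 185 + (1167) * ζ ^ 186 + (-1189) * ζ ^ 187 + (1252) * ζ ^ 188 + (-1174) * ζ ^ 189 + (1067) * ζ ^ 190 + (-1115) * ζ ^ 191
      + (1142) * ζ ^ 192 + (-1033) * ζ ^ 193 + (974) * ζ ^ 194 + (-991) * ζ ^ 195 + (943) * ζ ^ 196 + (-864) * ζ ^ 197 + (837) * ζ ^ 198 + (-870) * ζ ^ 199
      + (908) * ζ ^ 200 + (-850) * ζ ^ 201 + (798) * ζ ^ 202 + (-794) * ζ ^ 203 + (807) * ζ ^ 204 + (-713) * ζ ^ 205 + (627) * ζ ^ 206 + (-653) * ζ ^ 207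
      + (699) * ζ ^ 208 + (-662) * ζ ^ 209 + (578) * ζ ^ 210 + (-611) * ζ ^ 211 + (619) * ζ ^ 212 + (-534) * ζ ^ 213 + (450) * ζ ^ 214 + (-484) * ζ ^ 215
      + (497) * ζ ^ 216 + (-435) * ζ ^ 217 + (432) * ζ ^ 218 + (-444) * ζ ^ 219 + (462) * ζ ^ 220 + (-400) * ζ ^ 221 + (357) * ζ ^ 222 + (-371) * ζ ^ 223
      + (384) * ζ ^ 224 + (-323) * ζ ^ 225 + (281) * ζ ^ 226 + (-316) * ζ ^ 227 + (317) * ζ ^ 228 + (-293) * ζ ^ 229 + (237) * ζ ^ 230 + (-256) * ζ ^ 231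
      + (268) * ζ ^ 232 + (-219) * ζ ^ 233 + (188) * ζ ^ 234 + (-197) * ζ ^ 235 + (196) * ζ ^ 236 + (-158) * ζ ^ 237 + (165) * ζ ^ 238 + (-169) * ζ ^ 239
      + (178) * ζ ^ 240 + (-150) * ζ ^ 241 + (132) * ζ ^ 242 + (-146) * ζ ^ 243 + (137) * ζ ^ 244 + (-118) * ζ ^ 245 + (95) * ζ ^ 246 + (-115) * ζ ^ 247
      + (117) * ζ ^ 248 + (-99) * ζ ^ 249 + (82) * ζ ^ 250 + (-93) * ζ ^ 251 + (104) * ζ ^ 252 + (-71) * ζ ^ 253 + (62) * ζ ^ 254 + (-63) * ζ ^ 255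
      + (62) * ζ ^ 256 + (-47) * ζ ^ 257 + (45) * ζ ^ 258 + (-54) * ζ ^ 259 + (47) * ζ ^ 260 + (-42) * ζ ^ 261 + (34) * ζ ^ 262 + (-39) * ζ ^ 263
      + (37) * ζ ^ 264 + (-25) * ζ ^ 265 + (20) * ζ ^ 266 + (-25) * ζ ^ 267 + (33) * ζ ^ 268 + (-27) * ζ ^ 269 + (24) * ζ ^ 270 + (-25) * ζ ^ 271
      + (24) * ζ ^ 272 + (-16) * ζ ^ 273 + (9) * ζ ^ 274 + (-15) * ζ ^ 275 + (15) * ζ ^ 276 + (-9) * ζ ^ 277 + (10) * ζ ^ 278 + (-12) * ζ ^ 279
      + (10) * ζ ^ 280 + (-7) * ζ ^ 281 + (6) * ζ ^ 282 + (-6) * ζ ^ 283 + (5) * ζ ^ 284 + (-2) * ζ ^ 285 + (2) * ζ ^ 286 + (-6) * ζ ^ 287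
      + (6) * ζ ^ 288 + (-4) * ζ ^ 289 + (3) * ζ ^ 290 + (-3) * ζ ^ 291 + (4) * ζ ^ 292 + (-2) * ζ ^ 293 + (1) * ζ ^ 294 + (-2) * ζ ^ 295
      + (1) * ζ ^ 296 + (1) * ζ ^ 298 + (-2) * ζ ^ 299 + (1) * ζ ^ 300) * hsum

theorem pid_13' (K : Type) [Field K] [NumberField K] [IsCyclotomicExtension {13} ℚ K] :
    IsPrincipalIdealRing (𝓞 K) := by
  have : Fact (Nat.Prime 13) := ⟨by norm_num⟩
  apply pid_of_bound 13 K 307
  · rw [minkowski_eq 13 K]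
    have h1 : √((13 : ℝ) ^ (13 - 2)) < 1338716 := by
      rw [Real.sqrt_lt' (by norm_num)]
      norm_num
    have h2 : (4 / π) ^ ((13 - 1) / 2) ≤ (4 / 3.14 : ℝ) ^ ((13 - 1) / 2) := by
      gcongr
      exact pi_gt_d2.le
    have h3 : (((13 - 1)! : ℕ) : ℝ) = 479001600 := by
      norm_num [Nat.factorial]
    push_cast
    rw [h3]
    calc (4 / π) ^ ((13 - 1) / 2) * (479001600 / ((13 - 1 : ℕ) : ℝ) ^ (13 - 1) * √((13 : ℝ) ^ (13 - 2)))
        ≤ (4 / 3.14 : ℝ) ^ ((13 - 1) / 2) * (479001600 / ((13 - 1 : ℕ) : ℝ) ^ (13 - 1) * 1338716) := by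
          gcongr
      _ < 307 + 1 := by norm_num
  · intro ℓ hℓ hprime hne
    rw [Finset.mem_Icc] at hℓ
    obtain ⟨h1, h2⟩ := hℓ
    interval_cases ℓ
    · exact absurd hprime (by norm_num)
    · exact Or.inl (lt_pow_orderOf 13 307 2 9 (by norm_num) (by decide) (by norm_num))
    · right
      have : Fact (Nat.Prime 3) := ⟨by norm_num⟩
      have ho : orderOf ((3 : ℕ) : ZMod 13) = 3 :=
        orderOf_eq_prime_of_mod 13 3 3 (by norm_num) (by norm_num)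
      rw [ho]
      exact exists_norm_13_3 K
    · exact absurd hprime (by norm_num)
    · exact Or.inl (lt_pow_orderOf 13 307 5 4 (by norm_num) (by decide) (by norm_num))
    · exact absurd hprime (by norm_num)
    · exact Or.inl (lt_pow_orderOf 13 307 7 3 (by norm_num) (by decide) (by norm_num))
    · exact absurd hprime (by norm_num)
    · exact absurd hprime (by norm_num)
    · exact absurd hprime (by norm_num)
    · exact Or.inl (lt_pow_orderOf 13 307 11 3 (by norm_num) (by decide) (by norm_num))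
    · exact absurd hprime (by norm_num)
    · exact absurd rfl hne
    · exact absurd hprime (by norm_num)
    · exact absurd hprime (by norm_num)
    · exact absurd hprime (by norm_num)
    · exact Or.inl (lt_pow_orderOf 13 307 17 3 (by norm_num) (by decide) (by norm_num))
    · exact absurd hprime (by norm_num)
    · exact Or.inl (lt_pow_orderOf 13 307 19 2 (by norm_num) (by decide) (by norm_num))
    · exact absurd hprime (by norm_num)
    · exact absurd hprime (by norm_num)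
    · exact absurd hprime (by norm_num)
    · exact Or.inl (lt_pow_orderOf 13 307 23 2 (by norm_num) (by decide) (by norm_num))
    · exact absurd hprime (by norm_num)
    · exact absurd hprime (by norm_num)
    · exact absurd hprime (by norm_num)
    · exact absurd hprime (by norm_num)
    · exact absurd hprime (by norm_num)
    · exact Or.inl (lt_pow_orderOf 13 307 29 2 (by norm_num) (by decide) (by norm_num))
    · exact absurd hprime (by norm_num)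
    · exact Or.inl (lt_pow_orderOf 13 307 31 2 (by norm_num) (by decide) (by norm_num))
    · exact absurd hprime (by norm_num)
    · exact absurd hprime (by norm_num)
    · exact absurd hprime (by norm_num)
    · exact absurd hprime (by norm_num)
    · exact absurd hprime (by norm_num)
    · exact Or.inl (lt_pow_orderOf 13 307 37 2 (by norm_num) (by decide) (by norm_num))
    · exact absurd hprime (by norm_num)
    · exact absurd hprime (by norm_num)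
    · exact absurd hprime (by norm_num)
    · exact Or.inl (lt_pow_orderOf 13 307 41 2 (by norm_num) (by decide) (by norm_num))
    · exact absurd hprime (by norm_num)
    · exact Or.inl (lt_pow_orderOf 13 307 43 2 (by norm_num) (by decide) (by norm_num))
    · exact absurd hprime (by norm_num)
    · exact absurd hprime (by norm_num)
    · exact absurd hprime (by norm_num)
    · exact Or.inl (lt_pow_orderOf 13 307 47 2 (by norm_num) (by decide) (by norm_num))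
    · exact absurd hprime (by norm_num)
    · exact absurd hprime (by norm_num)
    · exact absurd hprime (by norm_num)
    · exact absurd hprime (by norm_num)
    · exact absurd hprime (by norm_num)
    · right
      have ho : orderOf ((53 : ℕ) : ZMod 13) = 1 := orderOf_eq_one_of_mod 13 53 (by norm_num)
      rw [ho]
      exact exists_norm_13_53 K
    · exact absurd hprime (by norm_num)
    · exact absurd hprime (by norm_num)
    · exact absurd hprime (by norm_num)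
    · exact absurd hprime (by norm_num)
    · exact absurd hprime (by norm_num)
    · exact Or.inl (lt_pow_orderOf 13 307 59 2 (by norm_num) (by decide) (by norm_num))
    · exact absurd hprime (by norm_num)
    · exact Or.inl (lt_pow_orderOf 13 307 61 2 (by norm_num) (by decide) (by norm_num))
    · exact absurd hprime (by norm_num)
    · exact absurd hprime (by norm_num)
    · exact absurd hprime (by norm_num)
    · exact absurd hprime (by norm_num)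
    · exact absurd hprime (by norm_num)
    · exact Or.inl (lt_pow_orderOf 13 307 67 2 (by norm_num) (by decide) (by norm_num))
    · exact absurd hprime (by norm_num)
    · exact absurd hprime (by norm_num)
    · exact absurd hprime (by norm_num)
    · exact Or.inl (lt_pow_orderOf 13 307 71 2 (by norm_num) (by decide) (by norm_num))
    · exact absurd hprime (by norm_num)
    · exact Or.inl (lt_pow_orderOf 13 307 73 2 (by norm_num) (by decide) (by norm_num))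
    · exact absurd hprime (by norm_num)
    · exact absurd hprime (by norm_num)
    · exact absurd hprime (by norm_num)
    · exact absurd hprime (by norm_num)
    · exact absurd hprime (by norm_num)
    · right
      have ho : orderOf ((79 : ℕ) : ZMod 13) = 1 := orderOf_eq_one_of_mod 13 79 (by norm_num)
      rw [ho]
      exact exists_norm_13_79 K
    · exact absurd hprime (by norm_num)
    · exact absurd hprime (by norm_num)
    · exact absurd hprime (by norm_num)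
    · exact Or.inl (lt_pow_orderOf 13 307 83 2 (by norm_num) (by decide) (by norm_num))
    · exact absurd hprime (by norm_num)
    · exact absurd hprime (by norm_num)
    · exact absurd hprime (by norm_num)
    · exact absurd hprime (by norm_num)
    · exact absurd hprime (by norm_num)
    · exact Or.inl (lt_pow_orderOf 13 307 89 2 (by norm_num) (by decide) (by norm_num))
    · exact absurd hprime (by norm_num)
    · exact absurd hprime (by norm_num)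
    · exact absurd hprime (by norm_num)
    · exact absurd hprime (by norm_num)
    · exact absurd hprime (by norm_num)
    · exact absurd hprime (by norm_num)
    · exact absurd hprime (by norm_num)
    · exact Or.inl (lt_pow_orderOf 13 307 97 2 (by norm_num) (by decide) (by norm_num))
    · exact absurd hprime (by norm_num)
    · exact absurd hprime (by norm_num)
    · exact absurd hprime (by norm_num)
    · exact Or.inl (lt_pow_orderOf 13 307 101 2 (by norm_num) (by decide) (by norm_num))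
    · exact absurd hprime (by norm_num)
    · exact Or.inl (lt_pow_orderOf 13 307 103 2 (by norm_num) (by decide) (by norm_num))
    · exact absurd hprime (by norm_num)
    · exact absurd hprime (by norm_num)
    · exact absurd hprime (by norm_num)
    · exact Or.inl (lt_pow_orderOf 13 307 107 2 (by norm_num) (by decide) (by norm_num))
    · exact absurd hprime (by norm_num)
    · exact Or.inl (lt_pow_orderOf 13 307 109 2 (by norm_num) (by decide) (by norm_num))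
    · exact absurd hprime (by norm_num)
    · exact absurd hprime (by norm_num)
    · exact absurd hprime (by norm_num)
    · exact Or.inl (lt_pow_orderOf 13 307 113 2 (by norm_num) (by decide) (by norm_num))
    · exact absurd hprime (by norm_num)
    · exact absurd hprime (by norm_num)
    · exact absurd hprime (by norm_num)
    · exact absurd hprime (by norm_num)
    · exact absurd hprime (by norm_num)
    · exact absurd hprime (by norm_num)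
    · exact absurd hprime (by norm_num)
    · exact absurd hprime (by norm_num)
    · exact absurd hprime (by norm_num)
    · exact absurd hprime (by norm_num)
    · exact absurd hprime (by norm_num)
    · exact absurd hprime (by norm_num)
    · exact absurd hprime (by norm_num)
    · exact Or.inl (lt_pow_orderOf 13 307 127 2 (by norm_num) (by decide) (by norm_num))
    · exact absurd hprime (by norm_num)
    · exact absurd hprime (by norm_num)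
    · exact absurd hprime (by norm_num)
    · right
      have ho : orderOf ((131 : ℕ) : ZMod 13) = 1 := orderOf_eq_one_of_mod 13 131 (by norm_num)
      rw [ho]
      exact exists_norm_13_131 K
    · exact absurd hprime (by norm_num)
    · exact absurd hprime (by norm_num)
    · exact absurd hprime (by norm_num)
    · exact absurd hprime (by norm_num)
    · exact absurd hprime (by norm_num)
    · exact Or.inl (lt_pow_orderOf 13 307 137 2 (by norm_num) (by decide) (by norm_num))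
    · exact absurd hprime (by norm_num)
    · exact Or.inl (lt_pow_orderOf 13 307 139 2 (by norm_num) (by decide) (by norm_num))
    · exact absurd hprime (by norm_num)
    · exact absurd hprime (by norm_num)
    · exact absurd hprime (by norm_num)
    · exact absurd hprime (by norm_num)
    · exact absurd hprime (by norm_num)
    · exact absurd hprime (by norm_num)
    · exact absurd hprime (by norm_num)
    · exact absurd hprime (by norm_num)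
    · exact absurd hprime (by norm_num)
    · exact Or.inl (lt_pow_orderOf 13 307 149 2 (by norm_num) (by decide) (by norm_num))
    · exact absurd hprime (by norm_num)
    · exact Or.inl (lt_pow_orderOf 13 307 151 2 (by norm_num) (by decide) (by norm_num))
    · exact absurd hprime (by norm_num)
    · exact absurd hprime (by norm_num)
    · exact absurd hprime (by norm_num)
    · exact absurd hprime (by norm_num)
    · exact absurd hprime (by norm_num)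
    · right
      have ho : orderOf ((157 : ℕ) : ZMod 13) = 1 := orderOf_eq_one_of_mod 13 157 (by norm_num)
      rw [ho]
      exact exists_norm_13_157 K
    · exact absurd hprime (by norm_num)
    · exact absurd hprime (by norm_num)
    · exact absurd hprime (by norm_num)
    · exact absurd hprime (by norm_num)
    · exact absurd hprime (by norm_num)
    · exact Or.inl (lt_pow_orderOf 13 307 163 2 (by norm_num) (by decide) (by norm_num))
    · exact absurd hprime (by norm_num)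
    · exact absurd hprime (by norm_num)
    · exact absurd hprime (by norm_num)
    · exact Or.inl (lt_pow_orderOf 13 307 167 2 (by norm_num) (by decide) (by norm_num))
    · exact absurd hprime (by norm_num)
    · exact absurd hprime (by norm_num)
    · exact absurd hprime (by norm_num)
    · exact absurd hprime (by norm_num)
    · exact absurd hprime (by norm_num)
    · exact Or.inl (lt_pow_orderOf 13 307 173 2 (by norm_num) (by decide) (by norm_num))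
    · exact absurd hprime (by norm_num)
    · exact absurd hprime (by norm_num)
    · exact absurd hprime (by norm_num)
    · exact absurd hprime (by norm_num)
    · exact absurd hprime (by norm_num)
    · exact Or.inl (lt_pow_orderOf 13 307 179 2 (by norm_num) (by decide) (by norm_num))
    · exact absurd hprime (by norm_num)
    · exact Or.inl (lt_pow_orderOf 13 307 181 2 (by norm_num) (by decide) (by norm_num))
    · exact absurd hprime (by norm_num)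
    · exact absurd hprime (by norm_num)
    · exact absurd hprime (by norm_num)
    · exact absurd hprime (by norm_num)
    · exact absurd hprime (by norm_num)
    · exact absurd hprime (by norm_num)
    · exact absurd hprime (by norm_num)
    · exact absurd hprime (by norm_num)
    · exact absurd hprime (by norm_num)
    · exact Or.inl (lt_pow_orderOf 13 307 191 2 (by norm_num) (by decide) (by norm_num))
    · exact absurd hprime (by norm_num)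
    · exact Or.inl (lt_pow_orderOf 13 307 193 2 (by norm_num) (by decide) (by norm_num))
    · exact absurd hprime (by norm_num)
    · exact absurd hprime (by norm_num)
    · exact absurd hprime (by norm_num)
    · exact Or.inl (lt_pow_orderOf 13 307 197 2 (by norm_num) (by decide) (by norm_num))
    · exact absurd hprime (by norm_num)
    · exact Or.inl (lt_pow_orderOf 13 307 199 2 (by norm_num) (by decide) (by norm_num))
    · exact absurd hprime (by norm_num)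
    · exact absurd hprime (by norm_num)
    · exact absurd hprime (by norm_num)
    · exact absurd hprime (by norm_num)
    · exact absurd hprime (by norm_num)
    · exact absurd hprime (by norm_num)
    · exact absurd hprime (by norm_num)
    · exact absurd hprime (by norm_num)
    · exact absurd hprime (by norm_num)
    · exact absurd hprime (by norm_num)
    · exact absurd hprime (by norm_num)
    · exact Or.inl (lt_pow_orderOf 13 307 211 2 (by norm_num) (by decide) (by norm_num))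
    · exact absurd hprime (by norm_num)
    · exact absurd hprime (by norm_num)
    · exact absurd hprime (by norm_num)
    · exact absurd hprime (by norm_num)
    · exact absurd hprime (by norm_num)
    · exact absurd hprime (by norm_num)
    · exact absurd hprime (by norm_num)
    · exact absurd hprime (by norm_num)
    · exact absurd hprime (by norm_num)
    · exact absurd hprime (by norm_num)
    · exact absurd hprime (by norm_num)
    · exact Or.inl (lt_pow_orderOf 13 307 223 2 (by norm_num) (by decide) (by norm_num))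
    · exact absurd hprime (by norm_num)
    · exact absurd hprime (by norm_num)
    · exact absurd hprime (by norm_num)
    · exact Or.inl (lt_pow_orderOf 13 307 227 2 (by norm_num) (by decide) (by norm_num))
    · exact absurd hprime (by norm_num)
    · exact Or.inl (lt_pow_orderOf 13 307 229 2 (by norm_num) (by decide) (by norm_num))
    · exact absurd hprime (by norm_num)
    · exact absurd hprime (by norm_num)
    · exact absurd hprime (by norm_num)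
    · exact Or.inl (lt_pow_orderOf 13 307 233 2 (by norm_num) (by decide) (by norm_num))
    · exact absurd hprime (by norm_num)
    · exact absurd hprime (by norm_num)
    · exact absurd hprime (by norm_num)
    · exact absurd hprime (by norm_num)
    · exact absurd hprime (by norm_num)
    · exact Or.inl (lt_pow_orderOf 13 307 239 2 (by norm_num) (by decide) (by norm_num))
    · exact absurd hprime (by norm_num)
    · exact Or.inl (lt_pow_orderOf 13 307 241 2 (by norm_num) (by decide) (by norm_num))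
    · exact absurd hprime (by norm_num)
    · exact absurd hprime (by norm_num)
    · exact absurd hprime (by norm_num)
    · exact absurd hprime (by norm_num)
    · exact absurd hprime (by norm_num)
    · exact absurd hprime (by norm_num)
    · exact absurd hprime (by norm_num)
    · exact absurd hprime (by norm_num)
    · exact absurd hprime (by norm_num)
    · exact Or.inl (lt_pow_orderOf 13 307 251 2 (by norm_num) (by decide) (by norm_num))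
    · exact absurd hprime (by norm_num)
    · exact absurd hprime (by norm_num)
    · exact absurd hprime (by norm_num)
    · exact absurd hprime (by norm_num)
    · exact absurd hprime (by norm_num)
    · exact Or.inl (lt_pow_orderOf 13 307 257 2 (by norm_num) (by decide) (by norm_num))
    · exact absurd hprime (by norm_num)
    · exact absurd hprime (by norm_num)
    · exact absurd hprime (by norm_num)
    · exact absurd hprime (by norm_num)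
    · exact absurd hprime (by norm_num)
    · exact Or.inl (lt_pow_orderOf 13 307 263 2 (by norm_num) (by decide) (by norm_num))
    · exact absurd hprime (by norm_num)
    · exact absurd hprime (by norm_num)
    · exact absurd hprime (by norm_num)
    · exact absurd hprime (by norm_num)
    · exact absurd hprime (by norm_num)
    · exact Or.inl (lt_pow_orderOf 13 307 269 2 (by norm_num) (by decide) (by norm_num))
    · exact absurd hprime (by norm_num)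
    · exact Or.inl (lt_pow_orderOf 13 307 271 2 (by norm_num) (by decide) (by norm_num))
    · exact absurd hprime (by norm_num)
    · exact absurd hprime (by norm_num)
    · exact absurd hprime (by norm_num)
    · exact absurd hprime (by norm_num)
    · exact absurd hprime (by norm_num)
    · exact Or.inl (lt_pow_orderOf 13 307 277 2 (by norm_num) (by decide) (by norm_num))
    · exact absurd hprime (by norm_num)
    · exact absurd hprime (by norm_num)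
    · exact absurd hprime (by norm_num)
    · exact Or.inl (lt_pow_orderOf 13 307 281 2 (by norm_num) (by decide) (by norm_num))
    · exact absurd hprime (by norm_num)
    · exact Or.inl (lt_pow_orderOf 13 307 283 2 (by norm_num) (by decide) (by norm_num))
    · exact absurd hprime (by norm_num)
    · exact absurd hprime (by norm_num)
    · exact absurd hprime (by norm_num)
    · exact absurd hprime (by norm_num)
    · exact absurd hprime (by norm_num)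
    · exact absurd hprime (by norm_num)
    · exact absurd hprime (by norm_num)
    · exact absurd hprime (by norm_num)
    · exact absurd hprime (by norm_num)
    · exact Or.inl (lt_pow_orderOf 13 307 293 2 (by norm_num) (by decide) (by norm_num))
    · exact absurd hprime (by norm_num)
    · exact absurd hprime (by norm_num)
    · exact absurd hprime (by norm_num)
    · exact absurd hprime (by norm_num)
    · exact absurd hprime (by norm_num)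
    · exact absurd hprime (by norm_num)
    · exact absurd hprime (by norm_num)
    · exact absurd hprime (by norm_num)
    · exact absurd hprime (by norm_num)
    · exact absurd hprime (by norm_num)
    · exact absurd hprime (by norm_num)
    · exact absurd hprime (by norm_num)
    · exact absurd hprime (by norm_num)
    · exact Or.inl (lt_pow_orderOf 13 307 307 2 (by norm_num) (by decide) (by norm_num))

theorem pid_13 : IsPrincipalIdealRing (𝓞 (CyclotomicField 13 ℚ)) := by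
  have h : IsCyclotomicExtension {13} ℚ (CyclotomicField 13 ℚ) :=
    CyclotomicField.isCyclotomicExtension 13 ℚ
  exact pid_13' _

end Fermat.Agent.Kummer
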