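import Fermat.Agent.Kummer.PIDGeneral

set_option autoImplicit false

open NumberField Ideal IsCyclotomicExtension.Rat Module InfinitePlace Nat Real Polynomial

namespace Fermat.Agent.Kummer

theorem pid_7' (K : Type) [Field K] [NumberField K] [IsCyclotomicExtension {7} ℚ K] :
    IsPrincipalIdealRing (𝓞 K) := by
  have : Fact (Nat.Prime 7) := ⟨by norm_num⟩
  apply pid_of_bound 7 K 4
  · rw [minkowski_eq 7 K]
    have h1 : √((7 : ℝ) ^ (7 - 2)) < 130 := by
      rw [Real.sqrt_lt' (by norm_num)]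
      norm_num
    have h2 : (4 / π) ^ ((7 - 1) / 2) ≤ (4 / 3 : ℝ) ^ ((7 - 1) / 2) := by
      gcongr
      exact pi_gt_three.le
    have h3 : (((7 - 1)! : ℕ) : ℝ) = 720 := by
      norm_num [Nat.factorial]
    push_cast
    rw [h3]
    calc (4 / π) ^ ((7 - 1) / 2) * (720 / ((7 - 1 : ℕ) : ℝ) ^ (7 - 1) * √((7 : ℝ) ^ (7 - 2)))
        ≤ (4 / 3 : ℝ) ^ ((7 - 1) / 2) * (720 / ((7 - 1 : ℕ) : ℝ) ^ (7 - 1) * 130) := by
          gcongr
      _ < 4 + 1 := by norm_num
  · intro ℓ hℓ hprime hne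
    rw [Finset.mem_Icc] at hℓ
    left
    obtain ⟨h1, h2⟩ := hℓ
    interval_cases ℓ
    · norm_num at hprime
    · exact lt_pow_orderOf 7 4 2 3 (by norm_num) (by decide) (by norm_num)
    · exact lt_pow_orderOf 7 4 3 2 (by norm_num) (by decide) (by norm_num)
    · norm_num at hprime

theorem pid_7 : IsPrincipalIdealRing (𝓞 (CyclotomicField 7 ℚ)) := by
  have h : IsCyclotomicExtension {7} ℚ (CyclotomicField 7 ℚ) :=
    CyclotomicField.isCyclotomicExtension 7 ℚ
  exact pid_7' _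

end Fermat.Agent.Kummer
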