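import Mathlib

set_option autoImplicit false

open NumberField Ideal IsCyclotomicExtension.Rat

namespace Fermat.Agent.Kummer

section

variable (K : Type) [Field K] [NumberField K]

theorem norm_smul_eq (σ : Gal(K/ℚ)) (α : 𝓞 K) :
    Algebra.norm ℤ (σ • α) = Algebra.norm ℤ α := by
  have h : ((Algebra.norm ℤ (σ • α) : ℤ) : ℚ) = ((Algebra.norm ℤ α : ℤ) : ℚ) := by
    rw [Algebra.coe_norm_int, Algebra.coe_norm_int]
    exact Algebra.norm_eq_of_algEquiv σ (α : K)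
  exact_mod_cast h

theorem norm_eq_prod_smul [IsGalois ℚ K] (α : 𝓞 K) :
    ((Algebra.norm ℤ α : ℤ) : 𝓞 K) = ∏ σ : Gal(K/ℚ), σ • α := by
  apply RingOfIntegers.coe_injective
  have h1 : (((Algebra.norm ℤ α : ℤ) : 𝓞 K) : K) = algebraMap ℚ K (Algebra.norm ℚ (α : K)) := by
    rw [← Algebra.coe_norm_int]
    simp
  change (((Algebra.norm ℤ α : ℤ) : 𝓞 K) : K) = ((∏ σ : Gal(K/ℚ), σ • α : 𝓞 K) : K)
  rw [h1, Algebra.norm_eq_prod_automorphisms]
  change _ = algebraMap (𝓞 K) K (∏ σ : Gal(K/ℚ), σ • α)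
  rw [map_prod]
  rfl

end

/-- An element of norm `± ℓ ^ f` generates (up to conjugation) a prime above `ℓ`. -/
theorem exists_isPrincipal_of_norm (p : ℕ) [NeZero p] (K : Type) [Field K] [NumberField K]
    [IsCyclotomicExtension {p} ℚ K] (ℓ : ℕ) [hℓ : Fact ℓ.Prime] (hℓp : ¬ ℓ ∣ p) (α : 𝓞 K)
    (hα : (Algebra.norm ℤ α).natAbs = ℓ ^ orderOf (ℓ : ZMod p)) :
    ∃ P ∈ primesOver (span {(ℓ : ℤ)}) (𝓞 K), Submodule.IsPrincipal P := by
  have hgal : IsGalois ℚ K := IsCyclotomicExtension.isGalois {p} ℚ K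
  obtain ⟨⟨P, hP1, hP2⟩⟩ := (span {(ℓ : ℤ)}).nonempty_primesOver (S := 𝓞 K)
  have hnorm : absNorm P = ℓ ^ orderOf (ℓ : ZMod p) := by
    rw [← Ideal.pow_inertiaDeg ℓ P, inertiaDeg_eq_of_not_dvd ℓ K P hℓp]
  have hNP : ((Algebra.norm ℤ α : ℤ) : 𝓞 K) ∈ P := by
    have h1 : ((absNorm P : ℕ) : 𝓞 K) ∈ P := absNorm_mem P
    rw [hnorm, ← hα] at h1
    have h2 : (((Algebra.norm ℤ α).natAbs : ℤ) : 𝓞 K) ∈ P := by
      rw [Int.cast_natCast]; exact h1
    rcases Int.natAbs_eq (Algebra.norm ℤ α) with h | h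
    · rw [h]; exact h2
    · rw [h, Int.cast_neg]
      exact neg_mem h2
  rw [norm_eq_prod_smul] at hNP
  obtain ⟨σ, -, hσ⟩ := (hP1.prod_mem_iff).1 hNP
  refine ⟨P, ⟨hP1, hP2⟩, ⟨σ • α, ?_⟩⟩
  have hle : span {σ • α} ≤ P := (span_singleton_le_iff_mem P).2 hσ
  obtain ⟨L, hL⟩ := Ideal.dvd_iff_le.2 hle
  have h2 : absNorm (span {σ • α}) = absNorm P := by
    rw [absNorm_span_singleton, norm_smul_eq, hα, hnorm]
  rw [hL, map_mul] at h2
  have hpos : 0 < absNorm P := by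
    rw [hnorm]; exact pow_pos hℓ.out.pos _
  have h3 : absNorm L = 1 := by
    have : absNorm P * absNorm L = absNorm P * 1 := by rw [h2, mul_one]
    exact Nat.eq_of_mul_eq_mul_left hpos this
  rw [absNorm_eq_one_iff] at h3
  rw [h3, Ideal.mul_top] at hL
  exact hL.symm


theorem liesOver_span_zeta_sub_one_prime (p : ℕ) [hp : Fact p.Prime] (K : Type) [Field K]
    [NumberField K] [hK : IsCyclotomicExtension {p} ℚ K] {ζ : K} (hζ : IsPrimitiveRoot ζ p) :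
    (span {hζ.toInteger - 1}).LiesOver (span {(p : ℤ)}) := by
  rw [← pow_one p] at hK hζ
  exact liesOver_span_zeta_sub_one p 0 hζ

open Module InfinitePlace Nat Real in
/-- PID criterion for the `p`-th cyclotomic field, with an explicit upper bound `B` for the
Minkowski bound. -/
theorem pid_of_bound (p : ℕ) [hp : Fact p.Prime] (K : Type) [Field K] [NumberField K]
    [IsCyclotomicExtension {p} ℚ K] (B : ℕ)
    (hB : (4 / π) ^ nrComplexPlaces K *
      ((finrank ℚ K)! / (finrank ℚ K) ^ (finrank ℚ K) * √|discr K|) < B + 1)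
    (h : ∀ ℓ ∈ Finset.Icc 1 B, ℓ.Prime → ℓ ≠ p →
      B < ℓ ^ orderOf (ℓ : ZMod p) ∨
        ∃ α : 𝓞 K, (Algebra.norm ℤ α).natAbs = ℓ ^ orderOf (ℓ : ZMod p)) :
    IsPrincipalIdealRing (𝓞 K) := by
  have hgal : IsGalois ℚ K := IsCyclotomicExtension.isGalois {p} ℚ K
  have hfloor : ⌊(4 / π) ^ nrComplexPlaces K *
      ((finrank ℚ K)! / (finrank ℚ K) ^ (finrank ℚ K) * √|discr K|)⌋₊ ≤ B := by
    rw [← Nat.lt_succ_iff, Nat.floor_lt (by positivity)]
    exact_mod_cast hB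
  apply RingOfIntegers.isPrincipalIdealRing_of_isPrincipal_of_lt_or_isPrincipal_of_mem_primesOver_of_mem_Icc
  intro ℓ hℓmem hℓ
  rw [Finset.mem_Icc] at hℓmem
  by_cases hℓp : ℓ = p
  · subst hℓp
    have hζ := IsCyclotomicExtension.zeta_spec ℓ ℚ K
    exact ⟨span {hζ.toInteger - 1}, ⟨isPrime_span_zeta_sub_one' ℓ hζ,
      liesOver_span_zeta_sub_one_prime ℓ K hζ⟩, Or.inr ⟨_, rfl⟩⟩
  · have hndvd : ¬ ℓ ∣ p := by
      intro hd
      exact hℓp ((Nat.prime_dvd_prime_iff_eq hℓ hp.out).1 hd)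
    have : Fact ℓ.Prime := ⟨hℓ⟩
    rcases h ℓ (Finset.mem_Icc.2 ⟨hℓmem.1, hℓmem.2.trans hfloor⟩) hℓ hℓp with h1 | ⟨α, hα⟩
    · obtain ⟨⟨P, hP1, hP2⟩⟩ := (span {(ℓ : ℤ)}).nonempty_primesOver (S := 𝓞 K)
      refine ⟨P, ⟨hP1, hP2⟩, Or.inl ?_⟩
      rw [inertiaDeg_eq_of_not_dvd ℓ K P hndvd]
      exact lt_of_le_of_lt hfloor h1
    · obtain ⟨P, hP, hprin⟩ := exists_isPrincipal_of_norm p K ℓ hndvd α hα
      exact ⟨P, hP, Or.inr hprin⟩


theorem smul_aeval (K : Type) [Field K] [NumberField K] (σ : Gal(K/ℚ)) (x : 𝓞 K)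
    (A : Polynomial ℤ) : σ • Polynomial.aeval x A = Polynomial.aeval (σ • x) A := by
  have := Polynomial.aeval_algHom_apply
    ((MulSemiringAction.toRingHom Gal(K/ℚ) (𝓞 K) σ).toIntAlgHom) x A
  exact this.symm

/-- Compute the absolute norm of `A(ζ)` from the product of its conjugates. -/
theorem natAbs_norm_aeval (p : ℕ) [hp : Fact p.Prime] (K : Type) [Field K] [NumberField K]
    [IsCyclotomicExtension {p} ℚ K] (ζ : 𝓞 K) (hζ : ζ ^ p = 1) (A : Polynomial ℤ) (m : ℤ)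
    (hprod : ∏ k ∈ Finset.range (p - 1), Polynomial.aeval (ζ ^ (k + 1)) A = (m : 𝓞 K)) :
    (Algebra.norm ℤ (Polynomial.aeval ζ A)).natAbs = m.natAbs := by
  have hp1 : 1 < p := hp.out.one_lt
  have hconj : ∀ k ∈ Finset.range (p - 1),
      Algebra.norm ℤ (Polynomial.aeval (ζ ^ (k + 1)) A) =
        Algebra.norm ℤ (Polynomial.aeval ζ A) := by
    intro k' hk
    rw [Finset.mem_range] at hk
    obtain ⟨k, hk'⟩ : ∃ k, k = k' + 1 := ⟨_, rfl⟩
    rw [← hk']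
    have hkp : k < p := by omega
    have hcop : Nat.Coprime k p := by
      rw [Nat.coprime_comm, hp.out.coprime_iff_not_dvd]
      intro hd
      have := Nat.le_of_dvd (by omega) hd
      omega
    let σ : Gal(K/ℚ) := (galEquivZMod p K).symm (ZMod.unitOfCoprime k hcop)
    have hσ : σ • ζ = ζ ^ k := by
      rw [galEquivZMod_smul_of_pow_eq p K σ hζ]
      simp only [σ, MulEquiv.apply_symm_apply, ZMod.coe_unitOfCoprime]
      rw [ZMod.val_natCast_of_lt hkp]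
    rw [← hσ, ← smul_aeval, norm_smul_eq]
  have h1 := congrArg (Algebra.norm ℤ) hprod
  rw [map_prod, Finset.prod_congr rfl hconj, Finset.prod_const, Finset.card_range] at h1
  have h2 : Algebra.norm ℤ ((m : ℤ) : 𝓞 K) = m ^ (p - 1) := by
    have := Algebra.norm_algebraMap (R := ℤ) (S := 𝓞 K) m
    rw [RingOfIntegers.rank, IsCyclotomicExtension.finrank (n := p) K
      (Polynomial.cyclotomic.irreducible_rat hp.out.pos), Nat.totient_prime hp.out] at this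
    simpa using this
  rw [h2] at h1
  have h3 := congrArg Int.natAbs h1
  rw [Int.natAbs_pow, Int.natAbs_pow] at h3
  exact Nat.pow_left_injective (n := p - 1) (by omega) h3

theorem lt_pow_orderOf (p B ℓ m : ℕ) [hp : Fact p.Prime] (hℓ : ¬ p ∣ ℓ)
    (h1 : ∀ j < m, 0 < j → ℓ ^ j % p ≠ 1) (h2 : B < ℓ ^ m) :
    B < ℓ ^ orderOf (ℓ : ZMod p) := by
  have hne : (ℓ : ZMod p) ≠ 0 := by
    rwa [Ne, ZMod.natCast_eq_zero_iff]
  have hpos : 0 < orderOf (ℓ : ZMod p) := by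
    rw [orderOf_pos_iff, isOfFinOrder_iff_pow_eq_one]
    exact ⟨p - 1, by have := hp.out.one_lt; omega, ZMod.pow_card_sub_one_eq_one hne⟩
  have hm : m ≤ orderOf (ℓ : ZMod p) := by
    by_contra hlt
    apply h1 _ (not_le.1 hlt) hpos
    have h3 : ((ℓ ^ orderOf (ℓ : ZMod p) : ℕ) : ZMod p) = ((1 : ℕ) : ZMod p) := by
      push_cast
      exact pow_orderOf_eq_one _
    rw [ZMod.natCast_eq_natCast_iff'] at h3
    rw [h3]
    exact Nat.mod_eq_of_lt hp.out.one_lt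
  have hℓ1 : 1 ≤ ℓ := by
    rcases Nat.eq_zero_or_pos ℓ with h | h
    · subst h; simp at hℓ
    · exact h
  exact lt_of_lt_of_le h2 (Nat.pow_le_pow_right hℓ1 hm)

open Module InfinitePlace Nat Real Polynomial in
/-- The Minkowski bound of the `p`-th cyclotomic field. -/
theorem minkowski_eq (p : ℕ) [hp : Fact p.Prime] (K : Type) [Field K] [NumberField K]
    [IsCyclotomicExtension {p} ℚ K] :
    (4 / π) ^ nrComplexPlaces K *
      ((finrank ℚ K)! / (finrank ℚ K) ^ (finrank ℚ K) * √|discr K|) =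
    (4 / π) ^ ((p - 1) / 2) *
      (((p - 1)! : ℕ) / ((p - 1 : ℕ) : ℝ) ^ (p - 1) * √((p : ℝ) ^ (p - 2))) := by
  rw [discr_prime p K, IsCyclotomicExtension.finrank (n := p) K
    (cyclotomic.irreducible_rat hp.out.pos), nrComplexPlaces_eq_totient_div_two p,
    totient_prime hp.out]
  congr 3
  push_cast
  rw [abs_mul, abs_pow, abs_neg, abs_one, one_pow, one_mul, abs_pow]
  simp

theorem orderOf_eq_one_of_mod (p ℓ : ℕ) (h : ℓ % p = 1 % p) : orderOf (ℓ : ZMod p) = 1 := by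
  rw [orderOf_eq_one_iff]
  have : ((ℓ : ℕ) : ZMod p) = ((1 : ℕ) : ZMod p) := (ZMod.natCast_eq_natCast_iff' _ _ _).2 h
  simpa using this

theorem orderOf_eq_prime_of_mod (p ℓ f : ℕ) [Fact f.Prime] (h1 : ℓ ^ f % p = 1 % p)
    (h2 : ℓ % p ≠ 1 % p) : orderOf (ℓ : ZMod p) = f := by
  apply orderOf_eq_prime
  · have : ((ℓ ^ f : ℕ) : ZMod p) = ((1 : ℕ) : ZMod p) := (ZMod.natCast_eq_natCast_iff' _ _ _).2 h1
    simpa using this
  · intro h
    apply h2
    rw [← ZMod.natCast_eq_natCast_iff']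
    simpa using h

end Fermat.Agent.Kummer
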